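import Fermat.Agent.Lifting.Criterion.Omega
import Fermat.Agent.RT.Assembly.Coords
import Fermat.Agent.Lifting.Patch.Transfer

/-!
# Moving a presentation to a point
-/

set_option autoImplicit false
set_option linter.style.haveILetI false

noncomputable section

namespace Fermat.Agent.Lifting.Assembly

open IsLocalRing MvPowerSeries Fermat.Agent.Patching

/-- A surjective endomorphism of a Noetherian ring is injective. -/
theorem injective_of_surjective_end {R : Type} [CommRing R] [IsNoetherianRing R] (f : R →+* R)
    (hf : Function.Surjective f) : Function.Injective f := by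
  let J : ℕ → Ideal R := fun n => Nat.rec ⊥ (fun _ I => I.comap f) n
  have hmono : Monotone J := monotone_nat_of_le_succ fun n => by
    induction n with
    | zero => exact bot_le
    | succ n ih => exact Ideal.comap_mono ih
  obtain ⟨n, hn⟩ := monotone_stabilizes_iff_noetherian.mpr ‹IsNoetherianRing R› ⟨J, hmono⟩
  refine (injective_iff_map_eq_zero f).mpr fun x hx => ?_
  have key : ∀ (m : ℕ) (z : R), z ∈ J m ↔ f^[m] z = 0 := fun m => by
    induction m with
    | zero => exact fun z => Ideal.mem_bot
    | succ m ih =>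
      exact fun z => (ih (f z)).trans (by rw [Function.iterate_succ_apply])
  obtain ⟨y, rfl⟩ : ∃ y, f^[n] y = x := hf.iterate n x
  have h1 : y ∈ J (n + 1) := (key (n + 1) y).mpr (by rw [Function.iterate_succ_apply', hx])
  rw [show J (n + 1) = J n from (hn (n + 1) n.le_succ).symm] at h1
  exact (key n y).mp h1

variable {O : Type} [CommRing O] [IsDomain O] [IsDiscreteValuationRing O]
  [IsAdicComplete (maximalIdeal O) O] [Finite (ResidueField O)]

/-- A presentation by regular relations can be centred at any point. -/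
theorem exists_centred_presentation {T : Type} [CommRing T] [IsLocalRing T] [Algebra O T]
    (x : T →ₐ[O] O) {r : ℕ} (γ : MvPowerSeries (Fin r) O →ₐ[O] T) (hγ : Function.Surjective γ)
    (f : Fin r → MvPowerSeries (Fin r) O) (hker : RingHom.ker γ = Ideal.span (Set.range f))
    (hreg : ∀ ϖ : O, Irreducible ϖ → RingTheory.Sequence.IsWeaklyRegular
      (MvPowerSeries (Fin r) O) (List.ofFn f ++ [C ϖ])) :
    ∃ (γ' : MvPowerSeries (Fin r) O →ₐ[O] T) (f' : Fin r → MvPowerSeries (Fin r) O),
      Function.Surjective γ' ∧ (∀ i, x (γ' (X i)) = 0) ∧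
      RingHom.ker γ' = Ideal.span (Set.range f') ∧
      ∀ ϖ : O, Irreducible ϖ → RingTheory.Sequence.IsWeaklyRegular
        (MvPowerSeries (Fin r) O) (List.ofFn f' ++ [C ϖ]) := by
  let P := MvPowerSeries (Fin r) O
  haveI : IsPrecomplete (maximalIdeal P) P := isPrecomplete_maximalIdeal_mvPowerSeries
  haveI : IsAdicComplete (maximalIdeal P) P :=
    { haus' := (IsHausdorff.of_isLocalRing (maximalIdeal P) P
        (maximalIdeal.isMaximal P).ne_top).haus' }
  have hC : ∀ c : O, algebraMap O P c = C c := fun _ => rfl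
  haveI : IsLocalHom (algebraMap O P) := by
    refine ⟨fun c hc => ?_⟩
    rw [hC, isUnit_iff_constantCoeff, constantCoeff_C] at hc
    exact hc
  have hmem : ∀ g : P, g ∈ maximalIdeal P ↔ constantCoeff g ∈ maximalIdeal O := fun g => by
    rw [IsLocalRing.mem_maximalIdeal, mem_nonunits_iff, isUnit_iff_constantCoeff,
      IsLocalRing.mem_maximalIdeal, mem_nonunits_iff]
  set a : Fin r → O := fun i => x (γ (X i))
  have ha : ∀ i, a i ∈ maximalIdeal O := fun i => by
    refine (IsLocalRing.mem_maximalIdeal _).mpr fun hu => ?_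
    have hX : ¬ IsUnit (X i : P) := fun h => by simpa using isUnit_iff_constantCoeff.mp h
    obtain ⟨y, hy⟩ := hu.exists_right_inv
    have hxu : IsUnit (γ (X i)) := by
      by_contra hn
      have hk : RingHom.ker x ≤ maximalIdeal T := le_maximalIdeal (RingHom.ker_ne_top x)
      have h1 : γ (X i) * algebraMap O T y - 1 ∈ maximalIdeal T :=
        hk (by rw [RingHom.mem_ker, map_sub, map_mul, AlgHom.commutes, map_one]; simp [a] at hy ⊢; rw [hy, sub_self])
      have h2 : (1 : T) ∈ maximalIdeal T := by
        have := Ideal.mul_mem_right (algebraMap O T y) _ ((IsLocalRing.mem_maximalIdeal _).mpr hn)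
        simpa using sub_mem this h1
      exact (maximalIdeal.isMaximal T).ne_top ((Ideal.eq_top_iff_one _).mpr h2)
    haveI : IsLocalHom (γ : P →+* T) := Function.Surjective.isLocalHom (γ : P →+* T) hγ
    exact hX (isUnit_of_map_unit (γ : P →+* T) _ hxu)
  set s : Fin r → P := fun i => X i + C (a i)
  have hs : ∀ i, s i ∈ maximalIdeal P := fun i => (hmem _).mpr (by simpa [s] using ha i)
  obtain ⟨τ, hτ⟩ := RT.Assembly.exists_evalHom (O := O) s hs
  have hτsurj : Function.Surjective τ := by
    refine RT.Assembly.surjective_evalHom ?_ τ hτ hs fun g hg => ?_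
    · intro z
      obtain ⟨g, rfl⟩ := residue_surjective z
      refine ⟨constantCoeff g, ?_⟩
      show residue P (algebraMap O P _) = residue P g
      rw [← sub_eq_zero, ← map_sub, residue_eq_zero_iff, hmem]
      simp [hC]
    · have h0 : constantCoeff g ∈ maximalIdeal O := (hmem g).mp hg
      have h1 : g - C (constantCoeff g) ∈ Ideal.span (Set.range (X : Fin r → P)) :=
        (mem_span_range_X_iff _).2 (by simp)
      have hCm : ∀ c ∈ maximalIdeal O, (C c : P) ∈ Ideal.span (Set.range s) ⊔
          (maximalIdeal O).map (algebraMap O P) := fun c hc =>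
        Submodule.mem_sup_right (Ideal.mem_map_of_mem (algebraMap O P) hc)
      rw [← sub_add_cancel g (C (constantCoeff g))]
      refine add_mem ?_ (hCm _ h0)
      refine Ideal.span_le.mpr ?_ h1
      rintro _ ⟨i, rfl⟩
      rw [show (X i : P) = s i - C (a i) by simp [s]]
      exact sub_mem (Submodule.mem_sup_left (Ideal.subset_span ⟨i, rfl⟩)) (hCm _ (ha i))
  let τe : P ≃ₐ[O] P := AlgEquiv.ofBijective τ
    ⟨injective_of_surjective_end (τ : P →+* P) hτsurj, hτsurj⟩
  refine ⟨γ.comp (τe.symm : P →ₐ[O] P), fun i => τe (f i), hγ.comp τe.symm.surjective,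
    fun i => ?_, ?_, fun ϖ hϖ => ?_⟩
  · have e : τe.symm (X i) = X i - C (a i) := by
      apply τe.injective
      rw [AlgEquiv.apply_symm_apply, map_sub, show (C (a i) : P) = algebraMap O P (a i) from rfl,
        AlgEquiv.commutes, show τe (X i) = s i from hτ i]
      simp [s, hC]
    rw [AlgHom.comp_apply, show (τe.symm : P →ₐ[O] P) (X i) = τe.symm (X i) from rfl, e, map_sub,
      map_sub,
      show (C (a i) : P) = algebraMap O P (a i) from rfl, AlgHom.commutes, AlgHom.commutes]
    simp [a]
  · refine Ideal.ext fun g => ?_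
    rw [RingHom.mem_ker, AlgHom.comp_apply, ← RingHom.mem_ker, hker]
    rw [show Set.range (fun i => τe (f i)) = (τe.toRingEquiv.toRingHom : P → P) '' Set.range f from
      Set.range_comp _ _, ← Ideal.map_span,
      Ideal.mem_map_iff_of_surjective τe.toRingEquiv.toRingHom τe.surjective]
    exact ⟨fun h => ⟨_, h, τe.apply_symm_apply g⟩, fun ⟨y, hy, h⟩ => h ▸ by simpa using hy⟩
  · have h := hreg ϖ hϖ
    let e : P ≃+ P := τe.toRingEquiv.toAddEquiv
    have hl : List.Forall₂ (fun (u : P) (v : P) => ∀ z, e (u • z) = v • e z)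
        (List.ofFn f ++ [C ϖ]) (List.ofFn (fun i => τe (f i)) ++ [C ϖ]) := by
      refine List.rel_append (List.forall₂_iff_get.mpr ⟨by simp, fun i h1 h2 z => ?_⟩)
        (List.Forall₂.cons (fun z => ?_) List.Forall₂.nil)
      · simp [e, map_mul]
      · show τe (C ϖ * z) = C ϖ * τe z
        rw [map_mul, show (C ϖ : P) = algebraMap O P ϖ from rfl, AlgEquiv.commutes]
    exact (AddEquiv.isWeaklyRegular_congr (e := e) hl).mp h

end Fermat.Agent.Lifting.Assembly
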