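import Fermat.Agent.Lifting.Assembly.System
import Fermat.Agent.Lifting.Galois.Carayol

/-!
# The deformation ring maps onto the Hecke algebra
-/

set_option autoImplicit false
set_option linter.style.haveILetI false

noncomputable section

namespace Fermat.Agent.Lifting.Assembly

open IsLocalRing Module Fermat.Agent.Deform

variable {O : Type} [CommRing O] [IsDomain O] [IsDiscreteValuationRing O]
  [IsAdicComplete (maximalIdeal O) O] [Finite (ResidueField O)]
  {ρbar : ResidualGaloisRep (ResidueField O)} {C C₀ : Cond O} {S : Finset ℕ}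

omit [Finite (ResidueField O)] in
/-- The classifying map of a Hecke system is onto. -/
theorem exists_classify (DR : GaloisRep.DeformationRingData O ρbar C)
    (H : HeckeSystem O ρbar C S) :
    ∃ φ : DR.R →ₐ[O] H.T, Function.Surjective φ ∧ ∀ σ, φ (DR.ρ.trace σ) = H.ρ.trace σ := by
  haveI := H.isNoetherianRing
  haveI := H.isAdicComplete
  obtain ⟨φ, hφ, -⟩ := DR.universal H.T H.residue_surjective H.ρ H.cond H.residual_isEquiv
  refine ⟨φ, (AlgHom.range_eq_top φ).mp (top_le_iff.mp ?_), map_trace DR φ H.ρ hφ⟩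
  rw [← H.adjoin_op]
  refine Algebra.adjoin_le ?_
  rintro _ ⟨ℓ, ⟨hℓ, hℓS⟩, rfl⟩
  obtain ⟨P, hP⟩ := Arith.exists_liesOverPrime hℓ
  obtain ⟨σ, hσ⟩ := Arith.exists_isFrobeniusAt hP hℓ
  exact ⟨DR.ρ.trace σ, (map_trace DR φ H.ρ hφ σ).trans (H.trace_frobenius ℓ hℓ hℓS P hP σ hσ)⟩

/-- A homomorphism with the traces of a representation at almost all Frobenius elements classifies
it. -/
theorem classifies_of_traces (h2 : IsUnit (2 : O)) (DR : GaloisRep.DeformationRingData O ρbar C)
    {A : Type} [CommRing A] [IsLocalRing A] [Algebra O A] [Module.Finite O A]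
    [IsLocalHom (algebraMap O A)] (hA : IsResAlg O A) (ρA : GaloisRepAdic A)
    (hres : ρA.residual.IsEquiv (ρbar.baseChangeAlong (ResidueField.map (algebraMap O A))))
    (f : DR.R →ₐ[O] A) (hf : IsLocalHom (f : DR.R →+* A)) (S : Finset ℕ)
    (htr : ∀ ℓ : ℕ, ℓ.Prime → ℓ ∉ S → ∀ P : ValuationSubring (AlgebraicClosure ℚ),
      P.LiesOverPrime ℓ → ∀ σ : Gal, P.IsFrobeniusAt σ ℓ → f (DR.ρ.trace σ) = ρA.trace σ) :
    (DR.ρ.baseChangeAlong (f : DR.R →+* A) hf).IsEquiv ρA := by
  have h2A : IsUnit (2 : A) := by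
    have := h2.map (algebraMap O A)
    rwa [map_ofNat] at this
  refine isEquiv_of_trace_frobenius hA h2A DR.absIrr _ ρA (residual_pushforward DR hA f hf) hres S
    fun ℓ hℓ hℓS P hP σ hσ => ?_
  refine Eq.trans ?_ (htr ℓ hℓ hℓS P hP σ hσ)
  letI := (f : DR.R →+* A).toAlgebra
  exact LinearMap.trace_baseChange (DR.ρ.ρ σ) A

end Fermat.Agent.Lifting.Assembly
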