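import Fermat.Agent.Lifting.Setup.Weights
import Fermat.Agent.Lifting.Degeneracy.Composite

/-!
# The congruence factor of a level of the lifting argument

The index of the component of `diaSub P N` at `q` is `P q`; for the full weight it is the `p`-part
of `q - 1`, hence associated with `q - 1` in a ring in which `p` is not a unit.
-/

set_option autoImplicit false

noncomputable section

namespace Fermat.Agent.Lifting.Assembly

open IsLocalRing Degeneracy

variable {p : ℕ} {T : Finset ℕ} {P : ℕ → ℕ}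

theorem exists_alLevel {N q : ℕ} (hN : Squarefree N) (hq : q.Prime) (hqN : q ∣ N) :
    ALLevel N q (N / q) := by
  refine ⟨hq, (Nat.div_mul_cancel hqN).symm, fun h => hq.not_isUnit (hN q ?_)⟩
  obtain ⟨k, hk⟩ := h
  exact ⟨k, by rw [mul_assoc, ← hk, Nat.mul_div_cancel' hqN]⟩

/-- The image of `diaSub` at `q` is the kernel of the power `(q - 1) / P q`. -/
theorem map_diaSub_unitsMap {N q : ℕ} (hN : Squarefree N) (hq : q.Prime)
    (hqN : q ∣ N) :
    (diaSub P N).map (ZMod.unitsMap hqN) =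
      (powMonoidHom ((q - 1) / P q) : (ZMod q)ˣ →* (ZMod q)ˣ).ker := by
  have h := exists_alLevel hN hq hqN
  refine le_antisymm ?_ fun a ha => ?_
  · rintro _ ⟨u, hu, rfl⟩
    exact hu q hqN hq
  · refine ⟨h.unit 1 a, fun r hr hrp => ?_, h.toQ_unit 1 a⟩
    rcases hrp.dvd_mul.1 (h.eq ▸ hr) with hrM | hrq
    · have e1 : ZMod.unitsMap hr (h.unit 1 a) = ZMod.unitsMap hrM (h.toM (h.unit 1 a)) := by
        rw [ALLevel.toM, ← MonoidHom.comp_apply, ZMod.unitsMap_comp]
      rw [e1, h.toM_unit, map_one, one_pow]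
    · obtain rfl := (Nat.prime_dvd_prime_iff_eq hrp hq).1 hrq
      rw [show ZMod.unitsMap hr (h.unit 1 a) = h.toQ (h.unit 1 a) from rfl, h.toQ_unit]
      exact ha

/-- **The index of a component.** -/
theorem compIndex_diaSub (hP : IsWeight p T P) {N q : ℕ} (hN : Squarefree N) (hq : q.Prime)
    (hqN : q ∣ N) : compIndex (diaSub P N) q = P q := by
  have : Fact q.Prime := ⟨hq⟩
  rw [compIndex, dif_pos hqN, map_diaSub_unitsMap hN hq hqN]
  show (powMonoidHom ((q - 1) / P q) : (ZMod q)ˣ →* (ZMod q)ˣ).ker.index = P q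
  rw [IsCyclic.index_powMonoidHom_ker, Nat.card_eq_fintype_card, ZMod.card_units q]
  have hdvd := hP.dvd_sub_one hq
  have hpos : 0 < q - 1 := by have := hq.two_le; omega
  have hPpos : 0 < P q := Nat.pos_of_dvd_of_pos hdvd hpos
  rw [Nat.gcd_eq_right (Nat.div_dvd_of_dvd hdvd), Nat.div_div_self hdvd hpos.ne']

/-- The full weight is trivial at the primes not `1` modulo `p`. -/
theorem fullWeight_eq_one [Fact p.Prime] {q : ℕ} (hq : q.Prime) (h : q % p ≠ 1) :
    fullWeight p T q = 1 := by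
  rw [fullWeight]
  split_ifs
  · rw [padicValNat.eq_zero_of_not_dvd, pow_zero]
    intro hd
    have := (Nat.modEq_iff_dvd' hq.one_le).2 hd
    rw [Nat.ModEq, Nat.one_mod_eq_one.2 (Fact.out : p.Prime).ne_one] at this
    exact h this.symm
  · rfl

/-- The full weight is associated with `q - 1`. -/
theorem associated_fullWeight [Fact p.Prime] {O : Type} [CommRing O] [IsLocalRing O]
    (hp : (p : O) ∈ maximalIdeal O) {q : ℕ} (hq : q.Prime) (hqT : q ∈ T) :
    Associated ((fullWeight p T q : ℕ) : O) ((q : O) - 1) := by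
  rw [fullWeight, if_pos hqT]
  set k := padicValNat p (q - 1)
  have hpos : 0 < q - 1 := by have := hq.two_le; omega
  obtain ⟨m, hm⟩ : p ^ k ∣ q - 1 := pow_padicValNat_dvd
  have hpm : ¬ p ∣ m := fun ⟨j, hj⟩ => by
    refine pow_succ_padicValNat_not_dvd (p := p) hpos.ne' ⟨j, ?_⟩
    rw [hj] at hm
    show q - 1 = p ^ (k + 1) * j
    rw [hm, pow_succ, mul_assoc]
  have hmu : IsUnit (m : O) := by
    by_contra hnu
    obtain ⟨a, b, hab⟩ := Int.isCoprime_iff_gcd_eq_one.2
      (show Int.gcd (p : ℤ) (m : ℤ) = 1 from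
        ((Fact.out : p.Prime).coprime_iff_not_dvd.2 hpm))
    refine (maximalIdeal.isMaximal O).ne_top ((Ideal.eq_top_iff_one _).2 ?_)
    have h1 : (a : O) * (p : O) + (b : O) * (m : O) = 1 := by exact_mod_cast congrArg (Int.cast : ℤ → O) hab
    rw [← h1]
    exact add_mem (Ideal.mul_mem_left _ _ hp) (Ideal.mul_mem_left _ _ ((mem_maximalIdeal _).2 hnu))
  refine ⟨hmu.unit, ?_⟩
  rw [IsUnit.unit_spec, ← Nat.cast_mul, ← hm, Nat.cast_sub hq.one_le, Nat.cast_one]

end Fermat.Agent.Lifting.Assembly
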