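import Fermat.Agent.Lifting.Assembly.WAlg
import Fermat.Agent.Lifting.Galois.Carayol
import Fermat.Agent.RT.Glue.Bridge
import Fermat.Agent.EC.Rep.Cyclotomic
import Fermat.Agent.GaloisReps.Unconditional
import Fermat.Agent.Semistable.Unconditional

/-!
# The newform at a point of the twisted Hecke algebra

A point of `WAlg` with integral values at which a representation with these traces is unipotent on
inertia at the level comes from a newform of squarefree level dividing `N`.
-/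

set_option autoImplicit false
set_option linter.overlappingInstances false
set_option linter.style.haveILetI false

noncomputable section

namespace Fermat.Agent.Lifting.Assembly

open IsLocalRing Polynomial CongruenceSubgroup ModularFormClass Fermat.Agent.Deform
open Fermat.Agent.RT (HeckeModule halfInvExp)
open Fermat.Agent.RT.GammaH Fermat.Agent.RT.Glue Fermat.Agent.Lifting.Degeneracy

section Extend

variable {O : Type} [CommRing O] [IsDomain O]

/-- A character of a finite algebra's subalgebra extends to the algebraic closure. -/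
theorem exists_extension {R A : Type} [CommRing R] [Algebra O R] [CommRing A] [Algebra O A]
    [Module.Finite O A] (φ : R →ₐ[O] A) (z : R →ₐ[O] O) (h : ∀ r, φ r = 0 → z r = 0) :
    ∃ θ : A →ₐ[O] KBar O, ∀ r, θ (φ r) = algebraMap O (KBar O) (z r) := by
  have : Algebra.IsIntegral O A := inferInstance
  let P : Ideal φ.range := (RingHom.ker z).map φ.rangeRestrict
  have hsurj : Function.Surjective φ.rangeRestrict := φ.rangeRestrict_surjective
  have hker : RingHom.ker φ.rangeRestrict ≤ RingHom.ker z := fun r hr =>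
    h r (congrArg Subtype.val hr)
  have : (RingHom.ker z).IsPrime := RingHom.ker_isPrime z
  have : Algebra.IsIntegral φ.range A := Algebra.IsIntegral.tower_top O
  have hP : P.IsPrime := Ideal.map_isPrime_of_surjective hsurj hker
  obtain ⟨Q, -, hQ, hQP⟩ := Ideal.exists_ideal_over_prime_of_isIntegral (R := φ.range) (S := A) P ⊥
    (fun x hx => by
      rw [Ideal.mem_comap, Ideal.mem_bot] at hx
      rw [show x = 0 from Subtype.ext hx]
      exact zero_mem _)
  have hzQ : ∀ r, φ r - algebraMap O A (z r) ∈ Q := fun r => by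
    have h1 : φ.rangeRestrict (r - algebraMap O R (z r)) ∈ P :=
      Ideal.mem_map_of_mem _ (by
        rw [RingHom.mem_ker, map_sub, AlgHom.commutes]
        exact sub_self _)
    rw [← hQP, Ideal.mem_comap] at h1
    show φ r - algebraMap O A (z r) ∈ Q
    have e : algebraMap φ.range A (φ.rangeRestrict (r - algebraMap O R (z r))) =
        φ (r - algebraMap O R (z r)) := rfl
    rwa [e, map_sub, AlgHom.commutes] at h1
  have hinj : Function.Injective (algebraMap O (A ⧸ Q)) := by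
    refine (injective_iff_map_eq_zero _).2 fun c hc => ?_
    rw [show algebraMap O (A ⧸ Q) c = Ideal.Quotient.mk Q (algebraMap O A c) from rfl,
      Ideal.Quotient.eq_zero_iff_mem] at hc
    have h1 : algebraMap O φ.range c ∈ P := by
      rw [← hQP, Ideal.mem_comap]
      exact hc
    obtain ⟨r, hr, hr'⟩ := (Ideal.mem_map_iff_of_surjective φ.rangeRestrict hsurj).1 h1
    have h2 : r - algebraMap O R c ∈ RingHom.ker z := hker (by
      rw [RingHom.mem_ker, map_sub, hr', AlgHom.commutes, sub_self])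
    have h3 := (RingHom.ker z).sub_mem hr h2
    rw [sub_sub_cancel, RingHom.mem_ker, AlgHom.commutes] at h3
    exact h3
  have : Module.IsTorsionFree O (A ⧸ Q) := Module.isTorsionFree_iff_algebraMap_injective.2 hinj
  have : Module.IsTorsionFree O (KBar O) :=
    Module.isTorsionFree_iff_algebraMap_injective.2 (by
      rw [IsScalarTower.algebraMap_eq O (FractionRing O)]
      exact (algebraMap (FractionRing O) _).injective.comp (IsFractionRing.injective O _))
  have : Algebra.IsAlgebraic O (A ⧸ Q) := Algebra.IsIntegral.isAlgebraic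
  let f : A ⧸ Q →ₐ[O] KBar O := IsAlgClosed.lift
  refine ⟨f.comp (Ideal.Quotient.mkₐ O Q), fun r => ?_⟩
  show f (Ideal.Quotient.mk Q (φ r)) = _
  rw [(Ideal.Quotient.eq).2 (hzQ r)]
  exact f.commutes (z r)

end Extend

section Galois

variable {O : Type} [CommRing O] [IsDomain O] [IsDiscreteValuationRing O]
  {A : Type} [CommRing A] [IsLocalRing A] [Algebra O A] [Module.Finite O A]

/-- Congruences of the traces of two continuous representations spread from almost all Frobenius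
elements. -/
theorem trace_sub_mem_of_frobenius (h : IsResAlg O A) {r r' : Gal →* M2 A} (hr : IsCont r)
    (hr' : IsCont r') (U : Submodule O A) (S : Finset ℕ)
    (hF : ∀ ℓ : ℕ, ℓ.Prime → ℓ ∉ S → ∀ P : ValuationSubring (AlgebraicClosure ℚ),
      P.LiesOverPrime ℓ → ∀ σ : Gal, P.IsFrobeniusAt σ ℓ → (r σ).trace - (r' σ).trace ∈ U)
    (g : Gal) : (r g).trace - (r' g).trace ∈ U := by
  refine mem_of_forall_exists_sub_mem_pow h U fun n => ?_
  obtain ⟨L, hL, hL1⟩ := hr n
  obtain ⟨L', hL', hL1'⟩ := hr' n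
  haveI := hL
  haveI := hL'
  set q := Ideal.Quotient.mk (maximalIdeal A ^ n)
  have hone : ∀ {s : Gal →* M2 A} {σ : Gal},
      (∀ i j, s σ i j - (1 : M2 A) i j ∈ maximalIdeal A ^ n) → mapM q s σ = 1 := by
    intro s σ hσ
    ext i j
    rw [mapM_apply, show (1 : M2 (A ⧸ maximalIdeal A ^ n)) i j = q ((1 : M2 A) i j) by
      simp only [Matrix.one_apply, apply_ite q, map_one, map_zero], Ideal.Quotient.eq]
    exact hσ i j
  obtain ⟨ℓ, hℓ, hℓS, P, hP, σ, hσ, heq⟩ :=
    Arith.Chebotarev.exists_frobenius_eq ((mapM q r).prod (mapM q r')) (L ⊔ L') (fun σ hσ =>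
      Prod.ext (hone (hL1 σ fun x hx => hσ x (le_sup_left (b := L') hx)))
        (hone (hL1' σ fun x hx => hσ x (le_sup_right (a := L) hx)))) g S
  have key : ∀ {s : Gal →* M2 A}, mapM q s σ = mapM q s g →
      (s g).trace - (s σ).trace ∈ maximalIdeal A ^ n := by
    intro s hs
    have e : ∀ i, s g i i - s σ i i ∈ maximalIdeal A ^ n := fun i =>
      Ideal.Quotient.eq.mp (congrFun (congrFun hs i) i).symm
    rw [Matrix.trace_fin_two, Matrix.trace_fin_two, add_sub_add_comm]
    exact add_mem (e 0) (e 1)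
  refine ⟨_, hF ℓ hℓ hℓS P hP σ hσ, ?_⟩
  rw [sub_sub_sub_comm]
  exact sub_mem (key (congrArg Prod.fst heq)) (key (congrArg Prod.snd heq))

/-- Traces of residual representations agreeing at almost all Frobenius elements agree. -/
theorem trace_eq_of_frobenius_residual {F : Type} [Field F] (ρ₁ ρ₂ : ResidualGaloisRep F)
    (T : Finset ℕ)
    (h : ∀ ℓ : ℕ, ℓ.Prime → ℓ ∉ T → ∀ P : ValuationSubring (AlgebraicClosure ℚ),
      P.LiesOverPrime ℓ → ∀ σ : Gal, P.IsFrobeniusAt σ ℓ →
        LinearMap.trace F ρ₁.V (ρ₁.ρ σ) = LinearMap.trace F ρ₂.V (ρ₂.ρ σ))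
    (g : Gal) : LinearMap.trace F ρ₁.V (ρ₁.ρ g) = LinearMap.trace F ρ₂.V (ρ₂.ρ g) := by
  obtain ⟨L₁, hL₁, h₁⟩ := ρ₁.factorsThroughFiniteLevel
  obtain ⟨L₂, hL₂, h₂⟩ := ρ₂.factorsThroughFiniteLevel
  obtain ⟨ℓ, hℓ, hℓT, P, hP, σ, hσ, he⟩ := Arith.Chebotarev.exists_frobenius_eq
    (ρ₁.ρ.prod ρ₂.ρ) (L₁ ⊔ L₂) (fun τ hτ => Prod.ext
      (h₁ τ fun x hx => hτ x ((le_sup_left : L₁ ≤ L₁ ⊔ L₂) hx))
      (h₂ τ fun x hx => hτ x ((le_sup_right : L₂ ≤ L₁ ⊔ L₂) hx))) g T
  have h' := h ℓ hℓ hℓT P hP σ hσ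
  rwa [show ρ₁.ρ σ = ρ₁.ρ g from congrArg Prod.fst he,
    show ρ₂.ρ σ = ρ₂.ρ g from congrArg Prod.snd he] at h'

omit [IsLocalRing A] [Algebra O A] [Module.Finite O A] in
/-- The trace of a unipotent element. -/
theorem trace_eq_two_of_charpoly {V : Type} [AddCommGroup V] [Module A V] [Module.Free A V]
    [Module.Finite A V] [Nontrivial A] (hV : Module.finrank A V = 2) {f : Module.End A V}
    (h : LinearMap.charpoly f = (X - 1) ^ 2) : LinearMap.trace A V f = 2 := by
  let b := Module.finBasisOfFinrankEq A V hV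
  rw [LinearMap.trace_eq_matrix_trace A b, Matrix.trace_eq_neg_charpoly_coeff,
    LinearMap.charpoly_toMatrix, h, Fintype.card_fin,
    show ((X - 1 : A[X]) ^ 2) = X ^ 2 - C 2 * X + C 1 by rw [map_ofNat, map_one]; ring]
  simp [coeff_X_pow, coeff_one]

/-- Every unit modulo `v` is realised by inertia at `v`. -/
theorem exists_inertia_pow {v : ℕ} (hv : v.Prime) {P : ValuationSubring (AlgebraicClosure ℚ)}
    (hP : P.LiesOverPrime v) (a : (ZMod v)ˣ) :
    ∃ σ ∈ P.inertiaSubgroupIn ℚ,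
      ∀ μ : AlgebraicClosure ℚ, μ ^ v = 1 → σ μ = μ ^ (a : ZMod v).val := by
  have : Fact v.Prime := ⟨hv⟩
  obtain ⟨σ, hσ, hσa⟩ := EC.Rep.exists_mem_inertia_cyclotomicHom_eq hP a
  refine ⟨σ, hσ, fun μ hμ => ?_⟩
  let t : rootsOfUnity v (AlgebraicClosure ℚ) := rootsOfUnity.mkOfPowEq μ hμ
  have h := modularCyclotomicCharacter.spec (n := v) (AlgebraicClosure ℚ)
    (EC.Rep.card_rootsOfUnity_qbar v) (σ : AlgebraicClosure ℚ ≃+* AlgebraicClosure ℚ) t.2
  rw [← EC.Rep.cyclotomicHom_apply, hσa] at h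
  simpa [t] using h

end Galois

variable {O : Type} [CommRing O] [IsDomain O] [IsDiscreteValuationRing O]
  [IsAdicComplete (maximalIdeal O) O] [Finite (ResidueField O)] [CharZero O]
  {p : ℕ} [Fact p.Prime] [CharP (ResidueField O) p]
  {N : ℕ} [NeZero N] {Δ : Type} [CommGroup Δ] [Fintype Δ] {ψ : (ZMod N)ˣ →* Δ}
  {S : Finset ℕ} {abar : ℕ → ResidueField O}
  {hK : TwistSub N ψ.ker (halfInvExp Δ)} {T : Finset ℕ} {eps : ℕ → O}

omit [CharZero O] [Fact p.Prime] [CharP (ResidueField O) p] [Fintype Δ] in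
/-- A point of the algebra has the residual system. -/
theorem residue_point_op (hS : ∀ v : ℕ, v.Prime → v ∣ N → v ∈ S)
    (y : WAlg hS abar hK T eps →ₐ[O] O) {ℓ : ℕ} (hℓ : ℓ.Prime) (hℓS : ℓ ∉ S) :
    residue O (y (WAlg.op hS abar hK T eps ℓ)) = abar ℓ := by
  obtain ⟨c, hc⟩ := residue_surjective (abar ℓ)
  have hQ : (RingHom.ker ((residue O).comp y.toRingHom)).IsMaximal :=
    RingHom.ker_isMaximal_of_surjective _ fun z => by
      obtain ⟨b, rfl⟩ := residue_surjective z
      exact ⟨algebraMap O _ b, congrArg (residue O) (y.commutes b)⟩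
  have ha : twRes abar (MvPolynomial.X ⟨ℓ, hℓ, hℓS⟩ - MvPolynomial.C c : TwRing O S) = 0 := by
    rw [map_sub, ← MvPolynomial.algebraMap_eq, AlgHom.commutes, ResidueField.algebraMap_eq, hc]
    simp [twRes]
  have h := mk_mem_of_twRes_eq_zero hS abar hK T eps hQ ha
  rw [RingHom.mem_ker, map_sub, ← WAlg.op_eq hS abar hK T eps ⟨ℓ, hℓ, hℓS⟩] at h
  have e : (Ideal.Quotient.mk (RingHom.ker (wAct hS abar hK T eps))) (MvPolynomial.C c) =
      algebraMap O (WAlg hS abar hK T eps) c := rfl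
  rw [e] at h
  simpa [hc, sub_eq_zero] using h

set_option maxHeartbeats 1600000 in
/-- **The newform at a point** at which the representation is unipotent on inertia at the level. -/
theorem exists_newform_of_point (hs : Module.Setup p ψ S abar) (hpS : p ∈ S)
    {ρbar : ResidualGaloisRep (ResidueField O)} (habs : ρbar.IsAbsolutelyIrreducible)
    (hbar : HasCharpolys S abar ρbar)
    (hE : ∀ (v : ℕ) [Fact v.Prime], v ∣ N → v ≠ p → ∀ (R M : ℕ) [NeZero R] [NeZero M]
      (g : CuspForm (Gamma0 M) 2), RT.InertiaTW.TraceInertia p v R M g)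
    [Nontrivial (wEigen S abar hK T eps)] (a : ℕ → ℤ)
    (y : WAlg hs.primes abar hK T eps →ₐ[O] O)
    (hy : ∀ ℓ : ℕ, ℓ.Prime → ℓ ∉ S → y (WAlg.op hs.primes abar hK T eps ℓ) = a ℓ)
    (rhoW : GaloisRepAdic O)
    (htr : ∀ ℓ : ℕ, ℓ.Prime → ℓ ∉ S → ∀ P : ValuationSubring (AlgebraicClosure ℚ),
      P.LiesOverPrime ℓ → ∀ σ : Gal, P.IsFrobeniusAt σ ℓ → rhoW.trace σ = a ℓ)
    (hunip : ∀ v : ℕ, v.Prime → v ∣ N → v ≠ p → rhoW.IsUnipotentOnInertiaAt v)
    (hψp : p ∣ N → ∀ u : (ZMod N)ˣ, ((u : ZMod N).cast : ZMod (N / p)) = 1 → ψ u = 1) :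
    ∃ (L' : ℕ) (g : CuspForm (Gamma0 L') 2), g.IsNewform ∧ Squarefree L' ∧ L' ∣ N ∧
      ∀ ℓ : ℕ, ℓ.Prime → ℓ ∉ S → qCoeff g ℓ = a ℓ := by
  classical
  have hS := hs.primes
  have hp : (p : O) ∈ maximalIdeal O := by
    rw [← residue_eq_zero_iff, map_natCast]
    exact CharP.cast_eq_zero _ p
  have hp2 := hs.ne_two
  have hΔ := hs.pGroup
  obtain ⟨e, heH, heH₀⟩ := Module.exists_localizer_pair (O := O) (ψ := ψ) (S := S)
    (abar := abar) (L := N)
  set H := Module.heckeModule hs heH heH₀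
  -- the Hecke module is nonzero
  have hle : ∀ x ∈ wEigen S abar hK T eps, x ∈ localPart O e (HomMod O S ψ.ker O) :=
    fun x hx => locSub_eq heH ▸ hx.1
  have hpos : 0 < H.d := by
    by_contra h0
    have : Subsingleton (Fin H.d × Δ →₀ O) :=
      ⟨fun _ _ => Finsupp.ext fun i => absurd i.1.2 (by omega)⟩
    have hM : Subsingleton H.M := H.basis_bijective.2.subsingleton
    obtain ⟨x, hx⟩ := exists_ne (0 : wEigen S abar hK T eps)
    have h1 : (⟨x.1, hle x.1 x.2⟩ : localPart O e (HomMod O S ψ.ker O)) = 0 :=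
      @Subsingleton.elim H.M hM _ _
    exact hx (Subtype.ext (congrArg
      (fun w : localPart O e (HomMod O S ψ.ker O) => (w : HomMod O S ψ.ker O)) h1))
  haveI := isLocalRing_algebra H hp hΔ hpos
  haveI := isLocalHom_algebraMap H hp hΔ
  have hres : IsResAlg O H.algebra :=
    ⟨inferInstance, residue_algebraMap_surjective H hp hΔ⟩
  -- the point
  let φ : TwRing O S →ₐ[O] H.algebra := MvPolynomial.aeval fun ℓ => sA H hS ℓ.2.1 ℓ.2.2
  let Φ : OpRing O N S →ₐ[O] Module.End O H.M := localAct O e (HomMod O S ψ.ker O)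
  have hφ : ∀ r, (φ r : Module.End O H.M) = Φ (twHom O hS (halfInvExp Δ) r) := fun r => by
    refine DFunLike.congr_fun (MvPolynomial.algHom_ext (f := H.algebra.val.comp φ)
      (g := Φ.comp (twHom O hS (halfInvExp Δ))) fun ℓ => ?_) r
    simp only [AlgHom.comp_apply, φ, twHom, MvPolynomial.aeval_X, Subalgebra.coe_val, sA, twEl,
      map_mul, SubmonoidClass.coe_pow]
    show H.dia (ψ _) ^ _ * H.T ℓ.1 = _
    rw [← map_pow, ← map_pow ψ, Module.heckeModule_dia hs heH heH₀,
      Module.heckeModule_T hs heH heH₀ ℓ]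
    rfl
  let z : TwRing O S →ₐ[O] O :=
    y.comp (Ideal.Quotient.mkₐ O (RingHom.ker (wAct hS abar hK T eps)))
  have hz : ∀ r, φ r = 0 → z r = 0 := fun r hr => by
    have h0 : r ∈ RingHom.ker (wAct hS abar hK T eps) := by
      refine LinearMap.ext fun x => Subtype.ext ?_
      show twHom O hS (halfInvExp Δ) r • (x : HomMod O S ψ.ker O) = 0
      have h1 := LinearMap.congr_fun ((hφ r).symm.trans (congrArg Subtype.val hr))
        ⟨x.1, hle x.1 x.2⟩
      exact congrArg Subtype.val h1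
    show y (Ideal.Quotient.mk _ r) = 0
    rw [Ideal.Quotient.eq_zero_iff_mem.2 h0, map_zero]
  obtain ⟨θ, hθ⟩ := exists_extension φ z hz
  have hθs : ∀ (ℓ : ℕ) (hℓ : ℓ.Prime) (hℓS : ℓ ∉ S), θ (sA H hS hℓ hℓS) = (a ℓ : KBar O) := by
    intro ℓ hℓ hℓS
    have h1 := hθ (MvPolynomial.X ⟨ℓ, hℓ, hℓS⟩)
    rw [show φ (MvPolynomial.X ⟨ℓ, hℓ, hℓS⟩) = sA H hS hℓ hℓS from MvPolynomial.aeval_X _ _] at h1
    rw [h1]
    show algebraMap O _ (y (Ideal.Quotient.mk _ _)) = _
    rw [← WAlg.op_eq hS abar hK T eps ⟨ℓ, hℓ, hℓS⟩, hy ℓ hℓ hℓS, map_intCast]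
  -- the glued representation
  let D : ∀ (M : ℕ) [NeZero M], GaloisReps.HeckeGaloisModel M p := fun M _ =>
    GaloisReps.heckeGaloisModel M p
  let pt := fun θ => (exists_point hp H hS θ).some
  obtain ⟨G, hG⟩ := exists_glued hp hΔ hp2 hpS habs hbar D pt
  set P := pt θ
  let b := Module.finBasisOfFinrankEq O rhoW.V rhoW.finrank_eq
  let rW : Gal →* M2 H.algebra := mapM (algebraMap O H.algebra) (matOf rhoW b)
  have hrW : IsCont rW := (isCont_matOf rhoW b).map _ inferInstance
  have htrW : ∀ σ, (rW σ).trace = algebraMap O H.algebra (rhoW.trace σ) := fun σ => by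
    rw [GaloisRepAdic.trace, LinearMap.trace_eq_matrix_trace O b, AddMonoidHom.map_trace]
    rfl
  -- its traces at the point
  have hcmp : ∀ σ, (P.rep D σ).trace = algebraMap O (KBar O) (rhoW.trace σ) := fun σ => by
    have h1 : (G.R σ).trace - (rW σ).trace ∈ LinearMap.ker θ.toLinearMap := by
      refine trace_sub_mem_of_frobenius hres G.cont hrW _ S (fun ℓ hℓ hℓS A hA s hsF => ?_) σ
      rw [LinearMap.mem_ker, AlgHom.toLinearMap_apply, map_sub, sub_eq_zero, G.trace_eq, htrW,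
        AlgHom.commutes, htr ℓ hℓ hℓS A hA s hsF, map_intCast]
      have h2 := P.trace_frobenius_pow D hpS hℓ hℓS hA hsF 1
      rw [pow_one] at h2
      refine h2.trans ?_
      simpa [GaloisReps.powerTrace] using hθs ℓ hℓ hℓS
    rw [LinearMap.mem_ker, AlgHom.toLinearMap_apply, map_sub, sub_eq_zero, G.trace_eq, htrW,
      AlgHom.commutes] at h1
    exact h1
  -- residual trace at the level
  have hbarv : ∀ v : ℕ, v.Prime → v ∣ N → v ≠ p → ∀ A : ValuationSubring (AlgebraicClosure ℚ),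
      A.LiesOverPrime v → ∀ σ ∈ A.inertiaSubgroupIn ℚ,
        LinearMap.trace (ResidueField O) ρbar.V (ρbar.ρ σ) = 2 := by
    intro v hv hvN hvp A hA σ hσ
    have hrho : ∀ s, LinearMap.trace (ResidueField O) rhoW.residual.V (rhoW.residual.ρ s) =
        residue O (rhoW.trace s) := fun s => by
      show LinearMap.trace _ _ ((rhoW.ρ s).baseChange _) = _
      rw [LinearMap.trace_baseChange, ResidueField.algebraMap_eq]
      rfl
    have h := trace_eq_of_frobenius_residual ρbar rhoW.residual S (fun ℓ hℓ hℓS A' hA' s hsF => by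
      rw [hrho, htr ℓ hℓ hℓS A' hA' s hsF]
      have h1 := hbar ℓ hℓ hℓS A' hA' s hsF
      let b' := Module.finBasisOfFinrankEq (ResidueField O) ρbar.V ρbar.finrank_eq
      rw [LinearMap.trace_eq_matrix_trace _ b', Matrix.trace_eq_neg_charpoly_coeff,
        LinearMap.charpoly_toMatrix, h1, Fintype.card_fin, ← hy ℓ hℓ hℓS,
        residue_point_op hS y hℓ hℓS]
      simp [coeff_X_pow]) σ
    rw [h, hrho, GaloisRepAdic.trace,
      trace_eq_two_of_charpoly rhoW.finrank_eq (hunip v hv hvN hvp A hA σ hσ), map_ofNat]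
  -- no prime divides the level twice
  have hsq : ∀ v : ℕ, v.Prime → v ∣ N → ¬ v ^ 2 ∣ P.M := by
    intro v hv hvN
    by_cases hvp : v = p
    · subst hvp
      exact P.sq_not_dvd hv hvN fun u hu => by rw [hψp hvN u hu, map_one, map_one]
    · have : Fact v.Prime := ⟨hv⟩
      refine P.sq_not_dvd hv hvN fun u hu => ?_
      have : NeZero (v ^ 2 * (N / v) ^ 2) :=
        ⟨by rw [← mul_pow, Nat.mul_div_cancel' hvN]; exact pow_ne_zero 2 (NeZero.ne N)⟩
      have hTI := G.twistedInertia hp hΔ hp2 hpS hs.sqfree hvN hvp (hE v hvN hvp)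
        (GaloisReps.congruenceProperty _ p)
        (fun M _ _ hd h2 => Semistable.unipotentAt_model M p hv hvp hd h2) hG (hbarv v hv hvN hvp)
      obtain ⟨A, hA⟩ := Arith.exists_liesOverPrime hv
      obtain ⟨σ, hσ, hσu⟩ := exists_inertia_pow hv hA
        (Units.map (ZMod.castHom hvN (ZMod v)).toMonoidHom u)
      have hu2 : ((u : ZMod N).cast : ZMod v) =
          (((Units.map (ZMod.castHom hvN (ZMod v)).toMonoidHom u : (ZMod v)ˣ) : ZMod v).val :
            ZMod v) := by
        rw [ZMod.natCast_zmod_val]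
        rfl
      have key := hTI A hA σ hσ _ hσu u hu hu2 θ
      rw [show ((pt θ).rep D σ).trace = _ from hcmp σ, GaloisRepAdic.trace,
        trace_eq_two_of_charpoly rhoW.finrank_eq (hunip v hv hvN hvp A hA σ hσ), map_ofNat] at key
      set η := θ (diaA H (ψ u ^ halfInvExp Δ)) with hη
      have h1 : η * θ (diaA H (ψ u ^ halfInvExp Δ)⁻¹) = 1 := by
        rw [hη, ← map_mul, ← map_mul, mul_inv_cancel, map_one, map_one]
      have h2 : (η - 1) ^ 2 = 0 := by linear_combination -h1 - η * key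
      have h3 : η = 1 := sub_eq_zero.1 (pow_eq_zero_iff two_ne_zero |>.1 h2)
      have h4 := congrArg θ (congrArg (diaA H)
        (RT.pow_halfInvExp_sq_mul hs.odd_card (ψ u)))
      rw [map_mul, map_mul, map_pow, map_pow, ← hη, h3, one_pow, one_mul, map_one, map_one] at h4
      exact h4
  have hM0 : P.M ≠ 0 := NeZero.ne P.M
  have hsqf : Squarefree P.M := Nat.squarefree_iff_prime_squarefree.2 fun v hv hd =>
    hsq v hv (hv.dvd_of_dvd_pow ((dvd_of_mul_right_dvd hd).trans P.dvd)) (sq v ▸ hd)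
  refine ⟨P.M, P.g, P.isNewform, hsqf,
    (Squarefree.dvd_pow_iff_dvd hsqf two_ne_zero).1 P.dvd, fun ℓ hℓ hℓS => ?_⟩
  have h := P.emb_θ' (HeckeDuality.heckeOp P.M 2 ℓ hℓ)
  rw [P.value hℓ hℓS, HeckeDuality.heckeOp, dif_neg (fun hd => hℓS (hS ℓ hℓ
    (hℓ.dvd_of_dvd_pow (hd.trans P.dvd)))), ConductorLevel.eigenChar_T] at h
  rw [← h]
  exact (congrArg P.emb (hθs ℓ hℓ hℓS)).trans (map_intCast P.emb (a ℓ))

end Fermat.Agent.Lifting.Assembly
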