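import Fermat.Agent.Lifting.Assembly.Main
import Fermat.Agent.Lifting.Assembly.PointNewform
import Fermat.Agent.RT.InertiaTW.Unconditional

/-!
# The newform at the point of the raised algebra given by the curve
-/

set_option autoImplicit false
set_option linter.overlappingInstances false
set_option linter.style.haveILetI false

noncomputable section

namespace Fermat.Agent.Lifting.Assembly

open IsLocalRing CongruenceSubgroup ModularFormClass Fermat.Agent.Deform
open Fermat.Agent.RT (halfInvExp)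
open Fermat.Agent.RT.GammaH Fermat.Agent.Lifting.Degeneracy

variable {O : Type} [CommRing O] [IsDomain O] [IsDiscreteValuationRing O]
  [IsAdicComplete (maximalIdeal O) O] [Finite (ResidueField O)] [CharZero O]
  {p : ℕ} [Fact p.Prime] [CharP (ResidueField O) p]

/-- A point of the algebra of a level with the system of `a` and a unipotent representation with
these traces comes from a newform of squarefree level. -/
theorem exists_newform_of_levelPoint {N : ℕ} [NeZero N] {Δ : Type} [CommGroup Δ] [Fintype Δ]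
    {ψ : (ZMod N)ˣ →* Δ} {S : Finset ℕ} {abar : ℕ → ResidueField O} {K : Subgroup (ZMod N)ˣ}
    {e : ℕ} (hKψ : K = ψ.ker) (he : e = halfInvExp Δ) {hK : TwistSub N K e} {T : Finset ℕ}
    {eps : ℕ → O} (hs : Module.Setup p ψ S abar) (hpS : p ∈ S)
    {ρbar : ResidualGaloisRep (ResidueField O)} (habs : ρbar.IsAbsolutelyIrreducible)
    (hbar : RT.Glue.HasCharpolys S abar ρbar) [Nontrivial (wEigen S abar hK T eps)] (a : ℕ → ℤ)
    (y : levelT S abar hK T eps →ₐ[O] O)
    (hy : ∀ ℓ : ℕ, ℓ.Prime → ℓ ∉ S → y (levelOp S abar hK T eps ℓ) = a ℓ)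
    (rhoW : GaloisRepAdic O)
    (htr : ∀ ℓ : ℕ, ℓ.Prime → ℓ ∉ S → ∀ P : ValuationSubring (AlgebraicClosure ℚ),
      P.LiesOverPrime ℓ → ∀ σ : Gal, P.IsFrobeniusAt σ ℓ → rhoW.trace σ = a ℓ)
    (hunip : ∀ v : ℕ, v.Prime → v ∣ N → v ≠ p → rhoW.IsUnipotentOnInertiaAt v)
    (hψp : p ∣ N → ∀ u : (ZMod N)ˣ, ((u : ZMod N).cast : ZMod (N / p)) = 1 → ψ u = 1) :
    ∃ (L : ℕ) (g : CuspForm (Gamma0 L) 2), g.IsNewform ∧ Squarefree L ∧
      ∀ ℓ : ℕ, ℓ.Prime → ℓ ∉ S → qCoeff g ℓ = a ℓ := by
  subst hKψ he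
  obtain ⟨L, g, hg, hL, -, hgl⟩ := exists_newform_of_point hs hpS habs hbar
    (fun v _ _ _ R M _ _ g => RT.InertiaTW.traceInertia p v R M g) a
    (y.comp (wAlgEquiv hs.primes abar hK T eps).toAlgHom)
    (fun ℓ hℓ hℓS => by
      show y (wAlgEquiv hs.primes abar hK T eps _) = _
      rw [wAlgEquiv_op hs.primes abar hK T eps hℓ hℓS, hy ℓ hℓ hℓS])
    rhoW htr hunip hψp
  exact ⟨L, g, hg, hL, hgl⟩

/-- **The point of the raised algebra given by the curve comes from a newform of squarefree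
level.** -/
theorem endInput : EndInput := by
  intro p hpf O _ _ _ _ _ _ _ C b hB N hN0 hN hK _ y hy
  subst hN
  have hT := C.admissible_raisedPrimes b
  have hP := isWeight_fullWeight p (C.raisedPrimes b)
  have hp : p ∈ C.badSet := Finset.mem_insert_self _ _
  have hTS : C.raisedPrimes b ⊆ C.badSet := fun q hq =>
    C.mem_badSet (b := b) (hT.prime q hq) (Or.inr (Or.inr (Ctx.mem_raisedPrimes.1 hq).1.2))
  haveI : Fintype ((ZMod (C.level b (C.raisedPrimes b)))ˣ ⧸
      diaSub (fullWeight p (C.raisedPrimes b)) (C.level b (C.raisedPrimes b))) := Fintype.ofFinite _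
  have hs := C.moduleSetup hT hP subset_rfl hTS (N := C.level b (C.raisedPrimes b)) rfl
  obtain ⟨ι⟩ := GaloisReps.exists_padicHom O C.p_mem
  obtain ⟨L, g, hg, hL, hgl⟩ := exists_newform_of_levelPoint (QuotientGroup.ker_mk' _).symm
    (weightExp_eq_halfInvExp hP hs.sqfree) hs hp C.isAbsolutelyIrreducible_ρbar
    (Curve.hasCharpolys_residual C.delta_ne hp fun r hr hd =>
      C.mem_badSet hr (b := b) (Or.inr (Or.inr hd)))
    (fun ℓ => C.W.apOfModel ℓ) y hy (Curve.point C.delta_ne ι C.p_mem)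
    (fun ℓ hℓ hℓS P hP σ hσ => trace_of_charpoly_rank_two _
      (Curve.charpoly_point_frobenius C.delta_ne ι C.p_mem hℓ
        (fun hd => hℓS (C.mem_badSet (b := b) hℓ (Or.inr (Or.inr hd))))
        (fun he => hℓS (C.mem_badSet (b := b) hℓ (Or.inl he))) hP hσ))
    (fun v hv _ hvp => Curve.isUnipotentOnInertiaAt_point C.delta_ne ι C.p_mem C.semistable hv hvp)
    (fun hpN u hu => by
      rw [← MonoidHom.mem_ker, QuotientGroup.ker_mk']
      exact mem_diaSub_of_cast_eq_one Fact.out hpN hP.eq_one_self hu)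
  exact ⟨L, g, hg, hL, hgl⟩

end Fermat.Agent.Lifting.Assembly
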