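import Fermat.Agent.Lifting.Assembly.Classify
import Fermat.Agent.Lifting.Assembly.Centre
import Fermat.Agent.Lifting.Criterion.Step

/-!
# The numerical criterion along a raising
-/

set_option autoImplicit false
set_option linter.style.haveILetI false

noncomputable section

namespace Fermat.Agent.Lifting.Assembly

open IsLocalRing Module MvPowerSeries Fermat.Agent.Deform

variable {O : Type} [CommRing O] [IsDomain O] [IsDiscreteValuationRing O]

omit [IsDomain O] [IsDiscreteValuationRing O] in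
/-- A surjection of algebras gives a surjection of cotangent modules at a point. -/
theorem card_phi_le_of_surjective {R T : Type} [CommRing R] [Algebra O R] [CommRing T]
    [Algebra O T] (f : R →ₐ[O] T) (hf : Function.Surjective f) (x : T →ₐ[O] O)
    [Finite (Phi (x.comp f))] : Nat.card (Phi x) ≤ Nat.card (Phi (x.comp f)) := by
  have hmem : ∀ a : RingHom.ker (x.comp f), f a ∈ RingHom.ker x := fun a => a.2
  refine Nat.card_le_card_of_surjective
    (Ideal.mapCotangent (RingHom.ker (x.comp f)) (RingHom.ker x) f fun a ha => ha) fun z => ?_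
  obtain ⟨⟨t, ht⟩, rfl⟩ := Ideal.toCotangent_surjective _ z
  obtain ⟨r, rfl⟩ := hf t
  exact ⟨Ideal.toCotangent _ ⟨r, ht⟩, rfl⟩

variable [IsAdicComplete (maximalIdeal O) O] [Finite (ResidueField O)]
  {ρbar : ResidualGaloisRep (ResidueField O)} {C₀ C₁ : Cond O} {S : Finset ℕ}

/-- The congruence module of a free system with a presentation by regular relations. -/
theorem card_omega_eq (H₀ : HeckeSystem O ρbar C₀ S) (x : H₀.T →ₐ[O] O)
    [Module.Free H₀.T H₀.M] {r : ℕ} (γ : MvPowerSeries (Fin r) O →ₐ[O] H₀.T)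
    (hγ : Function.Surjective γ) (f : Fin r → MvPowerSeries (Fin r) O)
    (hker : RingHom.ker γ = Ideal.span (Set.range f))
    (hreg : ∀ ϖ : O, Irreducible ϖ → RingTheory.Sequence.IsWeaklyRegular
      (MvPowerSeries (Fin r) O) (List.ofFn f ++ [C ϖ])) :
    Nat.card (Omega x H₀.M) = Nat.card (Phi x) ^ eigenRank x H₀.M := by
  obtain ⟨γ', f', h1, h2, h3, h4⟩ := exists_centred_presentation x γ hγ f hker hreg
  exact card_omega_eq_of_free x γ' h1 h2 f' h3 h4

/-- **The deformation ring of the raised system is its Hecke algebra.** -/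
theorem exists_bijective_of_raising (h2 : IsUnit (2 : O)) (H₀ : HeckeSystem O ρbar C₀ S)
    (H₁ : HeckeSystem O ρbar C₁ S) (x : H₀.T →ₐ[O] O) {c : O} (hc : c ≠ 0)
    (h : Raising H₀ H₁ x c)
    (hΩ : Nat.card (Omega x H₀.M) = Nat.card (Phi x) ^ eigenRank x H₀.M)
    (DR : GaloisRep.DeformationRingData O ρbar C₁)
    (hΦ : ∀ (g : DR.R →ₐ[O] H₀.T) (hg : IsLocalHom (g : DR.R →+* H₀.T)),
      (DR.ρ.baseChangeAlong (g : DR.R →+* H₀.T) hg).IsEquiv H₀.ρ → Function.Surjective g →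
        Finite (Phi (x.comp g)) ∧
          Nat.card (Phi (x.comp g)) ≤ Nat.card (Phi x) * Nat.card (O ⧸ Ideal.span {c})) :
    ∃ φ : DR.R →ₐ[O] H₁.T, Function.Bijective φ ∧
      ∀ σ, φ (DR.ρ.trace σ) = H₁.ρ.trace σ := by
  obtain ⟨φ, hφ, hφtr⟩ := exists_classify DR H₁
  set g := h.π.comp φ with hg_def
  have hgsurj : Function.Surjective g := h.π_surjective.comp hφ
  have hg : IsLocalHom (g : DR.R →+* H₀.T) :=
    Function.Surjective.isLocalHom (g : DR.R →+* H₀.T) hgsurj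
  have hge := classifies_of_traces h2 DR H₀.isResAlg H₀.ρ H₀.residual_isEquiv g hg S
    fun ℓ hℓ hℓS P hP σ hσ => by
      rw [hg_def, AlgHom.comp_apply, hφtr, H₁.trace_frobenius ℓ hℓ hℓS P hP σ hσ,
        h.π_op ℓ hℓ hℓS, ← H₀.trace_frobenius ℓ hℓ hℓS P hP σ hσ]
  obtain ⟨hfin, hle⟩ := hΦ g hg hge hgsurj
  set x₁ := x.comp h.π with hx₁
  have hfin' : Finite (Phi (x₁.comp φ)) := hfin
  have hle' : Nat.card (Phi (x₁.comp φ)) ≤ Nat.card (Phi x) * Nat.card (O ⧸ Ideal.span {c}) := hle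
  obtain ⟨hrank, hstep⟩ := card_omega_mul_le x h.π h.π_surjective h.δ h.cor c hc h.δ_smul h.cor_smul
    h.cor_δ h.cor_surjective h.δ_saturated h.cor_injective
  set d := eigenRank x H₀.M
  have hd : 0 < d := eigenRank_pos (M := H₀.M) x
  have hupper := card_omega_le (M := H₁.M) x₁
  rw [hrank] at hupper
  have hkey : Nat.card (Phi (x₁.comp φ)) ^ d ≤ Nat.card (Omega x₁ H₁.M) := by
    refine (Nat.pow_le_pow_left hle' d).trans ?_
    rw [mul_pow, ← hΩ]
    exact hstep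
  have hT := card_phi_le_of_surjective φ hφ x₁
  refine ⟨φ, bijective_of_card_le (M := H₁.M) x₁ ?_ φ hφ
    ((Nat.pow_le_pow_iff_left hd.ne').mp (hkey.trans hupper)), hφtr⟩
  rw [hrank]
  exact (Nat.pow_le_pow_left hT d).trans hkey

omit [Finite (ResidueField O)] in
/-- A representation of the type gives a point of the Hecke algebra. -/
theorem exists_point_of_rep (H₁ : HeckeSystem O ρbar C₁ S)
    (DR : GaloisRep.DeformationRingData O ρbar C₁) (φ : DR.R →ₐ[O] H₁.T)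
    (hφ : Function.Bijective φ) (hφtr : ∀ σ, φ (DR.ρ.trace σ) = H₁.ρ.trace σ)
    (ρW : GaloisRepAdic O)
    (hres : ρW.residual.IsEquiv (ρbar.baseChangeAlong (ResidueField.map (algebraMap O O))))
    (hcond : C₁ ρW) (a : ℕ → O)
    (htr : ∀ ℓ : ℕ, ℓ.Prime → ℓ ∉ S → ∀ P : ValuationSubring (AlgebraicClosure ℚ),
      P.LiesOverPrime ℓ → ∀ σ : Gal, P.IsFrobeniusAt σ ℓ → ρW.trace σ = a ℓ) :
    ∃ y : H₁.T →ₐ[O] O, ∀ ℓ : ℕ, ℓ.Prime → ℓ ∉ S → y (H₁.op ℓ) = a ℓ := by
  haveI : IsLocalHom (algebraMap O O) := ⟨fun _ h => h⟩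
  obtain ⟨ψ, hψ, -⟩ := DR.universal O (residue_surjective) ρW hcond hres
  refine ⟨ψ.comp ((AlgEquiv.ofBijective φ hφ).symm : H₁.T →ₐ[O] DR.R), fun ℓ hℓ hℓS => ?_⟩
  obtain ⟨P, hP⟩ := Arith.exists_liesOverPrime hℓ
  obtain ⟨σ, hσ⟩ := Arith.exists_isFrobeniusAt hP hℓ
  have he : (AlgEquiv.ofBijective φ hφ).symm (H₁.op ℓ) = DR.ρ.trace σ := by
    rw [AlgEquiv.symm_apply_eq, AlgEquiv.ofBijective_apply, hφtr,
      H₁.trace_frobenius ℓ hℓ hℓS P hP σ hσ]
  show ψ ((AlgEquiv.ofBijective φ hφ).symm (H₁.op ℓ)) = a ℓ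
  rw [he, map_trace DR ψ ρW hψ σ, htr ℓ hℓ hℓS P hP σ hσ]

end Fermat.Agent.Lifting.Assembly
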