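import Fermat.Agent.Lifting.Deform.Growth
import Fermat.Agent.Lifting.Assembly.Classify
import Fermat.Agent.Lifting.Assembly.Raise
import Fermat.Agent.Lifting.Assembly.CongruenceFactor
import Fermat.Agent.Lifting.AtP.EigenvalueP

/-!
# The bound on the cotangent module at the raised level

The growth bound of `Deform.Growth` in the shape used by `exists_bijective_of_raising`: the minimal
deformation ring is identified with the minimal Hecke algebra and the factor is
`∏ ι q * (q + 1 + eps q * a q)`.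
-/

set_option autoImplicit false
set_option linter.style.haveILetI false

noncomputable section

namespace Fermat.Agent.Lifting

open IsLocalRing _root_.Module
open Fermat.Agent.Arith (QBar)
open Fermat.Agent.Deform (Gal M2 mapM matOf matRes IsResAlg)

theorem isEquiv_map_id {A : Type} [CommRing A] [IsLocalRing A] (ρ : GaloisRepAdic A)
    {f : A →+* A} (hf : IsLocalHom f) (h : f = RingHom.id A) :
    (ρ.baseChangeAlong f hf).IsEquiv ρ := by
  subst h
  let b := Module.finBasisOfFinrankEq A ρ.V ρ.finrank_eq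
  exact Fermat.Agent.Deform.isEquiv_trans
    (Fermat.Agent.Deform.isEquiv_baseChangeAlong_matOf _ hf ρ b)
    (Fermat.Agent.Deform.isEquiv_trans
      (Fermat.Agent.Deform.isEquiv_toRep_congr (MonoidHom.ext fun _ => Matrix.ext fun _ _ => rfl) _
        (Fermat.Agent.Deform.isCont_matOf ρ b))
      (Fermat.Agent.Deform.isEquiv_symm (Fermat.Agent.Deform.isEquiv_toRep_matOf ρ b)))

theorem residualBaseChange_id {k : Type} [Field k] (ρ : ResidualGaloisRep k) {f : k →+* k}
    (h : f = RingHom.id k) : (ρ.baseChangeAlong f).IsEquiv ρ := by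
  subst h
  letI := (RingHom.id k).toAlgebra
  let b := Module.finBasisOfFinrankEq k ρ.V ρ.finrank_eq
  exact Fermat.Agent.Deform.isEquiv_of_matRes_eq (b.baseChange k) b
    ((Fermat.Agent.Deform.matRes_baseChangeAlong _ ρ b).trans
      (MonoidHom.ext fun _ => Matrix.ext fun _ _ => rfl))

variable {O : Type} [CommRing O] [IsDomain O] [IsDiscreteValuationRing O]

/-- The representation at an `O`-point of a coefficient algebra. -/
def pointBC {A : Type} [CommRing A] [IsLocalRing A] [Algebra O A] (ρ : GaloisRepAdic A)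
    (x : A →ₐ[O] O) : GaloisRepAdic O :=
  ρ.baseChangeAlong (x : A →+* O) (isLocalHom_algHom isResAlg_self x)

theorem trace_pointBC {A : Type} [CommRing A] [IsLocalRing A] [Algebra O A] (ρ : GaloisRepAdic A)
    (x : A →ₐ[O] O) (σ : Gal) :
    LinearMap.trace O (pointBC ρ x).V ((pointBC ρ x).ρ σ) = x (ρ.trace σ) := by
  letI := (x : A →+* O).toAlgebra
  exact LinearMap.trace_baseChange (ρ.ρ σ) O

variable [IsAdicComplete (maximalIdeal O) O] [Finite (ResidueField O)]
  {ρbar : ResidualGaloisRep (ResidueField O)} {p : ℕ} [hp : Fact p.Prime]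
  {K K0 : PKind} {N T : Finset ℕ} {s : ℕ → ℤ} {S : Finset ℕ}

open Assembly in
/-- **The bound at the classifying map of the minimal Hecke system.** -/
theorem card_phi_le_of_classify (hp2 : p ≠ 2) (hpO : (p : O) ∈ maximalIdeal O)
    {H₀ : HeckeSystem O ρbar (liftCondition O p K0 N ∅ s) S}
    (D0 : GaloisRep.DeformationRingData O ρbar (liftCondition O p K0 N ∅ s))
    (φ₀ : D0.R →ₐ[O] H₀.T) (hφ₀ : Function.Bijective φ₀)
    (htr₀ : ∀ σ, φ₀ (D0.ρ.trace σ) = H₀.ρ.trace σ)
    (DR : GaloisRep.DeformationRingData O ρbar (liftCondition O p K N T s))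
    (hK : KindsMatch p K K0 T) (hT : ∀ q ∈ T, q.Prime) (hTN : ∀ q ∈ T, q ∉ N)
    (hs : ∀ q ∈ T, q ≠ p → s q = 1 ∨ s q = -1)
    (g : DR.R →ₐ[O] H₀.T) (hg : IsLocalHom (g : DR.R →+* H₀.T))
    (hge : (DR.ρ.baseChangeAlong (g : DR.R →+* H₀.T) hg).IsEquiv H₀.ρ)
    (x : H₀.T →ₐ[O] O) [Finite (Phi x)] (c : ℕ → O) (hc : ∀ q ∈ T, c q ≠ 0)
    (hcq : ∀ q ∈ T, q ≠ p → ∃ (P : ValuationSubring QBar) (F : Gal), P.LiesOverPrime q ∧
      P.IsFrobeniusAt F q ∧ tameConst O p q (s q) (x (H₀.ρ.trace F)) ∣ c q)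
    (hcp : p ∈ T → ∃ F ∈ (padicPlace p).decompositionSubgroup ℚ,
      ∀ (b' : Basis (Fin 2) O (pointBC H₀.ρ x).V) (z : O),
        (∀ g ∈ (padicPlace p).decompositionSubgroup ℚ, ∀ v ∈ O ∙ b' 0,
          (pointBC H₀.ρ x).ρ g v ∈ O ∙ b' 0) →
        (∀ g ∈ (padicPlace p).inertiaSubgroupIn ℚ, ∀ v, (pointBC H₀.ρ x).ρ g v - v ∈ O ∙ b' 0) →
        (∀ v, (pointBC H₀.ρ x).ρ F v - z • v ∈ O ∙ b' 0) → z ^ 2 - 1 ∣ c p) :
    Finite (Phi (x.comp g)) ∧
      Nat.card (Phi (x.comp g)) ≤
        Nat.card (Phi x) * Nat.card (O ⧸ Ideal.span {∏ q ∈ T, c q}) := by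
  haveI := H₀.isNoetherianRing
  haveI := H₀.isAdicComplete
  let e : D0.R ≃ₐ[O] H₀.T := AlgEquiv.ofBijective φ₀ hφ₀
  have h2 : IsUnit (2 : O) := by
    obtain ⟨j, hj⟩ := (Fact.out : p.Prime).odd_of_ne_two hp2
    by_contra h
    refine (maximalIdeal.isMaximal O).ne_top ((Ideal.eq_top_iff_one _).mpr ?_)
    have := sub_mem hpO (Ideal.mul_mem_right (j : O) (maximalIdeal O)
      ((mem_maximalIdeal _).mpr h : (2 : O) ∈ maximalIdeal O))
    rw [hj] at this
    push_cast at this
    simp at this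
  have hφloc : IsLocalHom (φ₀ : D0.R →+* H₀.T) := isLocalHom_algHom H₀.isResAlg φ₀
  have he0 : (D0.ρ.baseChangeAlong (φ₀ : D0.R →+* H₀.T) hφloc).IsEquiv H₀.ρ :=
    classifies_of_traces h2 D0 H₀.isResAlg H₀.ρ H₀.residual_isEquiv φ₀ hφloc ∅
      fun _ _ _ _ _ σ _ => htr₀ σ
  let π : DR.R →ₐ[O] D0.R := e.symm.toAlgHom.comp g
  have hπ := isLocalHom_algHom (isResAlg_data D0) π
  have hsloc := isLocalHom_algHom (isResAlg_data D0) e.symm.toAlgHom
  have he : (DR.ρ.baseChangeAlong (π : DR.R →+* D0.R) hπ).IsEquiv D0.ρ :=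
    Fermat.Agent.Deform.isEquiv_trans
      (Fermat.Agent.Deform.isEquiv_symm (isEquiv_map_algHom g hg e.symm.toAlgHom hsloc hπ))
      (Fermat.Agent.Deform.isEquiv_trans
        (isEquiv_map _ hsloc (Fermat.Agent.Deform.isEquiv_trans hge
          (Fermat.Agent.Deform.isEquiv_symm he0)))
        (Fermat.Agent.Deform.isEquiv_trans
          (isEquiv_map_algHom φ₀ hφloc e.symm.toAlgHom hsloc
            (isLocalHom_algHom (isResAlg_data D0) _))
          (isEquiv_map_id _ _ (RingHom.ext fun a => e.symm_apply_apply a))))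
  have hpt : (pointRep D0 (x.comp φ₀)).IsEquiv (pointBC H₀.ρ x) :=
    Fermat.Agent.Deform.isEquiv_trans
      (Fermat.Agent.Deform.isEquiv_symm
        (isEquiv_map_algHom φ₀ hφloc x (isLocalHom_algHom isResAlg_self x)
          (isLocalHom_algHom isResAlg_self (x.comp φ₀))))
      (isEquiv_map _ (isLocalHom_algHom isResAlg_self x) he0)
  have hxe : (x.comp φ₀).comp e.symm.toAlgHom = x :=
    AlgHom.ext fun a => congrArg x (e.apply_symm_apply a)
  haveI : Finite (Phi ((x.comp φ₀).comp e.symm.toAlgHom)) := by rw [hxe]; infer_instance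
  haveI : Finite (Phi (x.comp φ₀)) := by
    refine Finite.of_surjective
      (Ideal.mapCotangent (RingHom.ker ((x.comp φ₀).comp e.symm.toAlgHom))
        (RingHom.ker (x.comp φ₀)) e.symm.toAlgHom fun a ha => ha) fun z => ?_
    obtain ⟨⟨t, ht⟩, rfl⟩ := Ideal.toCotangent_surjective _ z
    obtain ⟨r, rfl⟩ := e.symm.surjective t
    exact ⟨Ideal.toCotangent _ ⟨r, ht⟩, rfl⟩
  have hle : Nat.card (Phi (x.comp φ₀)) ≤ Nat.card (Phi x) :=
    (card_phi_le_of_surjective e.symm.toAlgHom e.symm.surjective (x.comp φ₀)).trans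
      (le_of_eq (by rw [hxe]))
  have hxg : (x.comp φ₀).comp π = x.comp g :=
    AlgHom.ext fun a => congrArg x (e.apply_symm_apply (g a))
  obtain ⟨hfin, hcard⟩ := card_phi_le_growth hp2 hpO DR D0 hK hT hTN hs π hπ he (x.comp φ₀) c hc
    (fun q hq hqp => by
      obtain ⟨P, F, hP, hF, hd⟩ := hcq q hq hqp
      refine ⟨P, F, hP, hF, ?_⟩
      obtain ⟨f⟩ := hpt
      rwa [← trace_congr f, trace_pointBC])
    fun hpT => by
      obtain ⟨F, hF, hFc⟩ := hcp hpT
      refine ⟨F, hF, fun b' z h1 h2 h3 => ?_⟩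
      obtain ⟨f⟩ := hpt
      have key : ∀ v, f.toLinearEquiv v ∈ O ∙ (b'.map f.toLinearEquiv) 0 ↔ v ∈ O ∙ b' 0 := fun v => by
        rw [Basis.map_apply, Submodule.mem_span_singleton, Submodule.mem_span_singleton]
        refine exists_congr fun o => ?_
        rw [← map_smul, f.toLinearEquiv.injective.eq_iff]
      refine hFc (b'.map f.toLinearEquiv) z (fun g hg v hv => ?_) (fun g hg v => ?_) fun v => ?_
      all_goals obtain ⟨v, rfl⟩ := f.toLinearEquiv.surjective v
      · rw [key] at hv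
        rw [← f.map_apply, key]
        exact h1 g hg v hv
      · rw [← f.map_apply, ← map_sub, key]
        exact h2 g hg v
      · rw [← f.map_apply, ← map_smul, ← map_sub, key]
        exact h3 v
  rw [hxg] at hfin hcard
  refine ⟨hfin, ?_⟩
  rw [Criterion.card_quot_span_prod T hc]
  exact hcard.trans (Nat.mul_le_mul_right _ hle)

omit [IsAdicComplete (maximalIdeal O) O] [Finite (ResidueField O)] in
/-- For the full weight the component index is a multiple of `q - 1`. -/
theorem sub_one_dvd_compIndex (hpO : (p : O) ∈ maximalIdeal O) {L : ℕ} (hL : Squarefree L) {q : ℕ}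
    (hq : q.Prime) (hqL : q ∣ L) (hqT : q ∈ T) :
    (q : O) - 1 ∣ ((Degeneracy.compIndex (diaSub (fullWeight p T) L) q : ℕ) : O) := by
  rw [Assembly.compIndex_diaSub (isWeight_fullWeight p T) hL hq hqL]
  exact (Assembly.associated_fullWeight hpO hq hqT).symm.dvd

namespace Ctx

variable [CharP (ResidueField O) p] (C : Ctx O p) {b : Bool}

omit [IsAdicComplete (maximalIdeal O) O] [Finite (ResidueField O)] in
/-- At a bad prime of residual good reduction the residual trace is `sgn q * (q + 1)`. -/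
theorem sub_sgn_mul_mem {ρ : GaloisRepAdic O} (hres : ρ.residual.IsEquiv C.ρbar) {q : ℕ}
    (hq : q.Prime) (hqp : q ≠ p) (hbad : (q : ℤ) ∣ C.W.Δ) {P : ValuationSubring QBar}
    (hP : P.LiesOverPrime q) {F : Gal} (hF : P.IsFrobeniusAt F q) :
    LinearMap.trace O ρ.V (ρ.ρ F) - (C.sgn q : O) * ((q : O) + 1) ∈ maximalIdeal O := by
  obtain ⟨e⟩ := hres
  rw [← residue_eq_zero_iff, map_sub, sub_eq_zero]
  have htr : residue O (LinearMap.trace O ρ.V (ρ.ρ F)) =
      LinearMap.trace (ResidueField O) C.ρbar.V (C.ρbar.ρ F) := by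
    have hc : e.toLinearEquiv.conj (ρ.residual.ρ F) = C.ρbar.ρ F := LinearMap.ext fun x => by
      rw [LinearEquiv.conj_apply_apply, e.map_apply, LinearEquiv.apply_symm_apply]
    rw [← hc, LinearMap.trace_conj']
    exact (LinearMap.trace_baseChange (ρ.ρ F) (ResidueField O)).symm
  let b := Module.finBasisOfFinrankEq (ResidueField O) C.ρbar.V C.ρbar.finrank_eq
  rw [htr, LinearMap.trace_eq_matrix_trace _ b, Matrix.trace_eq_neg_charpoly_coeff,
    LinearMap.charpoly_toMatrix,
    Curve.charpoly_residual_frobenius_bad C.delta_ne C.semistable hq hqp hbad hP hF,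
    C.sgn_of_ne hqp]
  have key : ∀ u w : ResidueField O,
      ((Polynomial.X - Polynomial.C u) * (Polynomial.X - Polynomial.C w)).coeff 1 = -(u + w) :=
    fun u w => by
      rw [show (Polynomial.X - Polynomial.C u) * (Polynomial.X - Polynomial.C w) =
        Polynomial.X ^ 2 - Polynomial.C (u + w) * Polynomial.X + Polynomial.C (u * w) by
          rw [Polynomial.C_add, Polynomial.C_mul]; ring]
      simp [Polynomial.coeff_X_pow, Polynomial.coeff_C]
  rw [Fintype.card_fin, key, neg_neg, map_mul, map_add, map_one, map_intCast, map_natCast]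
  push_cast
  ring

open Assembly in
/-- **Growth of the cotangent module at the level of `T`**, for the factor
`∏ ι q * (q + 1 + eps q * a q)` with `q - 1 ∣ ι q` at `q ≡ 1` modulo `p`. -/
theorem card_phi_le_level (hT : C.Admissible b T) (hbad : ∀ q ∈ T, (q : ℤ) ∣ C.W.Δ)
    {H₀ : HeckeSystem O C.ρbar (C.cond b ∅) S}
    (D0 : GaloisRep.DeformationRingData O C.ρbar (C.cond b ∅))
    (φ₀ : D0.R →ₐ[O] H₀.T) (hφ₀ : Function.Bijective φ₀)
    (htr₀ : ∀ σ, φ₀ (D0.ρ.trace σ) = H₀.ρ.trace σ)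
    (DR : GaloisRep.DeformationRingData O C.ρbar (C.cond b T))
    (x : H₀.T →ₐ[O] O) [Finite (Phi x)] (a : ℕ → O)
    (ha : ∀ q ∈ T, q ≠ p → ∃ (P : ValuationSubring QBar) (F : Gal), P.LiesOverPrime q ∧
      P.IsFrobeniusAt F q ∧ x (H₀.ρ.trace F) = a q)
    (hquad : p ∈ T → QuotQuadraticAt (pointBC H₀.ρ x) p (a p))
    (ι : ℕ → ℕ) (hι : ∀ q ∈ T, q ≠ p → q % p = 1 → (q : O) - 1 ∣ (ι q : O))
    (hne : ∀ q ∈ T, (ι q : O) * ((q : O) + 1 + C.eps q * a q) ≠ 0)
    (g : DR.R →ₐ[O] H₀.T) (hg : IsLocalHom (g : DR.R →+* H₀.T))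
    (hge : (DR.ρ.baseChangeAlong (g : DR.R →+* H₀.T) hg).IsEquiv H₀.ρ) :
    Finite (Phi (x.comp g)) ∧ Nat.card (Phi (x.comp g)) ≤ Nat.card (Phi x) *
      Nat.card (O ⧸ Ideal.span {∏ q ∈ T, (ι q : O) * ((q : O) + 1 + C.eps q * a q)}) := by
  have hpN : p ∉ C.N0 := by
    classical
    simp [Curve.ramifiedPrimes]
  have hkind : KindsMatch p (C.kind b T) (C.kind b ∅) T := by
    cases b
    · by_cases hpT : p ∈ T
      · exact Or.inr ⟨hpT, by simp [Ctx.kind, hpT], by simp [Ctx.kind]⟩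
      · exact Or.inl ⟨hpT, by simp [Ctx.kind, hpT]⟩
    · exact Or.inl ⟨hT.ne_p rfl, by simp [Ctx.kind]⟩
  have hres : (pointBC H₀.ρ x).residual.IsEquiv C.ρbar :=
    let ⟨u⟩ := residual_isEquiv_map D0.absIrr H₀.isResAlg isResAlg_self x
      (isLocalHom_algHom isResAlg_self x) H₀.residual_isEquiv
    let ⟨v⟩ := residualBaseChange_id C.ρbar (f := ResidueField.map (algebraMap O O))
      (RingHom.ext fun r => by obtain ⟨o, rfl⟩ := residue_surjective r; rfl)
    ⟨u.trans v⟩
  refine card_phi_le_of_classify C.p_ne_two C.p_mem D0 φ₀ hφ₀ htr₀ DR hkind hT.prime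
    (fun q hq h => hT.notMem q hq (Finset.mem_insert_of_mem h))
    (fun q _ _ => Int.eq_one_or_neg_one_of_mul_eq_one (C.sgn_mul_self q)) g hg hge x
    (fun q => (ι q : O) * ((q : O) + 1 + C.eps q * a q)) hne (fun q hq hqp => ?_) fun hpT => ?_
  · obtain ⟨P, F, hP, hF, hFa⟩ := ha q hq hqp
    refine ⟨P, F, hP, hF, ?_⟩
    rw [hFa, tameConst]
    have e : (q : O) + 1 + C.eps q * a q = (q : O) + 1 - (C.sgn q : O) * a q := by
      rw [Ctx.eps]; ring
    rw [e]
    split_ifs with h1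
    · have hm := C.sub_sgn_mul_mem hres (hT.prime q hq) hqp (hbad q hq) hP hF
      rw [trace_pointBC, hFa] at hm
      have hs2 : (C.sgn q : O) * (C.sgn q : O) = 1 := by
        rw [← Int.cast_mul, C.sgn_mul_self, Int.cast_one]
      have hu : IsUnit ((q : O) + 1 + (C.sgn q : O) * a q) := by
        rw [← residue_ne_zero_iff_isUnit]
        have hq1 : residue O (q : O) = 1 := by
          rw [map_natCast, ← Nat.cast_one, CharP.natCast_eq_natCast (ResidueField O) p]
          exact h1.trans (Nat.one_mod_eq_one.mpr (Fact.out : p.Prime).ne_one).symm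
        have h4 : (4 : ResidueField O) ≠ 0 := by
          intro h
          have h' : ((4 : ℕ) : ResidueField O) = 0 := by exact_mod_cast h
          rw [CharP.cast_eq_zero_iff (ResidueField O) p] at h'
          rcases C.three_or_five with h5 | h5 <;> rw [h5] at h' <;> omega
        have ha' : residue O (a q) = residue O (C.sgn q : O) * 2 := by
          rw [← residue_eq_zero_iff, map_sub, map_mul, map_add, map_one, hq1, sub_eq_zero] at hm
          rw [hm]
          norm_num
        rw [map_add, map_add, map_one, map_mul, hq1, ha', ← mul_assoc, ← map_mul, hs2, map_one]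
        norm_num
        exact h4
      obtain ⟨u, hu'⟩ := hι q hq hqp h1
      refine ⟨↑hu.unit⁻¹ * u, ?_⟩
      have e2 : ((q : O) + 1) ^ 2 - a q ^ 2 =
          ((q : O) + 1 + (C.sgn q : O) * a q) * ((q : O) + 1 - (C.sgn q : O) * a q) := by
        linear_combination -(a q ^ 2) * hs2 * (-1)
      rw [hu', e2]
      have h := hu.mul_val_inv
      linear_combination (-((q : O) - 1) * u * ((q : O) + 1 - (C.sgn q : O) * a q)) * h
    · exact dvd_mul_left _ _
  · obtain ⟨F, hF, hFc⟩ := exists_frobenius_dvd_sp C hres (hbad p hpT)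
      (CFT.Tangent.DetIsCyclotomic.baseChange _ (isLocalHom_algHom isResAlg_self x) H₀.cond.1)
      (hquad hpT)
    refine ⟨F, hF, fun b' z h1 h2 h3 => (hFc b' z h1 h2 h3).trans ?_⟩
    refine Dvd.dvd.trans (dvd_of_eq ?_) (dvd_mul_left _ _)
    rw [Ctx.eps, Ctx.sgn, if_pos rfl]
    ring

end Ctx

end Fermat.Agent.Lifting
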