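import Fermat.Agent.Lifting.Assembly.System
import Fermat.Agent.Lifting.Degeneracy.Composite
import Fermat.Agent.Lifting.Module.Constructor

/-!
# The twisted Hecke algebra of an eigenspace of the involutions

`WAlg` is the `O`-algebra generated by the twisted operators `⟨ℓ⟩ ^ e T_ℓ`, `ℓ ∉ S`, on `wEigen`.
It is local with residual system `abar`, finite over `O`, reduced, and acts faithfully.
-/

set_option autoImplicit false
set_option linter.overlappingInstances false
set_option linter.style.haveILetI false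

noncomputable section

namespace Fermat.Agent.Lifting.Assembly

open IsLocalRing MvPolynomial
open Fermat.Agent.RT.GammaH Fermat.Agent.Lifting.Degeneracy

/-- The symbols of the twisted operators. -/
abbrev TwRing (O : Type) [CommRing O] (S : Finset ℕ) : Type :=
  MvPolynomial {ℓ : ℕ // ℓ.Prime ∧ ℓ ∉ S} O

variable {O : Type} [CommRing O] [IsDomain O] [IsDiscreteValuationRing O]
  [IsAdicComplete (maximalIdeal O) O] {N : ℕ} [NeZero N] {S : Finset ℕ}
  (hS : ∀ v : ℕ, v.Prime → v ∣ N → v ∈ S) (abar : ℕ → ResidueField O)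
  {K : Subgroup (ZMod N)ˣ} {e : ℕ} (hK : TwistSub N K e) (T : Finset ℕ) (eps : ℕ → O)

include hS in
omit [NeZero N] in
theorem coprime_level (ℓ : {ℓ : ℕ // ℓ.Prime ∧ ℓ ∉ S}) : ℓ.1.Coprime N :=
  (ℓ.2.1.coprime_iff_not_dvd).2 fun hd => ℓ.2.2 (hS ℓ.1 ℓ.2.1 hd)

variable (O e) in
/-- A symbol as an operator of level `N`. -/
def twHom : TwRing O S →ₐ[O] OpRing O N S :=
  aeval fun ℓ => twEl O N S e ℓ (coprime_level hS ℓ)

variable {abar hK T eps} in
theorem twHom_smul_mem (a : TwRing O S) {x : HomMod O S K O}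
    (hx : x ∈ wEigen S abar hK T eps) : twHom O hS e a • x ∈ wEigen S abar hK T eps := by
  induction a using MvPolynomial.induction_on generalizing x with
  | C c =>
    rw [twHom, aeval_C, algebraMap_smul]
    exact Submodule.smul_mem _ c hx
  | add a b ha hb =>
    rw [map_add, add_smul]
    exact add_mem (ha hx) (hb hx)
  | mul_X a i ih =>
    rw [map_mul, mul_smul]
    refine ih ?_
    rw [twHom, aeval_X]
    exact twEl_smul_mem_wEigen i (coprime_level hS i) hx

/-- The action of the symbols on the eigenspace. -/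
def wAct : TwRing O S →ₐ[O] Module.End O (wEigen S abar hK T eps) where
  toFun a :=
    { toFun := fun x => ⟨twHom O hS e a • (x : HomMod O S K O), twHom_smul_mem hS a x.2⟩
      map_add' := fun x y => Subtype.ext (smul_add _ (x : HomMod O S K O) y)
      map_smul' := fun c x => Subtype.ext (smul_comm _ c (x : HomMod O S K O)) }
  map_one' := LinearMap.ext fun x => Subtype.ext (by
    show twHom O hS e 1 • (x : HomMod O S K O) = x
    rw [map_one, one_smul])
  map_mul' a b := LinearMap.ext fun x => Subtype.ext (by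
    show twHom O hS e (a * b) • (x : HomMod O S K O) = _
    rw [map_mul, mul_smul]
    rfl)
  map_zero' := LinearMap.ext fun x => Subtype.ext (by
    show twHom O hS e 0 • (x : HomMod O S K O) = 0
    rw [map_zero, zero_smul])
  map_add' a b := LinearMap.ext fun x => Subtype.ext (by
    show twHom O hS e (a + b) • (x : HomMod O S K O) = _
    rw [map_add, add_smul]
    rfl)
  commutes' c := LinearMap.ext fun x => Subtype.ext (by
    show twHom O hS e (algebraMap O _ c) • (x : HomMod O S K O) = _
    rw [AlgHom.commutes, algebraMap_smul]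
    rfl)

/-- **The twisted Hecke algebra** of the eigenspace. -/
abbrev WAlg : Type := TwRing O S ⧸ RingHom.ker (wAct hS abar hK T eps)

/-- The action of the algebra. -/
def WAlg.toEnd : WAlg hS abar hK T eps →ₐ[O] Module.End O (wEigen S abar hK T eps) :=
  Ideal.Quotient.liftₐ (RingHom.ker (wAct hS abar hK T eps)) (wAct hS abar hK T eps) fun _ h => h

theorem WAlg.toEnd_injective : Function.Injective (WAlg.toEnd hS abar hK T eps) :=
  RingHom.lift_injective_of_ker_le_ideal _ _ le_rfl

instance : Module (WAlg hS abar hK T eps) (wEigen S abar hK T eps) :=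
  Module.compHom _ (WAlg.toEnd hS abar hK T eps).toRingHom

theorem WAlg.smul_def (t : WAlg hS abar hK T eps) (x : wEigen S abar hK T eps) :
    t • x = WAlg.toEnd hS abar hK T eps t x := rfl

instance : IsScalarTower O (WAlg hS abar hK T eps) (wEigen S abar hK T eps) :=
  ⟨fun c t x => by rw [WAlg.smul_def, WAlg.smul_def, map_smul, LinearMap.smul_apply]⟩

instance : FaithfulSMul (WAlg hS abar hK T eps) (wEigen S abar hK T eps) :=
  ⟨fun h => WAlg.toEnd_injective hS abar hK T eps (LinearMap.ext h)⟩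

theorem WAlg.mk_smul (a : TwRing O S) (x : wEigen S abar hK T eps) :
    ((Ideal.Quotient.mk (RingHom.ker (wAct hS abar hK T eps)) a • x : wEigen S abar hK T eps) :
      HomMod O S K O) = twHom O hS e a • (x : HomMod O S K O) := rfl

variable {abar hK T eps} in
/-- `wEigen` is saturated. -/
theorem mem_wEigen_of_smul {c : O} (hc : c ≠ 0) {x : HomMod O S K O}
    (hx : c • x ∈ wEigen S abar hK T eps) : x ∈ wEigen S abar hK T eps := by
  refine ⟨mem_locSub_of_smul hc hx.1, fun q hq M h => smul_right_injective _ hc ?_⟩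
  show c • _ = c • _
  rw [← map_smul, hx.2 q hq M h, smul_comm]

instance finite_wEigen : Module.Finite O (wEigen S abar hK T eps) :=
  Module.Finite.of_fg (IsNoetherian.noetherian _)

instance free_wEigen : Module.Free O (wEigen S abar hK T eps) :=
  Module.free_of_finite_type_torsion_free'

instance : Module.Finite O (WAlg hS abar hK T eps) :=
  Module.Finite.of_injective (WAlg.toEnd hS abar hK T eps).toLinearMap
    (WAlg.toEnd_injective hS abar hK T eps)

variable [Finite (ResidueField O)]

/-- The residual system on the symbols. -/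
def twRes : TwRing O S →ₐ[O] ResidueField O := aeval fun ℓ => abar ℓ.1

omit [IsAdicComplete (maximalIdeal O) O] [Finite (ResidueField O)] [NeZero N] in
theorem opRes_twHom (a : TwRing O S) : opRes S abar N (twHom O hS e a) = twRes abar a := by
  have : (opRes S abar N).comp (twHom O hS e) = twRes abar :=
    MvPolynomial.algHom_ext fun ℓ => by simp [twHom, twRes, twEl, opRes]
  exact DFunLike.congr_fun this a

/-- A symbol in the kernel of the residual system lies in every maximal ideal of the algebra. -/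
theorem mk_mem_of_twRes_eq_zero {Q : Ideal (WAlg hS abar hK T eps)} (hQ : Q.IsMaximal)
    {a : TwRing O S} (ha : twRes abar a = 0) :
    Ideal.Quotient.mk (RingHom.ker (wAct hS abar hK T eps)) a ∈ Q := by
  classical
  set A := WAlg hS abar hK T eps
  set V := wEigen S abar hK T eps
  set t := Ideal.Quotient.mk (RingHom.ker (wAct hS abar hK T eps)) a with ht
  obtain ⟨ϖ, hϖ⟩ := IsDiscreteValuationRing.exists_irreducible O
  have hmem : twHom O hS e a ∈ resIdeal S abar N := by rw [mem_resIdeal, opRes_twHom, ha]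
  obtain ⟨n, hn⟩ := exists_pow_smul (K := K) hϖ hmem
  have hϖQ : algebraMap O A ϖ ∈ Q := by
    have hmax : (Q.comap (algebraMap O A)).IsMaximal :=
      Ideal.isMaximal_comap_of_isIntegral_of_isMaximal Q
    rw [← Ideal.mem_comap, IsLocalRing.eq_maximalIdeal hmax, hϖ.maximalIdeal_eq]
    exact Ideal.mem_span_singleton_self ϖ
  by_contra htQ
  obtain ⟨b, i, hi, hbi⟩ := hQ.exists_inv (fun h => htQ (hQ.isPrime.mem_of_pow_mem n h) :
    t ^ n ∉ Q)
  have hle : (⊤ : Submodule A V) ≤ Q • ⊤ := by
    intro x _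
    rw [show x = b • (t ^ n • x) + i • x by
      rw [← mul_smul, ← add_smul, hbi, one_smul]]
    refine add_mem (Submodule.smul_mem _ _ ?_) (Submodule.smul_mem_smul hi Submodule.mem_top)
    obtain ⟨y, -, hxy⟩ := hn x x.2.1
    have hxy' : twHom O hS e (a ^ n) • (x : HomMod O S K O) = ϖ • y := by rw [map_pow]; exact hxy
    have hy : y ∈ V := mem_wEigen_of_smul hϖ.ne_zero (hxy' ▸ twHom_smul_mem hS (a ^ n) x.2)
    rw [show t ^ n • x = algebraMap O A ϖ • (⟨y, hy⟩ : V) by
      refine Subtype.ext ?_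
      rw [algebraMap_smul, ht, ← map_pow]
      exact hxy']
    exact Submodule.smul_mem_smul hϖQ Submodule.mem_top
  haveI : Module.Finite A V := Module.Finite.of_restrictScalars_finite O A V
  obtain ⟨r, hr1, hr⟩ := Submodule.exists_sub_one_mem_and_smul_eq_zero_of_fg_of_le_smul Q
    (⊤ : Submodule A V) Module.Finite.fg_top hle
  have hr0 : r = 0 := eq_of_smul_eq_smul (α := V) fun x => by
    rw [hr x Submodule.mem_top, zero_smul]
  rw [hr0, zero_sub, neg_mem_iff] at hr1
  exact hQ.ne_top ((Ideal.eq_top_iff_one _).mpr hr1)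

theorem exists_eq_algebraMap_add (t : WAlg hS abar hK T eps) :
    ∃ c : O, ∀ Q : Ideal (WAlg hS abar hK T eps), Q.IsMaximal → t - algebraMap O _ c ∈ Q := by
  obtain ⟨a, rfl⟩ := Ideal.Quotient.mk_surjective t
  obtain ⟨c, hc⟩ := residue_surjective (twRes abar a)
  refine ⟨c, fun Q hQ => ?_⟩
  rw [show algebraMap O (WAlg hS abar hK T eps) c =
    Ideal.Quotient.mk _ (algebraMap O (TwRing O S) c) from rfl, ← map_sub]
  exact mk_mem_of_twRes_eq_zero hS abar hK T eps hQ (by
    rw [map_sub, AlgHom.commutes, ← hc, ResidueField.algebraMap_eq, sub_self])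

/-- The algebra of a nonzero eigenspace is local. -/
theorem isLocalRing_wAlg [Nontrivial (wEigen S abar hK T eps)] :
    IsLocalRing (WAlg hS abar hK T eps) := by
  haveI : Nontrivial (WAlg hS abar hK T eps) :=
    (WAlg.toEnd hS abar hK T eps).toRingHom.domain_nontrivial
  obtain ⟨Q₀, hQ₀⟩ := Ideal.exists_maximal (WAlg hS abar hK T eps)
  refine IsLocalRing.of_unique_max_ideal ⟨Q₀, hQ₀, fun Q hQ => hQ.eq_of_le hQ₀.ne_top fun t ht => ?_⟩
  obtain ⟨c, hc⟩ := exists_eq_algebraMap_add hS abar hK T eps t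
  have hcomap : ∀ Q' : Ideal (WAlg hS abar hK T eps), Q'.IsMaximal →
      Q'.comap (algebraMap O _) = maximalIdeal O := fun Q' _ =>
    IsLocalRing.eq_maximalIdeal (Ideal.isMaximal_comap_of_isIntegral_of_isMaximal Q')
  have h1 : algebraMap O (WAlg hS abar hK T eps) c ∈ Q := by
    simpa using Q.sub_mem ht (hc Q hQ)
  have h2 : algebraMap O (WAlg hS abar hK T eps) c ∈ Q₀ := by
    rw [← Ideal.mem_comap, hcomap Q₀ hQ₀, ← hcomap Q hQ]
    exact h1
  simpa using Q₀.add_mem (hc Q₀ hQ₀) h2

/-- The residue field of the algebra is that of `O`. -/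
theorem residue_wAlg_surjective [Nontrivial (wEigen S abar hK T eps)] :
    haveI := isLocalRing_wAlg hS abar hK T eps
    Function.Surjective (residue (WAlg hS abar hK T eps) ∘ algebraMap O _) := by
  haveI := isLocalRing_wAlg hS abar hK T eps
  intro z
  obtain ⟨t, rfl⟩ := residue_surjective z
  obtain ⟨c, hc⟩ := exists_eq_algebraMap_add hS abar hK T eps t
  refine ⟨c, (sub_eq_zero.1 ?_).symm⟩
  show residue _ t - residue _ (algebraMap O _ c) = 0
  rw [← map_sub, residue_eq_zero_iff]
  exact hc _ (maximalIdeal.isMaximal _)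

theorem isLocalHom_wAlg [Nontrivial (wEigen S abar hK T eps)] :
    haveI := isLocalRing_wAlg hS abar hK T eps
    IsLocalHom (algebraMap O (WAlg hS abar hK T eps)) := by
  haveI := isLocalRing_wAlg hS abar hK T eps
  refine ⟨fun c hc => by_contra fun hnc => ?_⟩
  have hmax := Ideal.isMaximal_comap_of_isIntegral_of_isMaximal (R := O)
    (maximalIdeal (WAlg hS abar hK T eps))
  have : c ∈ (maximalIdeal (WAlg hS abar hK T eps)).comap (algebraMap O _) := by
    rw [IsLocalRing.eq_maximalIdeal hmax]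
    exact hnc
  exact this hc

include hS in
/-- The algebra is reduced. -/
theorem isReduced_wAlg [CharZero O] (hL : Squarefree N) (hneg : -1 ∈ K)
    (hodd : Odd (Nat.card ((ZMod N)ˣ ⧸ K)))
    (hEis : ∃ ℓ : ℕ, ℓ.Prime ∧ ℓ ∉ S ∧ abar ℓ ≠ 1 + (ℓ : ResidueField O)) :
    IsReduced (WAlg hS abar hK T eps) := by
  obtain ⟨σ, hσ⟩ := exists_injective_complex O
  let : Algebra O ℂ := σ.toAlgebra
  obtain ⟨ℓ, hℓ, hℓS, hne⟩ := hEis
  obtain ⟨P, hP, hpar⟩ := exists_parabolicOp (K := K) S abar hL hneg hℓ hℓS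
    (fun h => hℓS (hS ℓ hℓ h)) hne
  refine ⟨fun t ⟨n, hn⟩ => ?_⟩
  obtain ⟨a, rfl⟩ := Ideal.Quotient.mk_surjective t
  refine WAlg.toEnd_injective hS abar hK T eps (LinearMap.ext fun x => Subtype.ext ?_)
  rw [map_zero]
  show twHom O hS e a • (x : HomMod O S K O) = 0
  refine smul_eq_zero_of_pow_smul hneg hL hodd hS hσ (isLocalizer_locElt O S abar K) hP
    (fun φ => hpar ℂ φ) x.2.1 (n := n) ?_
  rw [← map_pow]
  have h0 := congrArg Subtype.val (congrArg (fun u : WAlg hS abar hK T eps => u • x) hn)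
  simp only [zero_smul, ← map_pow, WAlg.mk_smul] at h0
  exact h0

/-- The twisted operator at `ℓ`. -/
def WAlg.op (ℓ : ℕ) : WAlg hS abar hK T eps :=
  if h : ℓ.Prime ∧ ℓ ∉ S then Ideal.Quotient.mk _ (X ⟨ℓ, h⟩) else 0

omit [Finite (ResidueField O)] in
theorem WAlg.op_eq (ℓ : {ℓ : ℕ // ℓ.Prime ∧ ℓ ∉ S}) :
    WAlg.op hS abar hK T eps ℓ.1 = Ideal.Quotient.mk _ (X ℓ) := by
  rw [WAlg.op, dif_pos ℓ.2]

omit [Finite (ResidueField O)] in
theorem WAlg.adjoin_op :
    Algebra.adjoin O (WAlg.op hS abar hK T eps '' {ℓ | ℓ.Prime ∧ ℓ ∉ S}) = ⊤ := by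
  refine top_le_iff.mp fun t _ => ?_
  obtain ⟨a, rfl⟩ := Ideal.Quotient.mk_surjective t
  induction a using MvPolynomial.induction_on with
  | C c =>
    exact Subalgebra.algebraMap_mem (Algebra.adjoin O _) c
  | add a b ha hb =>
    rw [map_add]
    exact add_mem (ha trivial) (hb trivial)
  | mul_X a i ih =>
    rw [map_mul]
    exact mul_mem (ih trivial) (Algebra.subset_adjoin ⟨i.1, i.2, WAlg.op_eq hS abar hK T eps i⟩)

end Fermat.Agent.Lifting.Assembly
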