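import Fermat.Agent.Lifting.Assembly.LevelsPoint
import Fermat.Agent.Lifting.Assembly.CongruenceFactor
import Fermat.Agent.Lifting.Assembly.WAlg
import Fermat.Agent.Lifting.Deform.Universal
import Fermat.Agent.Lifting.Eigen.ResidualSpecial
import Fermat.Agent.RT.Interface
import Fermat.Agent.GaloisReps.Unconditional
import Fermat.Agent.Semistable.Unconditional

/-!
# The algebras of the levels and the module data of a context

`levelT` is the algebra `WAlg` of the twisted operators, so it is local with residual system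
`abar`, reduced, with residue field that of `O`. At a level of a context the Hecke module exists:
the auxiliary prime is in no level of a congruent newform.
-/

set_option autoImplicit false
set_option linter.overlappingInstances false
set_option linter.style.haveILetI false

noncomputable section

namespace Fermat.Agent.Lifting

open IsLocalRing Fermat.Agent.Deform
open Fermat.Agent.RT (halfInvExp)
open Fermat.Agent.RT.GammaH Fermat.Agent.Lifting.Degeneracy

namespace Assembly

variable {O : Type} [CommRing O] [IsDomain O] [IsDiscreteValuationRing O]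
  [IsAdicComplete (maximalIdeal O) O] {N : ℕ} [NeZero N] {S : Finset ℕ}
  (hS : ∀ v : ℕ, v.Prime → v ∣ N → v ∈ S) (abar : ℕ → ResidueField O)
  {K : Subgroup (ZMod N)ˣ} {e : ℕ} (hK : TwistSub N K e) (T : Finset ℕ) (eps : ℕ → O)

/-- The symbols acting through the operators of the level. -/
def levelHom : TwRing O S →ₐ[O] levelT S abar hK T eps :=
  MvPolynomial.aeval fun ℓ => levelOp S abar hK T eps ℓ.1

include hS in
theorem coe_levelHom (a : TwRing O S) :
    (levelHom abar hK T eps a : Module.End O (wEigen S abar hK T eps)) =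
      wAct hS abar hK T eps a := by
  refine DFunLike.congr_fun (MvPolynomial.algHom_ext
    (f := (levelT S abar hK T eps).val.comp (levelHom abar hK T eps))
    (g := wAct hS abar hK T eps) fun ℓ => LinearMap.ext fun x => Subtype.ext ?_) a
  simp only [AlgHom.comp_apply, levelHom, MvPolynomial.aeval_X, Subalgebra.coe_val]
  rw [coe_levelOp S abar hK T eps ℓ.2.1 ℓ.2.2 (coprime_level hS ℓ), coe_twAct]
  show _ = twHom O hS e (MvPolynomial.X ℓ) • (x : HomMod O S K O)
  rw [twHom, MvPolynomial.aeval_X]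

include hS in
theorem levelHom_surjective : Function.Surjective (levelHom (S := S) abar hK T eps) := by
  refine (AlgHom.range_eq_top _).mp (top_le_iff.mp ?_)
  rw [← adjoin_levelOp S abar hK T eps hS]
  refine Algebra.adjoin_le ?_
  rintro _ ⟨ℓ, hℓ, rfl⟩
  exact ⟨MvPolynomial.X ⟨ℓ, hℓ⟩, MvPolynomial.aeval_X _ _⟩

/-- The algebra of the symbols maps onto the algebra of the level. -/
def wAlgHom : WAlg hS abar hK T eps →ₐ[O] levelT S abar hK T eps :=
  Ideal.Quotient.liftₐ _ (levelHom abar hK T eps) fun a ha => Subtype.ext (by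
    rw [coe_levelHom hS abar hK T eps a, RingHom.mem_ker.1 ha]
    rfl)

theorem wAlgHom_mk (a : TwRing O S) :
    wAlgHom hS abar hK T eps (Ideal.Quotient.mk _ a) = levelHom abar hK T eps a := rfl

theorem wAlgHom_bijective : Function.Bijective (wAlgHom hS abar hK T eps) := by
  refine ⟨(injective_iff_map_eq_zero _).2 fun t ht => ?_, fun t => ?_⟩
  · obtain ⟨a, rfl⟩ := Ideal.Quotient.mk_surjective t
    rw [Ideal.Quotient.eq_zero_iff_mem, RingHom.mem_ker, ← coe_levelHom hS abar hK T eps a,
      ← wAlgHom_mk hS abar hK T eps a, ht]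
    rfl
  · obtain ⟨a, rfl⟩ := levelHom_surjective hS abar hK T eps t
    exact ⟨Ideal.Quotient.mk _ a, rfl⟩

/-- The algebra of the level is the algebra of the twisted operators. -/
def wAlgEquiv : WAlg hS abar hK T eps ≃ₐ[O] levelT S abar hK T eps :=
  AlgEquiv.ofBijective _ (wAlgHom_bijective hS abar hK T eps)

variable [Finite (ResidueField O)]

omit [Finite (ResidueField O)] in
theorem wAlgEquiv_op {ℓ : ℕ} (hℓ : ℓ.Prime) (hℓS : ℓ ∉ S) :
    wAlgEquiv hS abar hK T eps (WAlg.op hS abar hK T eps ℓ) = levelOp S abar hK T eps ℓ := by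
  rw [WAlg.op_eq hS abar hK T eps ⟨ℓ, hℓ, hℓS⟩]
  show wAlgHom hS abar hK T eps (Ideal.Quotient.mk _ (MvPolynomial.X ⟨ℓ, hℓ, hℓS⟩)) = _
  rw [wAlgHom_mk, levelHom, MvPolynomial.aeval_X]

include hS in
/-- The algebra of a nonzero eigenspace is local. -/
theorem isLocalRing_levelT [Nontrivial (wEigen S abar hK T eps)] :
    IsLocalRing (levelT S abar hK T eps) :=
  haveI := isLocalRing_wAlg hS abar hK T eps
  (wAlgEquiv hS abar hK T eps).toRingEquiv.isLocalRing

include hS in
/-- Its residue field is that of `O`. -/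
theorem isResAlg_levelT [Nontrivial (wEigen S abar hK T eps)]
    [IsLocalRing (levelT S abar hK T eps)] : IsResAlg O (levelT S abar hK T eps) :=
  haveI := isLocalRing_wAlg hS abar hK T eps
  isResAlg_of_surjective
    ⟨isLocalHom_wAlg hS abar hK T eps, residue_wAlg_surjective hS abar hK T eps⟩
    (wAlgEquiv hS abar hK T eps).toAlgHom (wAlgEquiv hS abar hK T eps).surjective

include hS in
/-- The algebra is reduced. -/
theorem isReduced_levelT [CharZero O] (hN : Squarefree N)
    (hodd : Odd (Nat.card ((ZMod N)ˣ ⧸ K)))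
    (hEis : ∃ ℓ : ℕ, ℓ.Prime ∧ ℓ ∉ S ∧ abar ℓ ≠ 1 + (ℓ : ResidueField O)) :
    IsReduced (levelT S abar hK T eps) :=
  haveI := isReduced_wAlg hS abar hK T eps hN
    (by simpa [Odd.neg_one_pow ⟨e, rfl⟩] using hK.pow (-1)) hodd hEis
  isReduced_of_injective (wAlgEquiv hS abar hK T eps).symm.toRingEquiv.toRingHom
    (wAlgEquiv hS abar hK T eps).symm.injective

/-- The number of classes of units modulo `diaSub`. -/
theorem card_quotient_diaSub {p : ℕ} {T : Finset ℕ} {P : ℕ → ℕ} (hP : IsWeight p T P) {N : ℕ}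
    (hN : Squarefree N) :
    Nat.card ((ZMod N)ˣ ⧸ diaSub P N) = ∏ q ∈ N.primeFactors, P q := by
  classical
  have hq : ∀ q : N.primeFactors, (q : ℕ).Prime ∧ (q : ℕ) ∣ N := fun q =>
    ⟨Nat.prime_of_mem_primeFactors q.2, Nat.dvd_of_mem_primeFactors q.2⟩
  have hI : ∀ q : N.primeFactors, Fact (q : ℕ).Prime := fun q => ⟨(hq q).1⟩
  let f : (ZMod N)ˣ →* ∀ q : N.primeFactors, (ZMod (q : ℕ))ˣ :=
    MonoidHom.mk' (fun u q => ZMod.unitsMap (hq q).2 u ^ (((q : ℕ) - 1) / P q))
      fun u v => funext fun q => by simp [mul_pow]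
  have hker : f.ker = diaSub P N := by
    ext u
    refine ⟨fun h q hqN hqp => ?_, fun h => funext fun q => h q (hq q).2 (hq q).1⟩
    exact congrFun h ⟨q, Nat.mem_primeFactors.2 ⟨hqp, hqN, hN.ne_zero⟩⟩
  have hal : ∀ q : N.primeFactors, ALLevel N q (N / q) := fun q =>
    exists_alLevel hN (hq q).1 (hq q).2
  have hrange : f.range = Subgroup.pi Set.univ fun q : N.primeFactors =>
      (powMonoidHom (((q : ℕ) - 1) / P q) : (ZMod (q : ℕ))ˣ →* (ZMod (q : ℕ))ˣ).range := by
    refine le_antisymm ?_ fun a ha => ?_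
    · rintro _ ⟨u, rfl⟩ q -
      exact ⟨_, rfl⟩
    · choose b hb using fun q => ha q trivial
      refine ⟨∏ q, (hal q).unit 1 (b q), funext fun r => ?_⟩
      have hprod : ZMod.unitsMap (hq r).2 (∏ q, (hal q).unit 1 (b q)) = b r := by
        rw [map_prod, Finset.prod_eq_single r (fun q _ hqr => ?_)
          fun h => absurd (Finset.mem_univ r) h]
        · exact (hal r).toQ_unit 1 (b r)
        · have hrM : (r : ℕ) ∣ N / q := by
            refine (Nat.Coprime.dvd_mul_left ((Nat.coprime_primes (hq r).1 (hq q).1).2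
              fun h => hqr (Subtype.ext h.symm))).1 ?_
            rw [Nat.mul_div_cancel' (hq q).2]
            exact (hq r).2
          have e1 : ZMod.unitsMap (hq r).2 ((hal q).unit 1 (b q)) =
              ZMod.unitsMap hrM ((hal q).toM ((hal q).unit 1 (b q))) := by
            rw [ALLevel.toM, ← MonoidHom.comp_apply, ZMod.unitsMap_comp]
          rw [e1, (hal q).toM_unit, map_one]
      show ZMod.unitsMap (hq r).2 _ ^ _ = a r
      rw [hprod]
      exact hb r
  rw [← hker, Nat.card_congr (QuotientGroup.quotientKerEquivRange f).toEquiv, hrange]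
  rw [Nat.card_congr (show (Subgroup.pi Set.univ fun q : N.primeFactors =>
      (powMonoidHom (((q : ℕ) - 1) / P q) : (ZMod (q : ℕ))ˣ →* (ZMod (q : ℕ))ˣ).range) ≃
      ∀ q : N.primeFactors,
        (powMonoidHom (((q : ℕ) - 1) / P q) : (ZMod (q : ℕ))ˣ →* (ZMod (q : ℕ))ˣ).range from
    { toFun := fun a q => ⟨a.1 q, a.2 q trivial⟩
      invFun := fun a => ⟨fun q => a q, fun q _ => (a q).2⟩
      left_inv := fun _ => rfl
      right_inv := fun _ => rfl }), Nat.card_pi, ← Finset.prod_coe_sort N.primeFactors P]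
  refine Finset.prod_congr rfl fun q _ => ?_
  have hdvd := hP.dvd_sub_one (hq q).1
  have hpos : 0 < (q : ℕ) - 1 := by have := (hq q).1.two_le; omega
  rw [Nat.card_congr (QuotientGroup.quotientKerEquivRange _).symm.toEquiv, ← Subgroup.index_eq_card,
    IsCyclic.index_powMonoidHom_ker, Nat.card_eq_fintype_card, ZMod.card_units (q : ℕ),
    Nat.gcd_eq_right (Nat.div_dvd_of_dvd hdvd), Nat.div_div_self hdvd hpos.ne']

/-- The exponent of the twist is `halfInvExp` of the group of diamonds. -/
theorem weightExp_eq_halfInvExp {p : ℕ} {T : Finset ℕ} {P : ℕ → ℕ} (hP : IsWeight p T P) {N : ℕ}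
    (hN : Squarefree N) : weightExp P N = halfInvExp ((ZMod N)ˣ ⧸ diaSub P N) := by
  rw [halfInvExp, card_quotient_diaSub hP hN, weightExp]

end Assembly

namespace Ctx

variable {O : Type} [CommRing O] [IsDomain O] [IsDiscreteValuationRing O]
  [IsAdicComplete (maximalIdeal O) O] [Finite (ResidueField O)] [CharZero O]
  {p : ℕ} [Fact p.Prime] [CharP (ResidueField O) p] (C : Ctx O p) {b : Bool} {T : Finset ℕ}

omit [IsAdicComplete (maximalIdeal O) O] [CharP (ResidueField O) p] [Finite (ResidueField O)]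
  [CharZero O] in
theorem mem_of_dvd_level (hT : C.Admissible b T) {S : Finset ℕ} (hbad : C.badSet ⊆ S)
    (hTS : T ⊆ S) {v : ℕ} (hv : v.Prime) (h : v ∣ C.level b T) : v ∈ S := by
  rcases hv.dvd_mul.1 h with h | h
  · exact hbad (C.mem_badSet hv (Or.inr (Or.inl h)))
  · obtain ⟨r, hr, hvr⟩ := (Nat.prime_iff.1 hv).exists_mem_finset_dvd h
    exact hTS (((Nat.prime_dvd_prime_iff_eq hv (hT.prime r hr)).1 hvr) ▸ hr)

omit [IsAdicComplete (maximalIdeal O) O] [Finite (ResidueField O)] [CharZero O] in
/-- The auxiliary prime is in no level of a congruent newform. -/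
theorem not_a_dvd_of_congruent {S : Finset ℕ} (hbad : C.badSet ⊆ S) {M : ℕ} [NeZero M]
    {g : CuspForm (CongruenceSubgroup.Gamma0 M) 2} (hg : g.IsNewform)
    (hc : RT.IsCongruentForm S C.abar g) (hM : ¬ C.a ^ 2 ∣ M) : ¬ C.a ∣ M := fun haM => by
  obtain ⟨A, hA⟩ := Arith.exists_liesOverPrime C.a_prime
  obtain ⟨σ, hσ⟩ := Arith.exists_isFrobeniusAt hA C.a_prime
  have h := Eigen.trace_sq_of_congruent C.ρbar
    (fun ℓ hℓ hℓS B hB s hs => Curve.hasCharpolys_residual (O := O) C.delta_ne
      (hbad (C.mem_badSet (b := false) (Fact.out : p.Prime) (Or.inl rfl)))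
      (fun r hr hd => hbad (C.mem_badSet (b := false) hr (Or.inr (Or.inr hd)))) ℓ hℓ hℓS B hB s hs)
    hg hc C.a_prime C.a_ne haM (GaloisReps.heckeGaloisModel M p)
    (Semistable.unipotentAt_model M p C.a_prime C.a_ne haM hM)
    (Semistable.toricSquareAt_model M p C.a_prime C.a_ne hM) hA hσ
  let bb := _root_.Module.finBasisOfFinrankEq (ResidueField O) C.ρbar.V C.ρbar.finrank_eq
  rw [LinearMap.trace_eq_matrix_trace _ bb, Matrix.trace_eq_neg_charpoly_coeff,
    LinearMap.charpoly_toMatrix,
    Curve.charpoly_residual_frobenius C.delta_ne C.a_prime C.a_good C.a_ne hA hσ, Fintype.card_fin,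
    add_comm (C.a : ResidueField O) 1] at h
  exact C.a_sq (by simpa [Polynomial.coeff_X_pow, Polynomial.coeff_one] using h)

omit [IsAdicComplete (maximalIdeal O) O] [Finite (ResidueField O)] [CharZero O] in
/-- **The data of the Hecke module of a level.** -/
theorem moduleSetup (hT : C.Admissible b T) {P : ℕ → ℕ} (hP : IsWeight p T P) {S : Finset ℕ}
    (hbad : C.badSet ⊆ S) (hTS : T ⊆ S) {N : ℕ} [NeZero N] (hN : N = C.level b T) :
    Module.Setup (Δ := (ZMod N)ˣ ⧸ diaSub P N) p (QuotientGroup.mk' (diaSub P N)) S C.abar := by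
  subst hN
  have hsq := Ctx.squarefree_level hT
  have hS : ∀ v : ℕ, v.Prime → v ∣ C.level b T → v ∈ S := fun v hv h =>
    C.mem_of_dvd_level hT hbad hTS hv h
  obtain ⟨ℓ, hℓ, hℓS, -, -, hne⟩ :=
    Curve.exists_abar_ne (k := ResidueField O) C.delta_ne C.p_ne_two C.irreducible S
  exact
    { ne_two := C.p_ne_two
      sqfree := hsq
      pGroup := isPGroup_quotient_diaSub hP hsq.ne_zero
      surj := QuotientGroup.mk'_surjective _
      primes := hS
      notEis := ⟨ℓ, hℓ, hℓS, hne⟩
      free := C.freeLevel_level b T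
      drop := Module.canDrop_of_forall_newform hsq hS fun v hv hvL hfree M g hML hg hc => by
        have : NeZero M := ⟨fun h0 => hsq.ne_zero (Nat.eq_zero_of_zero_dvd (h0 ▸ hML))⟩
        by_cases hva : v = C.a
        · subst hva
          refine C.not_a_dvd_of_congruent hbad hg hc fun h2 => ?_
          exact C.a_prime.not_isUnit (hsq _ (sq C.a ▸ h2.trans hML))
        · exact absurd (fun h3 => ⟨C.a, C.a_prime, Nat.dvd_div_of_mul_dvd
            (((Nat.coprime_primes hv C.a_prime).2 hva).mul_dvd_of_dvd_of_dvd hvL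
              (C.a_dvd_level b T)), C.a_three h3⟩) hfree }

end Ctx

end Fermat.Agent.Lifting
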