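import Fermat.Agent.Lifting.Assembly.System
import Fermat.Agent.Lifting.Setup.Algebra
import Fermat.Agent.Lifting.Setup.Basic
import Fermat.Agent.Lifting.TW.Datum
import Fermat.Agent.Lifting.Curve.Primes

/-!
# The Hecke systems of the levels and their raising

`levelSystem` makes a Hecke system out of `levelT` and a representation with the twisted operators
as traces. The restriction of the operators along the raising maps of `Degeneracy.RaiseMaps` gives
a `Raising` from the system of `Γ₀(L₀)` to that of the level `N = L₀ ∏ T`. For a context the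
raising maps exist at every admissible set of primes.
-/

set_option autoImplicit false
set_option linter.overlappingInstances false
set_option linter.style.haveILetI false

noncomputable section

namespace Fermat.Agent.Lifting.Assembly

open IsLocalRing
open Fermat.Agent.RT.GammaH Fermat.Agent.Lifting.Degeneracy

variable {O : Type} [CommRing O] [IsDomain O] [IsDiscreteValuationRing O]
  [IsAdicComplete (maximalIdeal O) O] {N : ℕ} [NeZero N] {S : Finset ℕ}
  {abar : ℕ → ResidueField O} {K : Subgroup (ZMod N)ˣ} {e : ℕ} {hK : TwistSub N K e}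
  {T : Finset ℕ} {eps : ℕ → O}

instance finite_levelEigen : Module.Finite O (wEigen S abar hK T eps) :=
  Module.Finite.of_fg (IsNoetherian.noetherian _)

instance free_levelEigen : Module.Free O (wEigen S abar hK T eps) :=
  Module.free_of_finite_type_torsion_free'

instance finite_levelAlgebra : Module.Finite O (levelT S abar hK T eps) :=
  Module.Finite.of_injective (levelT S abar hK T eps).val.toLinearMap Subtype.val_injective

/-- A representation over the algebra of a level with residual representation `ρbar`, of the type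
`C` and with the twisted operators as traces of Frobenius. -/
def IsLevelRep [IsLocalRing (levelT S abar hK T eps)]
    (hA : Fermat.Agent.Deform.IsResAlg O (levelT S abar hK T eps))
    (ρbar : ResidualGaloisRep (ResidueField O)) (C : Cond O)
    (ρ : GaloisRepAdic (levelT S abar hK T eps)) : Prop :=
  haveI := hA.isLocalHom
  ρ.residual.IsEquiv
      (ρbar.baseChangeAlong (ResidueField.map (algebraMap O (levelT S abar hK T eps)))) ∧
    C ρ ∧ ∀ ℓ : ℕ, ℓ.Prime → ℓ ∉ S → ∀ P : ValuationSubring (AlgebraicClosure ℚ),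
      P.LiesOverPrime ℓ → ∀ σ : Deform.Gal, P.IsFrobeniusAt σ ℓ →
        ρ.trace σ = levelOp S abar hK T eps ℓ

variable (hS : ∀ v : ℕ, v.Prime → v ∣ N → v ∈ S)

/-- The Hecke system of a level. -/
def levelSystem [Nontrivial (wEigen S abar hK T eps)] [IsLocalRing (levelT S abar hK T eps)]
    [IsReduced (levelT S abar hK T eps)]
    (hA : Fermat.Agent.Deform.IsResAlg O (levelT S abar hK T eps))
    {ρbar : ResidualGaloisRep (ResidueField O)} {C : Cond O}
    (ρ : GaloisRepAdic (levelT S abar hK T eps)) (hρ : IsLevelRep hA ρbar C ρ) :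
    HeckeSystem O ρbar C S :=
  haveI := hA.isLocalHom
  { T := levelT S abar hK T eps
    residue_surjective := hA.2
    M := wEigen S abar hK T eps
    op := levelOp S abar hK T eps
    adjoin_op := adjoin_levelOp S abar hK T eps hS
    ρ := ρ
    residual_isEquiv := hρ.1
    cond := hρ.2.1
    trace_frobenius := hρ.2.2 }

omit [NeZero N] in
theorem coprime_of_primes (hS : ∀ v : ℕ, v.Prime → v ∣ N → v ∈ S) {ℓ : ℕ} (hℓ : ℓ.Prime)
    (hℓS : ℓ ∉ S) : ℓ.Coprime N :=
  hℓ.coprime_iff_not_dvd.2 fun h => hℓS (hS ℓ hℓ h)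

theorem coe_levelOp_smul (hS : ∀ v : ℕ, v.Prime → v ∣ N → v ∈ S) {ℓ : ℕ} (hℓ : ℓ.Prime)
    (hℓS : ℓ ∉ S) (x : wEigen S abar hK T eps) :
    ((levelOp S abar hK T eps ℓ • x : wEigen S abar hK T eps) : HomMod O S K O) =
      twEl O N S e ⟨ℓ, hℓ, hℓS⟩ (coprime_of_primes hS hℓ hℓS) • (x : HomMod O S K O) := by
  show (((levelOp S abar hK T eps ℓ : levelT S abar hK T eps) :
    Module.End O (wEigen S abar hK T eps)) x : HomMod O S K O) = _
  rw [coe_levelOp S abar hK T eps hℓ hℓS (coprime_of_primes hS hℓ hℓS)]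
  rfl

section Raise

variable {L₀ : ℕ} [NeZero L₀] {hd : L₀ ∣ N} (P : RaiseMaps S abar hK hd T eps) {e₀ : ℕ}
  {hK₀ : TwistSub L₀ (⊤ : Subgroup (ZMod L₀)ˣ) e₀} {eps₀ : ℕ → O}

variable (hd) in
omit [IsDomain O] [IsDiscreteValuationRing O] [IsAdicComplete (maximalIdeal O) O] [NeZero N] [NeZero L₀] in
/-- On `Γ₀(L₀)` the twists are trivial. -/
theorem lowerTo_twEl_smul (ℓ : {ℓ : ℕ // ℓ.Prime ∧ ℓ ∉ S}) (hℓN : ℓ.1.Coprime N)
    (hℓL : ℓ.1.Coprime L₀) (x : HomMod O S (⊤ : Subgroup (ZMod L₀)ˣ) O) :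
    lowerTo O S hd (twEl O N S e ℓ hℓN) • x = twEl O L₀ S e₀ ℓ hℓL • x := by
  have : Fact ℓ.1.Prime := ⟨ℓ.2.1⟩
  rw [twEl, map_mul, lowerTo, MvPolynomial.rename_X, MvPolynomial.rename_X, twEl, mul_smul,
    mul_smul, Sum.map_inl, Sum.map_inr, id_eq, X_inl_smul, X_inl_smul, diamond_top, diamond_top]

/-- Raising on the eigenspaces. -/
def levelDelta : wEigen S abar hK₀ ∅ eps₀ →ₗ[O] wEigen S abar hK T eps :=
  (P.delta.comp (wEigen S abar hK₀ ∅ eps₀).subtype).codRestrict _ fun x => P.delta_mem x.1 x.2.1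

/-- Its adjoint. -/
def levelCor : wEigen S abar hK T eps →ₗ[O] wEigen S abar hK₀ ∅ eps₀ :=
  (P.cor.comp (wEigen S abar hK T eps).subtype).codRestrict _ fun y =>
    ⟨P.cor_mem y.1 y.2.1, fun q hq => absurd hq (Finset.notMem_empty q)⟩

theorem levelCor_surjective :
    Function.Surjective (levelCor P : _ →ₗ[O] wEigen S abar hK₀ ∅ eps₀) := fun z => by
  obtain ⟨y, hy, hyz⟩ := P.cor_surjective z.1 z.2.1
  exact ⟨⟨y, hy⟩, Subtype.ext hyz⟩

theorem exists_eq_smul_of_levelDelta {ϖ : O} (hϖ : Irreducible ϖ)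
    (x : wEigen S abar hK₀ ∅ eps₀) (y : wEigen S abar hK T eps) (h : levelDelta P x = ϖ • y) :
    ∃ x₀ : wEigen S abar hK₀ ∅ eps₀, x = ϖ • x₀ := by
  obtain ⟨χ, hχ, hχx⟩ := P.delta_saturated ϖ hϖ x.1 x.2.1 y.1 (congrArg Subtype.val h)
  exact ⟨⟨χ, hχ, fun q hq => absurd hq (Finset.notMem_empty q)⟩, Subtype.ext hχx⟩

theorem levelDelta_injective :
    Function.Injective (levelDelta P : wEigen S abar hK₀ ∅ eps₀ →ₗ[O] _) := by
  obtain ⟨ϖ, hϖ⟩ := IsDiscreteValuationRing.exists_irreducible O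
  refine (injective_iff_map_eq_zero _).mpr fun x hx => ?_
  have key : ∀ n : ℕ, ∃ z, levelDelta P z = 0 ∧ x = ϖ ^ n • z := fun n => by
    induction n with
    | zero => exact ⟨x, hx, by rw [pow_zero, one_smul]⟩
    | succ n ih =>
      obtain ⟨z, hz, hxz⟩ := ih
      obtain ⟨w, rfl⟩ := exists_eq_smul_of_levelDelta P hϖ z 0 (by rw [hz, smul_zero])
      rw [map_smul] at hz
      exact ⟨w, (smul_eq_zero.1 hz).resolve_left hϖ.ne_zero, by rw [hxz, pow_succ, mul_smul]⟩
  have hmem : x ∈ ⨅ n : ℕ, maximalIdeal O ^ n •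
      (⊤ : Submodule O (wEigen S abar hK₀ ∅ eps₀)) :=
    Submodule.mem_iInf _ |>.mpr fun n => by
      obtain ⟨z, -, hxz⟩ := key n
      rw [hxz]
      exact Submodule.smul_mem_smul (Ideal.pow_mem_pow (by
        rw [hϖ.maximalIdeal_eq]; exact Ideal.mem_span_singleton_self ϖ) n) Submodule.mem_top
  rwa [Ideal.iInf_pow_smul_eq_bot_of_isLocalRing _ (maximalIdeal.isMaximal O).ne_top,
    Submodule.mem_bot] at hmem

include P in
/-- The raised eigenspace is nonzero. -/
theorem nontrivial_raised [Nontrivial (wEigen S abar hK₀ ∅ eps₀)] :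
    Nontrivial (wEigen S abar hK T eps) :=
  (levelDelta_injective P (hK₀ := hK₀) (eps₀ := eps₀)).nontrivial

include hS in
theorem exists_restriction :
    ∃ π : levelT S abar hK T eps →ₐ[O] levelT S abar hK₀ ∅ eps₀,
      (∀ t y, (levelCor P (t • y) : wEigen S abar hK₀ ∅ eps₀) = π t • levelCor P y) ∧
        (∀ t (m : wEigen S abar hK₀ ∅ eps₀), levelDelta P (π t • m) = t • levelDelta P m) ∧
          ∀ ℓ : ℕ, ℓ.Prime → ℓ ∉ S →
            π (levelOp S abar hK T eps ℓ) = levelOp S abar hK₀ ∅ eps₀ ℓ := by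
  have hS₀ : ∀ v : ℕ, v.Prime → v ∣ L₀ → v ∈ S := fun v hv h => hS v hv (h.trans hd)
  have hgen : ∀ ℓ : ℕ, ℓ.Prime → ℓ ∉ S → ∀ y : wEigen S abar hK T eps,
      (levelCor P (levelOp S abar hK T eps ℓ • y) : wEigen S abar hK₀ ∅ eps₀) =
        levelOp S abar hK₀ ∅ eps₀ ℓ • levelCor P y := fun ℓ hℓ hℓS y => by
    refine Subtype.ext ?_
    show P.cor ((levelOp S abar hK T eps ℓ • y : wEigen S abar hK T eps) : HomMod O S K O) = _
    rw [coe_levelOp_smul hS hℓ hℓS, P.cor_smul, coe_levelOp_smul hS₀ hℓ hℓS]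
    exact lowerTo_twEl_smul hd _ _ _ _
  obtain ⟨π, hπ⟩ := TW.exists_descend (T₀ := levelT S abar hK₀ ∅ eps₀) (levelCor P)
    (levelCor_surjective P) (adjoin_levelOp S abar hK T eps hS) (by
      rintro _ ⟨ℓ, ⟨hℓ, hℓS⟩, rfl⟩
      exact ⟨_, hgen ℓ hℓ hℓS⟩)
  have hop : ∀ ℓ : ℕ, ℓ.Prime → ℓ ∉ S →
      π (levelOp S abar hK T eps ℓ) = levelOp S abar hK₀ ∅ eps₀ ℓ := fun ℓ hℓ hℓS => by
    refine Subtype.ext (LinearMap.ext fun z => ?_)
    obtain ⟨y, rfl⟩ := levelCor_surjective P z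
    exact ((hπ _ y).symm.trans (hgen ℓ hℓ hℓS y))
  refine ⟨π, hπ, fun t => ?_, hop⟩
  have ht : t ∈ Algebra.adjoin O (levelOp S abar hK T eps '' {ℓ | ℓ.Prime ∧ ℓ ∉ S}) := by
    rw [adjoin_levelOp S abar hK T eps hS]
    exact Algebra.mem_top
  induction ht using Algebra.adjoin_induction with
  | mem t ht =>
    obtain ⟨ℓ, ⟨hℓ, hℓS⟩, rfl⟩ := ht
    intro m
    rw [hop ℓ hℓ hℓS]
    refine Subtype.ext ?_
    show P.delta ((levelOp S abar hK₀ ∅ eps₀ ℓ • m : wEigen S abar hK₀ ∅ eps₀) :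
      HomMod O S (⊤ : Subgroup (ZMod L₀)ˣ) O) = _
    rw [coe_levelOp_smul hS₀ hℓ hℓS, ← lowerTo_twEl_smul hd _ (coprime_of_primes hS hℓ hℓS),
      P.delta_smul, coe_levelOp_smul hS hℓ hℓS]
    rfl
  | algebraMap r =>
    intro m
    rw [AlgHom.commutes, algebraMap_smul, algebraMap_smul, map_smul]
  | add a b _ _ ha hb =>
    intro m
    rw [map_add, add_smul, map_add, ha, hb, add_smul]
  | mul a b _ _ ha hb =>
    intro m
    rw [map_mul, mul_smul, ha, hb, mul_smul]

include P in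
/-- **The raising of the systems of two levels** at a point `x` of the lower one carrying the
system of a form of level dividing `L₀`, with `T_q = a q` on its eigen part. -/
theorem exists_raising [CharZero O] (hsq : Squarefree N)
    [Nontrivial (wEigen S abar hK₀ ∅ eps₀)] [IsLocalRing (levelT S abar hK₀ ∅ eps₀)]
    [IsReduced (levelT S abar hK₀ ∅ eps₀)]
    (hA₀ : Fermat.Agent.Deform.IsResAlg O (levelT S abar hK₀ ∅ eps₀))
    [Nontrivial (wEigen S abar hK T eps)] [IsLocalRing (levelT S abar hK T eps)]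
    [IsReduced (levelT S abar hK T eps)]
    (hA : Fermat.Agent.Deform.IsResAlg O (levelT S abar hK T eps))
    {ρbar : ResidualGaloisRep (ResidueField O)} {C₀ C₁ : Cond O}
    (ρ₀ : GaloisRepAdic (levelT S abar hK₀ ∅ eps₀)) (hρ₀ : IsLevelRep hA₀ ρbar C₀ ρ₀)
    (ρ : GaloisRepAdic (levelT S abar hK T eps)) (hρ : IsLevelRep hA ρbar C₁ ρ)
    (hS₀ : ∀ v : ℕ, v.Prime → v ∣ L₀ → v ∈ S)
    (x : levelT S abar hK₀ ∅ eps₀ →ₐ[O] O)
    (hsys : ∃ (σ : O →+* ℂ) (L' : ℕ) (g : CuspForm (CongruenceSubgroup.Gamma0 L') 2),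
      Function.Injective σ ∧ L' ∣ L₀ ∧ g.IsNormalizedEigenform ∧
        ∀ ℓ : ℕ, ℓ.Prime → ℓ ∉ S →
          ModularFormClass.qCoeff g ℓ = σ (x (levelOp S abar hK₀ ∅ eps₀ ℓ)))
    (a : ℕ → O)
    (ha : ∀ m ∈ eigenPart x (wEigen S abar hK₀ ∅ eps₀), ∀ q ∈ T, ∀ [Fact q.Prime],
      hecke L₀ ⊤ q O (toHomMod.symm (m : HomMod O S ⊤ O)) =
        a q • toHomMod.symm (m : HomMod O S ⊤ O)) :
    Nonempty (Raising (levelSystem hS₀ hA₀ ρ₀ hρ₀) (levelSystem hS hA ρ hρ) x
      (∏ q ∈ T, (compIndex K q : O) * ((q : O) + 1 + eps q * a q))) := by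
  obtain ⟨π, hπcor, hπδ, hπop⟩ := exists_restriction (hK₀ := hK₀) (eps₀ := eps₀) hS P
  obtain ⟨σ, L', g, hσ, hL', hg, hgx⟩ := hsys
  have hinj : ∀ y ∈ eigenPart (x.comp π) (wEigen S abar hK T eps),
      (levelCor P y : wEigen S abar hK₀ ∅ eps₀) = 0 → y = 0 := fun y hy hy0 => by
    refine Subtype.ext (P.cor_injective hsq (fun ℓ => x (levelOp S abar hK₀ ∅ eps₀ ℓ)) σ L' g hσ
      hL' hg hgx y.1 y.2 (fun ℓ hℓ => ?_) (congrArg Subtype.val hy0))
    have hker : levelOp S abar hK T eps ℓ.1 -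
        algebraMap O (levelT S abar hK T eps) (x (levelOp S abar hK₀ ∅ eps₀ ℓ.1)) ∈
          RingHom.ker (x.comp π) := by
      rw [RingHom.mem_ker, map_sub, AlgHom.commutes, AlgHom.comp_apply, hπop ℓ.1 ℓ.2.1 ℓ.2.2]
      exact sub_self _
    have h0 : (levelOp S abar hK T eps ℓ.1 - algebraMap O (levelT S abar hK T eps)
        (x (levelOp S abar hK₀ ∅ eps₀ ℓ.1))) • y = 0 :=
      (Submodule.mem_torsionBySet_iff _ _).1 hy ⟨_, hker⟩
    rw [sub_smul, algebraMap_smul, sub_eq_zero] at h0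
    exact (coe_levelOp_smul hS ℓ.2.1 ℓ.2.2 y).symm.trans (congrArg Subtype.val h0)
  exact ⟨{
    π := π
    π_op := hπop
    δ := levelDelta P
    cor := levelCor P
    δ_smul := hπδ
    cor_smul := hπcor
    cor_δ := fun m hm => Subtype.ext (P.cor_delta a m.1 fun q hq => ha m hm q hq)
    cor_surjective := levelCor_surjective P
    δ_saturated := fun m y ϖ hϖ h => exists_eq_smul_of_levelDelta P hϖ m y h
    cor_injective := hinj }⟩

end Raise

end Fermat.Agent.Lifting.Assembly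

namespace Fermat.Agent.Lifting.Ctx

open IsLocalRing
open Fermat.Agent.RT.GammaH Fermat.Agent.Lifting.Degeneracy

variable {O : Type} [CommRing O] [IsDomain O] [IsDiscreteValuationRing O]
  [IsAdicComplete (maximalIdeal O) O] [Finite (ResidueField O)] [CharZero O]
  {p : ℕ} [Fact p.Prime] [CharP (ResidueField O) p] (C : Ctx O p) {b : Bool} {T : Finset ℕ}

omit [IsAdicComplete (maximalIdeal O) O] [Finite (ResidueField O)] [CharZero O]
  [CharP (ResidueField O) p] in
theorem eps_mul_self (q : ℕ) : C.eps q * C.eps q = 1 := by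
  rw [eps, neg_mul_neg, ← Int.cast_mul, C.sgn_mul_self, Int.cast_one]

omit [IsAdicComplete (maximalIdeal O) O] [Finite (ResidueField O)] [CharZero O]
  [CharP (ResidueField O) p] in
theorem eq_p_or_mem_of_dvd_baseLevel {q : ℕ} (hq : q.Prime) (h : q ∣ C.baseLevel b) :
    (b = true ∧ q = p) ∨ q ∈ C.basePrimes := by
  rcases hq.dvd_mul.1 h with h | h
  · cases b
    · exact absurd (Nat.dvd_one.1 h) hq.ne_one
    · exact Or.inl ⟨rfl, (Nat.prime_dvd_prime_iff_eq hq (Fact.out : p.Prime)).1 h⟩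
  · obtain ⟨r, hr, hqr⟩ := (Nat.prime_iff.1 hq).exists_mem_finset_dvd h
    exact Or.inr (((Nat.prime_dvd_prime_iff_eq hq (C.prime_of_mem_basePrimes hr)).1 hqr) ▸ hr)

omit [IsAdicComplete (maximalIdeal O) O] [Finite (ResidueField O)] [CharZero O]
  [CharP (ResidueField O) p] in
theorem not_dvd_baseLevel (hT : C.Admissible b T) {q : ℕ} (hq : q ∈ T) : ¬ q ∣ C.baseLevel b :=
  fun h => by
    rcases C.eq_p_or_mem_of_dvd_baseLevel (hT.prime q hq) h with ⟨hb, rfl⟩ | h'
    · exact hT.ne_p hb hq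
    · exact hT.notMem q hq h'

/-- **The raising maps of a context** with the full weights. -/
theorem exists_levelRaiseMaps (hT : C.Admissible b T) {S : Finset ℕ} {N L₀ : ℕ} [NeZero N]
    [NeZero L₀] (hN : N = C.level b T) (hL₀ : L₀ = C.baseLevel b) (hd : L₀ ∣ N)
    (hS : ∀ v : ℕ, v.Prime → v ∣ N → v ∈ S) {P : ℕ → ℕ} (hP : IsWeight p T P)
    (hK : TwistSub N (diaSub P N) (weightExp P N)) :
    Nonempty (RaiseMaps S C.abar hK hd T C.eps) := by
  subst hN hL₀
  have : NeZero (C.baseLevel b * ∏ q ∈ T, q) := ‹NeZero (C.level b T)›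
  have hcop : (C.baseLevel b).Coprime (∏ q ∈ T, q) :=
    Nat.Coprime.prod_right fun q hq =>
      ((hT.prime q hq).coprime_iff_not_dvd.2 (C.not_dvd_baseLevel hT hq)).symm
  refine exists_raiseMaps (p := p) C.p_ne_two ?_ T
    (fun q hq => ⟨hT.prime q hq, C.not_dvd_baseLevel hT hq⟩) (fun q _ => C.eps_mul_self q) rfl hd hS
    (fun q hq M hM _ => ?_) hK (isPGroup_quotient_diaSub hP (NeZero.ne _)) (eq_top_iff.2 fun u _ => ?_)
  · intro hp
    obtain ⟨a, ha, had, h3⟩ := C.freeLevel_level b ∅ hp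
    rw [level, Finset.prod_empty, mul_one] at had
    exact ⟨a, ha, had, h3⟩
  · obtain ⟨ℓ, ha, hℓS, -, -, hne⟩ := Curve.exists_auxPrime (k := ResidueField O) C.delta_ne
      C.p_ne_two C.irreducible (hT.prime q hq).ne_zero
      (fun h0 : M = 0 => NeZero.ne (C.level b T) (Nat.eq_zero_of_zero_dvd (h0 ▸ hM))) S
    exact ⟨ℓ, ha, hℓS, hne⟩
  · obtain ⟨m, hm₀, hm₁⟩ := Nat.chineseRemainder hcop (u : ZMod (C.baseLevel b)).val 1
    have hmN : m.Coprime (C.level b T) := by
      refine Nat.Coprime.mul_right ?_ ?_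
      · rw [Nat.Coprime, Nat.ModEq.gcd_eq hm₀]
        exact ZMod.val_coe_unit_coprime u
      · rw [Nat.Coprime, Nat.ModEq.gcd_eq hm₁]
        exact Nat.gcd_one_left _
    refine ⟨ZMod.unitOfCoprime m hmN, fun q h hq => ?_, ?_⟩
    · by_cases hqT : q ∈ T
      · refine (congrArg (· ^ _) (Units.ext ?_)).trans (one_pow _)
        refine ((congrArg (ZMod.castHom h (ZMod q)) (ZMod.coe_unitOfCoprime m hmN)).trans
          (map_natCast _ m)).trans ?_
        rw [Units.val_one, ← Nat.cast_one, ZMod.natCast_eq_natCast_iff]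
        exact hm₁.of_dvd (Finset.dvd_prod_of_mem (fun q => q) hqT)
      · have : Fact q.Prime := ⟨hq⟩
        rw [hP.trivial q hqT, Nat.div_one]
        exact ZMod.units_pow_card_sub_one_eq_one _ _
    · refine Units.ext ?_
      refine ((congrArg (ZMod.castHom hd (ZMod (C.baseLevel b)))
        (ZMod.coe_unitOfCoprime m hmN)).trans (map_natCast _ m)).trans ?_
      rw [(ZMod.natCast_eq_natCast_iff _ _ _).2 hm₀, ZMod.natCast_val, ZMod.cast_id]

end Fermat.Agent.Lifting.Ctx
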