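import Fermat.Agent.Lifting.Assembly.System
import Fermat.Agent.Lifting.TW.Kernel

/-!
# The residual representation of a Hecke system satisfies its condition
-/

set_option autoImplicit false
set_option linter.style.haveILetI false

noncomputable section

namespace Fermat.Agent.Lifting.Assembly

open IsLocalRing Module Fermat.Agent.Deform

/-- Representations with the same matrices are equivalent. -/
theorem isEquiv_of_matOf_eq {A : Type} [CommRing A] [IsLocalRing A] {ρ ρ' : GaloisRepAdic A}
    (b : Basis (Fin 2) A ρ.V) (b' : Basis (Fin 2) A ρ'.V) (h : matOf ρ b = matOf ρ' b') :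
    ρ.IsEquiv ρ' := by
  refine ⟨⟨b.equiv b' (Equiv.refl _), fun σ x => ?_⟩⟩
  show ((b.equiv b' (Equiv.refl _) : ρ.V →ₗ[A] ρ'.V).comp (ρ.ρ σ)) x =
    ((ρ'.ρ σ).comp (b.equiv b' (Equiv.refl _) : ρ.V →ₗ[A] ρ'.V)) x
  refine LinearMap.congr_fun ((LinearMap.toMatrix b b').injective ?_) x
  have hs : LinearMap.toMatrix b b' (b.equiv b' (Equiv.refl _) : ρ.V →ₗ[A] ρ'.V) = 1 := by
    ext i j
    simp [LinearMap.toMatrix_apply, Finsupp.single_apply, Matrix.one_apply, eq_comm]
  rw [LinearMap.toMatrix_comp b b b', LinearMap.toMatrix_comp b b' b', hs, one_mul, mul_one]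
  exact DFunLike.congr_fun h σ

variable {O : Type} [CommRing O] [IsDomain O] [IsDiscreteValuationRing O]
  [IsAdicComplete (maximalIdeal O) O] [Finite (ResidueField O)]
  {ρbar : ResidualGaloisRep (ResidueField O)} {C : Cond O} {S : Finset ℕ}

omit [Finite (ResidueField O)] in
/-- **The residual representation is of the type of the system.** -/
theorem cond_residual_of_system (hC : GaloisRep.IsDeformationCondition O C)
    (habs : ρbar.IsAbsolutelyIrreducible) (H : HeckeSystem O ρbar C S) :
    C (GaloisRepAdic.ofResidualGaloisRep ρbar) := by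
  let bb := Module.finBasisOfFinrankEq (ResidueField O) ρbar.V ρbar.finrank_eq
  obtain ⟨W, hW⟩ := exists_rigid ρbar habs bb
  obtain ⟨B, hl⟩ := exists_lifts_basis hW H.isResAlg H.ρ H.residual_isEquiv
  set f := augment H.isResAlg with hf
  have hsurj : Function.Surjective f := fun v => by
    obtain ⟨o, rfl⟩ := residue_surjective v
    exact ⟨algebraMap O H.T o, f.commutes o⟩
  have hloc : IsLocalHom (f : H.T →+* ResidueField O) :=
    Function.Surjective.isLocalHom (f : H.T →+* ResidueField O) hsurj
  haveI : IsLocalHom (algebraMap O (ResidueField O)) :=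
    Function.Surjective.isLocalHom _ residue_surjective
  have hkres : Function.Surjective (residue (ResidueField O) ∘ algebraMap O (ResidueField O)) :=
    residue_surjective.comp residue_surjective
  haveI := H.isNoetherianRing
  haveI := H.isAdicComplete
  haveI : IsAdicComplete (maximalIdeal (ResidueField O)) (ResidueField O) := by
    rw [IsLocalRing.maximalIdeal_eq_bot]
    infer_instance
  have hk : GaloisRep.IsArtinianTestAlgebra O (ResidueField O) :=
    ⟨inferInstance, hkres, inferInstance⟩
  refine hC.of_isEquiv hk ?_ (TW.baseChange_of_surjective hC H.residue_surjective hkres f hloc hsurj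
    H.cond)
  letI := (f : H.T →+* ResidueField O).toAlgebra
  refine isEquiv_of_matOf_eq (B.baseChange (ResidueField O)) bb ?_
  rw [matOf_baseChangeAlong (f : H.T →+* ResidueField O) hloc H.ρ B]
  refine MonoidHom.ext fun σ => Matrix.ext fun i j => ?_
  exact (hl σ i j).trans (by rw [hW]; rfl)

end Fermat.Agent.Lifting.Assembly
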