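import Fermat.Agent.Lifting.Assembly.Raise
import Fermat.Agent.Lifting.Assembly.Raised
import Fermat.Agent.Lifting.Assembly.ResidualCond
import Fermat.Agent.Lifting.Setup.Case
import Fermat.Agent.Lifting.Curve.CondBridge
import Fermat.Agent.Lifting.Deform.TangentFinite
import Fermat.Agent.GaloisReps.PadicHom

/-!
# The point of the raised Hecke algebra given by the curve

`raisedPrimes` are the bad primes outside the minimal level. From representations at the two
levels, a presentation of the minimal algebra and the growth of the cotangent module the raised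
algebra is the deformation ring, so the Tate module of the curve is a point of it.
-/

set_option autoImplicit false
set_option linter.overlappingInstances false
set_option linter.style.haveILetI false

noncomputable section

open IsLocalRing
open Fermat.Agent.RT.GammaH Fermat.Agent.Lifting.Degeneracy

namespace Fermat.Agent.Lifting

namespace Ctx

variable {O : Type} [CommRing O] [IsDomain O] [IsDiscreteValuationRing O] {p : ℕ} [Fact p.Prime]
  (C : Ctx O p)

/-- The primes raised in one step. -/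
def raisedPrimes (b : Bool) : Finset ℕ :=
  C.W.Δ.natAbs.primeFactors.filter fun q => q ∉ C.N0 ∧ (b = true → q ≠ p)

variable {C} {b : Bool}

theorem mem_raisedPrimes {q : ℕ} :
    q ∈ C.raisedPrimes b ↔
      (q.Prime ∧ (q : ℤ) ∣ C.W.Δ) ∧ q ∉ C.N0 ∧ (b = true → q ≠ p) := by
  rw [raisedPrimes, Finset.mem_filter, Nat.mem_primeFactors, Int.natCast_dvd]
  exact and_congr_left' ⟨fun h => ⟨h.1, h.2.1⟩, fun h => ⟨h.1, h.2,
    Int.natAbs_ne_zero.2 C.delta_ne⟩⟩

variable (C b) in
theorem admissible_raisedPrimes : C.Admissible b (C.raisedPrimes b) where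
  prime q hq := (mem_raisedPrimes.1 hq).1.1
  notMem q hq h := by
    obtain ⟨⟨-, hdvd⟩, hN0, -⟩ := mem_raisedPrimes.1 hq
    rcases Finset.mem_insert.1 h with rfl | h
    · exact C.a_good hdvd
    · exact hN0 h
  ne_p hb hp := (mem_raisedPrimes.1 hp).2.2 hb rfl

theorem level_pos {T : Finset ℕ} (hT : C.Admissible b T) : 0 < C.level b T :=
  Nat.mul_pos (C.baseLevel_pos b) (Finset.prod_pos fun q hq => (hT.prime q hq).pos)

theorem squarefree_level {T : Finset ℕ} (hT : C.Admissible b T) : Squarefree (C.level b T) := by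
  refine (Nat.squarefree_mul (Nat.Coprime.prod_right fun q hq => ?_)).2
    ⟨C.squarefree_baseLevel b, Finset.squarefree_prod_of_pairwise_isCoprime
      (fun _ hx _ hy hne => Nat.coprime_iff_isRelPrime.mp
        ((Nat.coprime_primes (hT.prime _ hx) (hT.prime _ hy)).2 hne))
      fun q hq => (hT.prime q hq).squarefree⟩
  refine ((hT.prime q hq).coprime_iff_not_dvd.2 fun h => ?_).symm
  rcases (hT.prime q hq).dvd_mul.1 h with h | h
  · cases b
    · exact (hT.prime q hq).ne_one (Nat.dvd_one.1 h)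
    · have hqp : q = p :=
        (Nat.prime_dvd_prime_iff_eq (hT.prime q hq) (Fact.out : p.Prime)).1 h
      exact hT.ne_p rfl (hqp ▸ hq)
  · obtain ⟨r, hr, hqr⟩ := (Nat.prime_iff.1 (hT.prime q hq)).exists_mem_finset_dvd h
    exact hT.notMem q hq
      ((Nat.prime_dvd_prime_iff_eq (hT.prime q hq) (C.prime_of_mem_basePrimes hr)).1 hqr ▸ hr)

theorem mem_badSet_of_dvd_raisedLevel {v : ℕ} (hv : v.Prime)
    (h : v ∣ C.level b (C.raisedPrimes b)) : v ∈ C.badSet := by
  rcases hv.dvd_mul.1 h with h | h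
  · exact C.mem_badSet hv (Or.inr (Or.inl h))
  · obtain ⟨r, hr, hvr⟩ := (Nat.prime_iff.1 hv).exists_mem_finset_dvd h
    obtain ⟨⟨hrp, hdvd⟩, -, -⟩ := mem_raisedPrimes.1 hr
    obtain rfl := (Nat.prime_dvd_prime_iff_eq hv hrp).1 hvr
    exact C.mem_badSet (b := b) hv (Or.inr (Or.inr hdvd))

variable [Finite (ResidueField O)]

/-- **The Tate module satisfies the condition of the raised level.** -/
theorem cond_point (hb : C.Base b) (ι : ℤ_[p] →+* O) :
    C.cond b (C.raisedPrimes b) (Curve.point C.delta_ne ι C.p_mem) := by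
  have hp : p.Prime := Fact.out
  have hcover : ∀ q : ℕ, q.Prime → q ≠ p → (q : ℤ) ∣ C.W.Δ →
      q ∈ C.N0 ∪ C.raisedPrimes b := fun q hq hqp hd => by
    by_cases h : q ∈ C.N0
    · exact Finset.mem_union_left _ h
    · exact Finset.mem_union_right _ (mem_raisedPrimes.2 ⟨⟨hq, hd⟩, h, fun _ => hqp⟩)
  obtain ⟨h1, h2, h3, h4, h5⟩ := Curve.liftCondition_point C.delta_ne ι C.p_mem C.semistable
    C.p_ne_two (C.kind b (C.raisedPrimes b))
    (fun hk hd => by
      cases b
      · rw [kind, if_neg (by simp), if_pos (mem_raisedPrimes.2 ⟨⟨hp, hd⟩, fun h => ?_,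
          fun h => absurd h Bool.false_ne_true⟩)] at hk
        · exact nomatch hk
        · exact ((Curve.mem_ramifiedPrimes C.delta_ne (k := ZMod p)).1 h).2.1 rfl
      · rw [kind, if_pos rfl] at hk
        exact nomatch hk)
    (fun hk => by
      cases b
      · by_cases hpT : p ∈ C.raisedPrimes false
        · exact (mem_raisedPrimes.1 hpT).1.2
        · rw [kind, if_neg (by simp), if_neg hpT] at hk
          exact absurd rfl hk
      · exact hb.bad rfl)
    C.N0 (C.raisedPrimes b) hcover fun q hq _ _ _ => (mem_raisedPrimes.1 hq).1.2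
  exact ⟨h1, h2, h3, h4, fun q hq hqP hqp hq1 => C.sgn_of_ne hqp ▸ h5 q hq hqP hqp hq1⟩

end Ctx

namespace Assembly

open Fermat.Agent.Deform

/-- The trace read off the characteristic polynomial in rank two. -/
theorem trace_of_charpoly_rank_two {A : Type} [CommRing A] [IsLocalRing A] (ρ : GaloisRepAdic A)
    {σ : Gal} {t d : A} (h : LinearMap.charpoly (ρ.ρ σ) =
      Polynomial.X ^ 2 - Polynomial.C t * Polynomial.X + Polynomial.C d) :
    LinearMap.trace A ρ.V (ρ.ρ σ) = t := by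
  let bm := Module.finBasisOfFinrankEq A ρ.V ρ.finrank_eq
  rw [← LinearMap.charpoly_toMatrix _ bm, Matrix.charpoly_fin_two] at h
  have h1 := congrArg (fun P => Polynomial.coeff P 1) h
  simp [Polynomial.coeff_X_pow, Polynomial.coeff_C] at h1
  rw [LinearMap.trace_eq_matrix_trace A bm]
  exact h1

variable {O : Type} [CommRing O] [IsDomain O] [IsDiscreteValuationRing O]
  [IsAdicComplete (maximalIdeal O) O] [Finite (ResidueField O)] [CharZero O]
  {p : ℕ} [Fact p.Prime] [CharP (ResidueField O) p] {C : Ctx O p} {b : Bool}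

omit [IsAdicComplete (maximalIdeal O) O] [Finite (ResidueField O)] [CharZero O] in
theorem residual_point_baseChange (ι : ℤ_[p] →+* O) (hl : IsLocalHom (algebraMap O O)) :
    (Curve.point C.delta_ne ι C.p_mem).residual.IsEquiv
      (C.ρbar.baseChangeAlong (ResidueField.map (algebraMap O O))) := by
  let bb := Module.finBasisOfFinrankEq (ResidueField O) C.ρbar.V C.ρbar.finrank_eq
  letI := (ResidueField.map (algebraMap O O)).toAlgebra
  obtain ⟨e⟩ := Curve.residual_point_isEquiv C.delta_ne ι C.p_mem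
  refine isEquiv_of_matRes_eq (bb.map e.toLinearEquiv.symm) (bb.baseChange (ResidueField O)) ?_
  refine MonoidHom.ext fun σ => ?_
  rw [matRes_baseChangeAlong (ResidueField.map (algebraMap O O)) C.ρbar bb]
  have hid : ResidueField.map (algebraMap O O) = RingHom.id (ResidueField O) :=
    ResidueField.map_id
  ext i j
  rw [mapM_apply, hid, RingHom.id_apply, matRes_apply, matRes_apply, Module.Basis.map_repr]
  simp only [LinearEquiv.symm_symm, LinearEquiv.trans_apply, Module.Basis.map_apply]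
  rw [e.map_apply, LinearEquiv.apply_symm_apply]

variable {N L₀ : ℕ} [NeZero N] [NeZero L₀]
  {hK₀ : TwistSub L₀ (⊤ : Subgroup (ZMod L₀)ˣ) 0}
  {hK : TwistSub N (diaSub (fullWeight p (C.raisedPrimes b)) N)
    (weightExp (fullWeight p (C.raisedPrimes b)) N)}

/-- **The curve gives a point of the raised Hecke algebra.** -/
theorem exists_point_of_levels (hb : C.Base b) (hN : N = C.level b (C.raisedPrimes b))
    (hL₀ : L₀ = C.baseLevel b)
    [Nontrivial (wEigen C.badSet C.abar hK₀ ∅ C.eps)]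
    [IsLocalRing (levelT C.badSet C.abar hK₀ ∅ C.eps)]
    [IsReduced (levelT C.badSet C.abar hK₀ ∅ C.eps)]
    (hA₀ : IsResAlg O (levelT C.badSet C.abar hK₀ ∅ C.eps))
    (ρ₀ : GaloisRepAdic (levelT C.badSet C.abar hK₀ ∅ C.eps))
    (hρ₀ : IsLevelRep hA₀ C.ρbar (C.cond b ∅) ρ₀)
    (x : levelT C.badSet C.abar hK₀ ∅ C.eps →ₐ[O] O)
    (hsys : ∃ (σ : O →+* ℂ) (L' : ℕ) (g : CuspForm (CongruenceSubgroup.Gamma0 L') 2),
      Function.Injective σ ∧ L' ∣ L₀ ∧ g.IsNormalizedEigenform ∧
        ∀ ℓ : ℕ, ℓ.Prime → ℓ ∉ C.badSet →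
          ModularFormClass.qCoeff g ℓ = σ (x (levelOp C.badSet C.abar hK₀ ∅ C.eps ℓ)))
    (a : ℕ → O)
    (ha : ∀ m ∈ eigenPart x (wEigen C.badSet C.abar hK₀ ∅ C.eps),
      ∀ q ∈ C.raisedPrimes b, ∀ [Fact q.Prime],
        hecke L₀ ⊤ q O (toHomMod.symm (m : HomMod O C.badSet ⊤ O)) =
          a q • toHomMod.symm (m : HomMod O C.badSet ⊤ O))
    [Nontrivial (wEigen C.badSet C.abar hK (C.raisedPrimes b) C.eps)]
    [IsLocalRing (levelT C.badSet C.abar hK (C.raisedPrimes b) C.eps)]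
    [IsReduced (levelT C.badSet C.abar hK (C.raisedPrimes b) C.eps)]
    (hA : IsResAlg O (levelT C.badSet C.abar hK (C.raisedPrimes b) C.eps))
    (ρ : GaloisRepAdic (levelT C.badSet C.abar hK (C.raisedPrimes b) C.eps))
    (hρ : IsLevelRep hA C.ρbar (C.cond b (C.raisedPrimes b)) ρ)
    (hc : (∏ q ∈ C.raisedPrimes b, (compIndex (diaSub (fullWeight p (C.raisedPrimes b)) N) q : O) *
      ((q : O) + 1 + C.eps q * a q)) ≠ 0)
    [Module.Free (levelT C.badSet C.abar hK₀ ∅ C.eps) (wEigen C.badSet C.abar hK₀ ∅ C.eps)]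
    {r : ℕ} (γ : MvPowerSeries (Fin r) O →ₐ[O] levelT C.badSet C.abar hK₀ ∅ C.eps)
    (f : Fin r → MvPowerSeries (Fin r) O) (hγ : Function.Surjective γ)
    (hker : RingHom.ker γ = Ideal.span (Set.range f))
    (hreg : ∀ ϖ : O, Irreducible ϖ → RingTheory.Sequence.IsWeaklyRegular
      (MvPowerSeries (Fin r) O) (List.ofFn f ++ [MvPowerSeries.C ϖ]))
    (hΦ : ∀ (DR : GaloisRep.DeformationRingData O C.ρbar (C.cond b (C.raisedPrimes b)))
      (g : DR.R →ₐ[O] levelT C.badSet C.abar hK₀ ∅ C.eps)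
      (hg : IsLocalHom (g : DR.R →+* levelT C.badSet C.abar hK₀ ∅ C.eps)),
      (DR.ρ.baseChangeAlong (g : DR.R →+* levelT C.badSet C.abar hK₀ ∅ C.eps) hg).IsEquiv ρ₀ →
        Function.Surjective g → Finite (Phi (x.comp g)) ∧
          Nat.card (Phi (x.comp g)) ≤ Nat.card (Phi x) * Nat.card (O ⧸ Ideal.span
            {∏ q ∈ C.raisedPrimes b,
              (compIndex (diaSub (fullWeight p (C.raisedPrimes b)) N) q : O) *
                ((q : O) + 1 + C.eps q * a q)})) :
    ∃ y : levelT C.badSet C.abar hK (C.raisedPrimes b) C.eps →ₐ[O] O,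
      ∀ ℓ : ℕ, ℓ.Prime → ℓ ∉ C.badSet →
        y (levelOp C.badSet C.abar hK (C.raisedPrimes b) C.eps ℓ) = (C.W.apOfModel ℓ : O) := by
  have hT := C.admissible_raisedPrimes b
  have hS : ∀ v : ℕ, v.Prime → v ∣ N → v ∈ C.badSet := fun v hv h =>
    Ctx.mem_badSet_of_dvd_raisedLevel hv (hN ▸ h)
  have hd : L₀ ∣ N := by
    rw [hL₀, hN]
    exact dvd_mul_right _ _
  obtain ⟨P⟩ := C.exists_levelRaiseMaps hT hN hL₀ hd hS (isWeight_fullWeight p _) hK
  have hS₀ : ∀ v : ℕ, v.Prime → v ∣ L₀ → v ∈ C.badSet := fun v hv h => hS v hv (h.trans hd)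
  obtain ⟨R⟩ := exists_raising hS P (hN ▸ Ctx.squarefree_level hT) hA₀ hA ρ₀ hρ₀ ρ hρ hS₀ x hsys a ha
  set H₁ := levelSystem hS hA ρ hρ
  have hp2 := C.p_ne_two
  have habs := Curve.isAbsolutelyIrreducible_residual C.delta_ne (k := ResidueField O) hp2
    C.irreducible
  have hDC := isDeformationCondition_lift (O := O) hp2 C.p_mem (C.kind b (C.raisedPrimes b)) C.N0
    (C.raisedPrimes b) C.sgn
  obtain ⟨DR⟩ := nonempty_deformationRingData_lift hp2 C.p_mem habs
    (cond_residual_of_system hDC habs H₁)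
  have h2 : IsUnit (2 : O) := TW.isUnit_two_of_odd hp2 C.p_mem
  haveI : Module.Free (levelSystem hS₀ hA₀ ρ₀ hρ₀).T (levelSystem hS₀ hA₀ ρ₀ hρ₀).M :=
    ‹Module.Free (levelT C.badSet C.abar hK₀ ∅ C.eps) (wEigen C.badSet C.abar hK₀ ∅ C.eps)›
  obtain ⟨φ, hφ, hφtr⟩ := exists_bijective_of_raising h2 (levelSystem hS₀ hA₀ ρ₀ hρ₀) H₁ x hc R
    (card_omega_eq (levelSystem hS₀ hA₀ ρ₀ hρ₀) x γ hγ f hker hreg) DR (hΦ DR)
  obtain ⟨ι⟩ := GaloisReps.exists_padicHom O C.p_mem
  refine exists_point_of_rep H₁ DR φ hφ hφtr (Curve.point C.delta_ne ι C.p_mem)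
    (residual_point_baseChange ι _) (Ctx.cond_point hb ι) _ fun ℓ hℓ hℓS A hA' σ hσ => ?_
  show LinearMap.trace O (Curve.point C.delta_ne ι C.p_mem).V
    ((Curve.point C.delta_ne ι C.p_mem).ρ σ) = _
  have hgood : C.W.IsGoodPrimeFor ℓ := fun hd' =>
    hℓS (C.mem_badSet (b := b) hℓ (Or.inr (Or.inr hd')))
  have hne : ℓ ≠ p := fun he => hℓS (C.mem_badSet (b := b) hℓ (Or.inl he))
  exact trace_of_charpoly_rank_two _
    (Curve.charpoly_point_frobenius C.delta_ne ι C.p_mem hℓ hgood hne hA' hσ)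

end Assembly

end Fermat.Agent.Lifting
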