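import Fermat.Agent.Lifting.Assembly.Raised
import Fermat.Agent.Lifting.Degeneracy.HeckeAtQ
import Fermat.Agent.Lifting.Criterion.Omega
import Fermat.Agent.RT.Lift.Bound

/-!
# The eigen system at a point of the minimal Hecke algebra

At a point `x` of the algebra of `Γ₀(L)` with the system of an eigenform `g`, `T_q` is the
coefficient of `g` at every prime `q ∤ L`, and for `q ≠ p` so is `x` of the trace of Frobenius at
`q`; hence the congruence factor does not vanish.
-/

set_option autoImplicit false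
set_option linter.overlappingInstances false
set_option linter.style.haveILetI false

noncomputable section

namespace Fermat.Agent.Lifting.Assembly

open IsLocalRing CongruenceSubgroup ModularFormClass MvPolynomial
open Fermat.Agent.RT.GammaH Fermat.Agent.Lifting.Degeneracy

variable {O : Type} [CommRing O] [IsDomain O] [IsDiscreteValuationRing O]
  [IsAdicComplete (maximalIdeal O) O] {L e : ℕ} [NeZero L] {S : Finset ℕ}
  {abar : ℕ → ResidueField O} {hK : TwistSub L (⊤ : Subgroup (ZMod L)ˣ) e} {eps : ℕ → O}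

/-- On the eigen part of a point the algebra acts through it. -/
theorem apply_eq_smul_of_mem_eigenPart (x : levelT S abar hK ∅ eps →ₐ[O] O)
    {m : wEigen S abar hK ∅ eps} (hm : m ∈ eigenPart x (wEigen S abar hK ∅ eps))
    (t : levelT S abar hK ∅ eps) :
    (t : Module.End O (wEigen S abar hK ∅ eps)) m = x t • m := by
  have hker : t - algebraMap O (levelT S abar hK ∅ eps) (x t) ∈ RingHom.ker x := by
    rw [RingHom.mem_ker, map_sub, AlgHom.commutes]
    exact sub_self _
  have h0 : (t - algebraMap O (levelT S abar hK ∅ eps) (x t)) • m = 0 :=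
    (Submodule.mem_torsionBySet_iff _ _).1 hm ⟨_, hker⟩
  rw [sub_smul, algebraMap_smul, sub_eq_zero] at h0
  exact h0

variable (hS : ∀ v : ℕ, v.Prime → v ∣ L → v ∈ S) (hsq : Squarefree L)
  (hEis : ∃ ℓ : ℕ, ℓ.Prime ∧ ℓ ∉ S ∧ abar ℓ ≠ 1 + (ℓ : ResidueField O))
  (x : levelT S abar hK ∅ eps →ₐ[O] O) {L' : ℕ} [NeZero L'] {g : CuspForm (Gamma0 L') 2}
  (hg : g.IsNormalizedEigenform) (hL' : L' ∣ L) (σ : O →+* ℂ) (hσ : Function.Injective σ)
  (hgx : ∀ ℓ : ℕ, ℓ.Prime → ℓ ∉ S → qCoeff g ℓ = σ (x (levelOp S abar hK ∅ eps ℓ)))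
  {q : ℕ} [Fact q.Prime] (hqL : ¬ q ∣ L) {α : O} (hα : σ α = qCoeff g q)

include hS hsq hEis hg hL' hσ hgx hqL hα

/-- **`T_q` on the eigen part of the point.** -/
theorem hecke_eq_of_point {m : wEigen S abar hK ∅ eps}
    (hm : m ∈ eigenPart x (wEigen S abar hK ∅ eps)) :
    hecke L ⊤ q O (toHomMod.symm (m : HomMod O S (⊤ : Subgroup (ZMod L)ˣ) O)) =
      α • toHomMod.symm (m : HomMod O S (⊤ : Subgroup (ZMod L)ˣ) O) := by
  letI : Algebra O ℂ := σ.toAlgebra
  set K : Subgroup (ZMod L)ˣ := ⊤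
  have hcomm : ∀ (n : ℕ) [Fact n.Prime] (z : HomMod O S K O),
      hecke L K n ℂ (toHomC z) = toHomC (heckeH O S n z) := fun n _ z =>
    opOf_comp_coeff (R := O) (S := ℂ) (admissible_hRep (n := n) (M := L) (K := K))
      (algebraMap O ℂ).toAddMonoidHom _
  have hsmul : ∀ (c : O) (z : HomMod O S K O), toHomC (c • z) = σ c • toHomC z := fun c z =>
    AddMonoidHom.ext fun γ => map_mul σ c (z γ)
  set φ := toHomC (m : HomMod O S K O) with hφdef
  have hpar : φ ∈ ModularCurve.Period.parabolicHoms ℂ (gammaH L K) ℂ := by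
    refine Module.mem_parabolicHoms_of_localizer hsq (Subgroup.mem_top _) hS hEis
      (isLocalizer_locElt O S abar K) ?_
    rw [hφdef, ← toHomC_smul]
    exact congrArg toHomC m.2.1
  have hop : ∀ (ℓ : ℕ) [Fact ℓ.Prime], ℓ ∉ S →
      hecke L K ℓ ℂ φ = qCoeff g ℓ • φ := fun ℓ hℓ hℓS => by
    have h1 := congrArg Subtype.val
      (apply_eq_smul_of_mem_eigenPart x hm (levelOp S abar hK ∅ eps ℓ))
    have h2 := coe_levelOp_smul (hK := hK) (T := ∅) (eps := eps) hS hℓ.out hℓS m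
    have h3 : heckeH O S ℓ (m : HomMod O S K O) =
        twEl O L S e ⟨ℓ, hℓ.out, hℓS⟩ (coprime_of_primes hS hℓ.out hℓS) •
          (m : HomMod O S K O) := by
      rw [twEl, mul_smul, X_inl_smul, X_inr_smul, diamond_top]
      rfl
    rw [hφdef, hcomm, h3, ← h2, hgx ℓ hℓ.out hℓS]
    exact (congrArg toHomC h1).trans (hsmul _ _)
  have hq := Eigen.hecke_eq_of_system hsq hS hg hqL (fun h => hqL (h.trans hL')) hpar hop
  rw [hφdef, hcomm, ← hα, ← hsmul] at hq
  exact congrArg toHomMod.symm (toHomC_injective (O := O) hσ hq)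

/-- **The value of the point at the trace of Frobenius at `q`.** -/
theorem apply_trace_eq_of_point [Finite (ResidueField O)] [CharZero O] {p : ℕ} [Fact p.Prime]
    (hp : (p : O) ∈ maximalIdeal O) [Nontrivial (wEigen S abar hK ∅ eps)]
    [IsReduced (levelT S abar hK ∅ eps)] [IsLocalRing (levelT S abar hK ∅ eps)]
    (ρ : GaloisRepAdic (levelT S abar hK ∅ eps))
    (htr : ∀ ℓ : ℕ, ℓ.Prime → ℓ ∉ S → ∀ P : ValuationSubring (AlgebraicClosure ℚ),
      P.LiesOverPrime ℓ → ∀ τ : Deform.Gal, P.IsFrobeniusAt τ ℓ →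
        ρ.trace τ = levelOp S abar hK ∅ eps ℓ)
    (hqp : q ≠ p) {P : ValuationSubring (AlgebraicClosure ℚ)} (hP : P.LiesOverPrime q)
    {F : Deform.Gal} (hF : P.IsFrobeniusAt F q) : x (ρ.trace F) = α := by
  have hpos : 0 < eigenRank x (wEigen S abar hK ∅ eps) :=
    eigenRank_pos (M := wEigen S abar hK ∅ eps) x
  haveI : Nontrivial ((eigenPart x (wEigen S abar hK ∅ eps)).restrictScalars O) :=
    Module.nontrivial_of_finrank_pos hpos
  obtain ⟨⟨m, hm⟩, hm0⟩ :=
    exists_ne (0 : (eigenPart x (wEigen S abar hK ∅ eps)).restrictScalars O)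
  have h1 := hecke_eq_smul_of_eigen hK eps hS hp hsq hEis ρ htr hqL hqp hP hF x m
    (apply_eq_smul_of_mem_eigenPart x hm)
  rw [hecke_eq_of_point hS hsq hEis x hg hL' σ hσ hgx hqL hα hm] at h1
  have hm1 : (m : HomMod O S (⊤ : Subgroup (ZMod L)ˣ) O) ≠ 0 := fun h =>
    hm0 (Subtype.ext (Subtype.ext h))
  obtain ⟨γ, hγ⟩ : ∃ γ, toHomMod.symm (m : HomMod O S (⊤ : Subgroup (ZMod L)ˣ) O) γ ≠ 0 := by
    by_contra! h
    exact hm1 ((LinearEquiv.map_eq_zero_iff _).1 (AddMonoidHom.ext h))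
  exact (mul_right_cancel₀ hγ (DFunLike.congr_fun h1 γ)).symm

omit [IsDomain O] [IsDiscreteValuationRing O] [IsAdicComplete (maximalIdeal O) O] [NeZero L] hS hsq hEis hσ hgx in
/-- The congruence factor at `q` is nonzero. -/
theorem succ_add_mul_ne_zero {s : O} (hs : s * s = 1) : (q : O) + 1 + s * α ≠ 0 := fun h => by
  have hq : q.Prime := Fact.out
  refine RT.Lift.qCoeff_sq_ne hq (fun h => hqL (h.trans hL')) hg ?_
  have h1 := congrArg σ h
  rw [map_add, map_add, map_mul, map_natCast, map_one, map_zero, hα] at h1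
  have h2 : σ s * σ s = 1 := by rw [← map_mul, hs, map_one]
  linear_combination (qCoeff g q * σ s - ((q : ℂ) + 1)) * h1 - qCoeff g q ^ 2 * h2

end Fermat.Agent.Lifting.Assembly
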