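import Fermat.Agent.Lifting.Assembly.LevelsPoint
import Fermat.Agent.Lifting.Assembly.MinimalPoint
import Fermat.Agent.Lifting.Assembly.Growth

/-!
# From minimal `R = T` to the point of the raised algebra

With a minimal `R = T`, a point of the minimal algebra carrying an eigenform and representations at
both levels, the curve is a point of the raised Hecke algebra.
-/

set_option autoImplicit false
set_option linter.overlappingInstances false
set_option linter.style.haveILetI false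

noncomputable section

namespace Fermat.Agent.Lifting.Assembly

open IsLocalRing CongruenceSubgroup ModularFormClass
open Fermat.Agent.RT.GammaH Fermat.Agent.Lifting.Degeneracy Fermat.Agent.Deform

variable {O : Type} [CommRing O] [IsDomain O] [IsDiscreteValuationRing O]
  [IsAdicComplete (maximalIdeal O) O] [Finite (ResidueField O)] [CharZero O]
  {p : ℕ} [Fact p.Prime] [CharP (ResidueField O) p] {C : Ctx O p} {b : Bool}
  {N L₀ : ℕ} [NeZero N] [NeZero L₀]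
  {hK₀ : TwistSub L₀ (⊤ : Subgroup (ZMod L₀)ˣ) 0}
  {hK : TwistSub N (diaSub (fullWeight p (C.raisedPrimes b)) N)
    (weightExp (fullWeight p (C.raisedPrimes b)) N)}

omit [IsAdicComplete (maximalIdeal O) O] [Finite (ResidueField O)] [CharZero O] in
theorem exists_abar_ne_badSet (C : Ctx O p) :
    ∃ ℓ : ℕ, ℓ.Prime ∧ ℓ ∉ C.badSet ∧ C.abar ℓ ≠ 1 + (ℓ : ResidueField O) := by
  obtain ⟨ℓ, hℓ, hℓS, -, -, hne⟩ :=
    Curve.exists_abar_ne (k := ResidueField O) C.delta_ne C.p_ne_two C.irreducible C.badSet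
  exact ⟨ℓ, hℓ, hℓS, hne⟩

/-- **The point of the raised algebra from minimal `R = T`.** -/
theorem exists_point_of_minimal (hb : C.Base b) (hN : N = C.level b (C.raisedPrimes b))
    (hL₀ : L₀ = C.baseLevel b)
    [Nontrivial (wEigen C.badSet C.abar hK₀ ∅ C.eps)]
    [IsLocalRing (levelT C.badSet C.abar hK₀ ∅ C.eps)]
    [IsReduced (levelT C.badSet C.abar hK₀ ∅ C.eps)]
    (hA₀ : IsResAlg O (levelT C.badSet C.abar hK₀ ∅ C.eps))
    (ρ₀ : GaloisRepAdic (levelT C.badSet C.abar hK₀ ∅ C.eps))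
    (hρ₀ : IsLevelRep hA₀ C.ρbar (C.cond b ∅) ρ₀)
    (x : levelT C.badSet C.abar hK₀ ∅ C.eps →ₐ[O] O)
    (σ : O →+* ℂ) (hσ : Function.Injective σ) {L' : ℕ} [NeZero L'] (hL' : L' ∣ L₀)
    {g : CuspForm (Gamma0 L') 2} (hg : g.IsNormalizedEigenform) (α : ℕ → O)
    (hα : ∀ q : ℕ, q.Prime → σ (α q) = qCoeff g q)
    (hgx : ∀ ℓ : ℕ, ℓ.Prime → ℓ ∉ C.badSet →
      qCoeff g ℓ = σ (x (levelOp C.badSet C.abar hK₀ ∅ C.eps ℓ)))
    (hquad : p ∈ C.raisedPrimes b → QuotQuadraticAt (pointBC ρ₀ x) p (α p))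
    [Nontrivial (wEigen C.badSet C.abar hK (C.raisedPrimes b) C.eps)]
    [IsLocalRing (levelT C.badSet C.abar hK (C.raisedPrimes b) C.eps)]
    [IsReduced (levelT C.badSet C.abar hK (C.raisedPrimes b) C.eps)]
    (hA : IsResAlg O (levelT C.badSet C.abar hK (C.raisedPrimes b) C.eps))
    (ρ : GaloisRepAdic (levelT C.badSet C.abar hK (C.raisedPrimes b) C.eps))
    (hρ : IsLevelRep hA C.ρbar (C.cond b (C.raisedPrimes b)) ρ)
    (D0 : GaloisRep.DeformationRingData O C.ρbar (C.cond b ∅))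
    (φ₀ : D0.R →ₐ[O] levelT C.badSet C.abar hK₀ ∅ C.eps) (hφ₀ : Function.Bijective φ₀)
    (htr₀ : ∀ τ, φ₀ (D0.ρ.trace τ) = ρ₀.trace τ)
    [Module.Free (levelT C.badSet C.abar hK₀ ∅ C.eps) (wEigen C.badSet C.abar hK₀ ∅ C.eps)]
    {r : ℕ} (γ : MvPowerSeries (Fin r) O →ₐ[O] levelT C.badSet C.abar hK₀ ∅ C.eps)
    (f : Fin r → MvPowerSeries (Fin r) O) (hγ : Function.Surjective γ)
    (hker : RingHom.ker γ = Ideal.span (Set.range f))
    (hreg : ∀ ϖ : O, Irreducible ϖ → RingTheory.Sequence.IsWeaklyRegular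
      (MvPowerSeries (Fin r) O) (List.ofFn f ++ [MvPowerSeries.C ϖ])) :
    ∃ y : levelT C.badSet C.abar hK (C.raisedPrimes b) C.eps →ₐ[O] O,
      ∀ ℓ : ℕ, ℓ.Prime → ℓ ∉ C.badSet →
        y (levelOp C.badSet C.abar hK (C.raisedPrimes b) C.eps ℓ) = (C.W.apOfModel ℓ : O) := by
  have hT := C.admissible_raisedPrimes b
  have hsqN : Squarefree N := hN ▸ Ctx.squarefree_level hT
  have hS₀ : ∀ v : ℕ, v.Prime → v ∣ L₀ → v ∈ C.badSet := fun v hv h =>
    C.mem_badSet (b := b) hv (Or.inr (Or.inl (hL₀ ▸ h)))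
  have hsq₀ : Squarefree L₀ := hL₀ ▸ C.squarefree_baseLevel b
  have hEis := exists_abar_ne_badSet C
  have hqL : ∀ q ∈ C.raisedPrimes b, ¬ q ∣ L₀ := fun q hq => hL₀ ▸ C.not_dvd_baseLevel hT hq
  have hdvd : ∀ q ∈ C.raisedPrimes b, q ∣ N := fun q hq =>
    hN ▸ (Finset.dvd_prod_of_mem (fun r => r) hq).trans (dvd_mul_left _ _)
  have hne : ∀ q ∈ C.raisedPrimes b,
      (compIndex (diaSub (fullWeight p (C.raisedPrimes b)) N) q : O) *
        ((q : O) + 1 + C.eps q * α q) ≠ 0 := fun q hq => by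
    have hqP := hT.prime q hq
    have : Fact q.Prime := ⟨hqP⟩
    refine mul_ne_zero ?_
      (succ_add_mul_ne_zero hg hL' σ (hqL q hq) (hα q hqP) (C.eps_mul_self q))
    rw [compIndex_diaSub (isWeight_fullWeight p _) hsqN hqP (hdvd q hq), Nat.cast_ne_zero,
      fullWeight, if_pos hq]
    exact pow_ne_zero _ (Fact.out : p.Prime).ne_zero
  haveI : Finite (Phi x) := finite_phi x
  refine exists_point_of_levels hb hN hL₀ hA₀ ρ₀ hρ₀ x ⟨σ, L', g, hσ, hL', hg, hgx⟩ α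
    (fun m hm q hq _ =>
      hecke_eq_of_point hS₀ hsq₀ hEis x hg hL' σ hσ hgx (hqL q hq) (hα q (hT.prime q hq)) hm)
    hA ρ hρ (Finset.prod_ne_zero_iff.2 hne) γ f hγ hker hreg fun DR g' hg' hge _ => ?_
  let x' : (levelSystem hS₀ hA₀ ρ₀ hρ₀).T →ₐ[O] O := x
  haveI : Finite (Phi x') := ‹Finite (Phi x)›
  refine C.card_phi_le_level (H₀ := levelSystem hS₀ hA₀ ρ₀ hρ₀) hT
    (fun q hq => (Ctx.mem_raisedPrimes.1 hq).1.2) D0 φ₀ hφ₀ htr₀ DR x' α (fun q hq hqp => ?_) hquad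
    (fun q => compIndex (diaSub (fullWeight p (C.raisedPrimes b)) N) q)
    (fun q hq _ _ => sub_one_dvd_compIndex C.p_mem hsqN (hT.prime q hq) (hdvd q hq) hq) hne g' hg' hge
  have : Fact q.Prime := ⟨hT.prime q hq⟩
  obtain ⟨P, hP⟩ := Arith.exists_liesOverPrime (hT.prime q hq)
  obtain ⟨F, hF⟩ := Arith.exists_isFrobeniusAt hP (hT.prime q hq)
  exact ⟨P, F, hP, hF, apply_trace_eq_of_point hS₀ hsq₀ hEis x hg hL' σ hσ hgx (hqL q hq)
    (hα q (hT.prime q hq)) C.p_mem ρ₀ hρ₀.2.2 hqp hP hF⟩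

end Fermat.Agent.Lifting.Assembly
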