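import Fermat.Agent.Lifting.Assembly.Classify
import Fermat.Agent.Lifting.Patch.Main

/-!
# The minimal step
-/

set_option autoImplicit false
set_option linter.style.haveILetI false

noncomputable section

namespace Fermat.Agent.Lifting.Assembly

open IsLocalRing Module MvPowerSeries Fermat.Agent.Deform

/-- A module which is a finite power free over a local ring is free. -/
theorem free_of_free_pi {R M : Type} [CommRing R] [IsLocalRing R] [AddCommGroup M] [Module R M]
    {m : ℕ} (hm : 0 < m) [Module.Free R (Fin m → M)] [Module.Finite R M] : Module.Free R M := by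
  haveI : Module.Projective R M := Module.Projective.of_split
    (LinearMap.single R (fun _ : Fin m => M) ⟨0, hm⟩) (LinearMap.proj ⟨0, hm⟩)
    (LinearMap.ext fun x => by simp)
  exact Module.free_of_flat_of_isLocalRing

variable {O : Type} [CommRing O] [IsDomain O] [IsDiscreteValuationRing O]
  [IsAdicComplete (maximalIdeal O) O] [Finite (ResidueField O)]
  {ρbar : ResidualGaloisRep (ResidueField O)} {C₀ : Cond O} {S : Finset ℕ}

/-- **Minimal `R = T`**, from the Taylor–Wiles levels. -/
theorem exists_minimal {p : ℕ} [Fact p.Prime] (hp : (p : O) ∈ maximalIdeal O) (hp2 : p ≠ 2)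
    (H₀ : HeckeSystem O ρbar C₀ S) (DR : GaloisRep.DeformationRingData O ρbar C₀)
    (φ : DR.R →ₐ[O] H₀.T) (hφ : Function.Surjective φ) [Module DR.R H₀.M]
    [IsScalarTower O DR.R H₀.M] (hsmul : ∀ (a : DR.R) (v : H₀.M), a • v = φ a • v)
    {r m : ℕ} (hm : 0 < m)
    (D : ∀ n : ℕ, TWDatum O p r (m * Module.finrank O H₀.M) n DR.R (Fin m → H₀.M)) :
    Function.Bijective φ ∧ Module.Free H₀.T H₀.M ∧
      ∃ (γ : MvPowerSeries (Fin r) O →ₐ[O] H₀.T) (f : Fin r → MvPowerSeries (Fin r) O),
        Function.Surjective γ ∧ RingHom.ker γ = Ideal.span (Set.range f) ∧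
        ∀ ϖ : O, Irreducible ϖ → RingTheory.Sequence.IsWeaklyRegular
          (MvPowerSeries (Fin r) O) (List.ofFn f ++ [C ϖ]) := by
  have hd : Module.finrank O (Fin m → H₀.M) = m * Module.finrank O H₀.M := by
    rw [Module.finrank_pi_fintype O]
    simp
  obtain ⟨γ, f, hγ, hker, hreg, hfree, hfaith, hfin⟩ :=
    exists_presentation_of_patching hp hp2 (Nat.mul_pos hm Module.finrank_pos) hd D
  have hinj : Function.Injective φ := (injective_iff_map_eq_zero φ).mpr fun a ha =>
    eq_of_smul_eq_smul (α := Fin m → H₀.M) fun v => funext fun i => by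
      rw [Pi.smul_apply, Pi.smul_apply, hsmul, ha, zero_smul, zero_smul]
  have hbij : Function.Bijective φ := ⟨hinj, hφ⟩
  let e : DR.R ≃ₐ[O] H₀.T := AlgEquiv.ofBijective φ hbij
  haveI : Module.Finite DR.R H₀.M := Module.Finite.of_restrictScalars_finite O DR.R H₀.M
  haveI : Module.Free DR.R H₀.M := free_of_free_pi hm
  refine ⟨hbij, Module.Free.of_basis ((Module.Free.chooseBasis DR.R H₀.M).mapCoeffs
      e.toRingEquiv fun a v => (hsmul a v).symm), φ.comp γ, f, hφ.comp hγ, ?_, hreg⟩
  rw [← hker]
  ext g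
  exact ⟨fun h => hinj ((show φ (γ g) = 0 from h).trans (map_zero φ).symm),
    fun h => show φ (γ g) = 0 by rw [show γ g = 0 from h, map_zero]⟩

end Fermat.Agent.Lifting.Assembly
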