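import Fermat.Agent.Top.Inputs
import Fermat.Agent.Lifting.Setup.Point
import Fermat.Agent.Lifting.AtP.Sign
import Fermat.Agent.Lifting.Galois.LevelSystem
import Fermat.Agent.Lifting.AtP.Newform
import Fermat.Agent.Lifting.Assembly.LevelAlg
import Fermat.Agent.Lifting.Assembly.RaisedPoint
import Fermat.Agent.Lifting.Curve.EndMain
import Fermat.Agent.Lifting.TW.Primes
import Fermat.Agent.Lifting.TW.Minimal
import Fermat.Agent.RT.Lower.Main

/-!
# Modularity lifting at `3` and `5` from minimal `R = T`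

Auxiliary prime and case, coefficients and base point, representations at the minimal and at the
raised level, the point of the raised algebra given by the curve, and the newform at that point.
-/

set_option autoImplicit false
set_option linter.overlappingInstances false
set_option linter.style.haveILetI false

noncomputable section

namespace Fermat.Agent.Lifting.Assembly

open IsLocalRing CongruenceSubgroup ModularFormClass Fermat.Agent.Deform
open Fermat.Agent.RT.GammaH Fermat.Agent.Lifting.Degeneracy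

/-- A point of the raised algebra with the system of the curve comes from a newform of squarefree
level. -/
def EndInput : Prop :=
  ∀ (p : ℕ) [Fact p.Prime] (O : Type) [CommRing O] [IsDomain O] [IsDiscreteValuationRing O]
    [IsAdicComplete (maximalIdeal O) O] [Finite (ResidueField O)] [CharZero O]
    [CharP (ResidueField O) p] (C : Ctx O p) (b : Bool), C.Base b →
    ∀ (N : ℕ) [NeZero N], N = C.level b (C.raisedPrimes b) →
    ∀ (hK : TwistSub N (diaSub (fullWeight p (C.raisedPrimes b)) N)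
        (weightExp (fullWeight p (C.raisedPrimes b)) N))
      [Nontrivial (wEigen C.badSet C.abar hK (C.raisedPrimes b) C.eps)]
      (y : levelT C.badSet C.abar hK (C.raisedPrimes b) C.eps →ₐ[O] O),
      (∀ ℓ : ℕ, ℓ.Prime → ℓ ∉ C.badSet →
        y (levelOp C.badSet C.abar hK (C.raisedPrimes b) C.eps ℓ) = (C.W.apOfModel ℓ : O)) →
      ∃ (M : ℕ) (g : CuspForm (Gamma0 M) 2), g.IsNewform ∧ Squarefree M ∧
        ∀ ℓ : ℕ, ℓ.Prime → ℓ ∉ C.badSet → qCoeff g ℓ = (C.W.apOfModel ℓ : ℂ)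

variable {O : Type} [CommRing O] [IsDomain O] [IsDiscreteValuationRing O]
  [IsAdicComplete (maximalIdeal O) O] [Finite (ResidueField O)] [CharZero O]
  {p : ℕ} [Fact p.Prime] [CharP (ResidueField O) p]

/-- **Lifting in a case**, given a congruent newform and a point of the minimal algebra. -/
theorem isModular_of_case (hEnd : EndInput)
    (C : Ctx O p) {b : Bool} (hB : C.Base b) {M : ℕ} {g₀ : CuspForm (Gamma0 M) 2}
    (hg₀ : g₀.IsNewform) (hM : M ∣ C.baseLevel b) (α : ℕ → O) (σ : O →+* ℂ)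
    (hσ : Function.Injective σ) (hα : ∀ ℓ : ℕ, ℓ.Prime → σ (α ℓ) = qCoeff g₀ ℓ)
    (hpt : ∀ (N : ℕ) [NeZero N], N = C.baseLevel b → ∀ (S : Finset ℕ), C.badSet ⊆ S →
      ∀ {K : Subgroup (ZMod N)ˣ}, K = ⊤ → ∀ {e : ℕ} (hK : TwistSub N K e) (eps : ℕ → O),
        Nontrivial (wEigen S C.abar hK ∅ eps) ∧
          ∃ x : levelT S C.abar hK ∅ eps →ₐ[O] O, ∀ ℓ : ℕ, ℓ.Prime → ℓ ∉ S →
            x (levelOp S C.abar hK ∅ eps ℓ) = α ℓ) :
    Mlc1IsModularModelOfExactConductorLevel C.W := by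
  haveI : NeZero M := ⟨fun h =>
    (C.squarefree_baseLevel b).ne_zero (Nat.eq_zero_of_zero_dvd (h ▸ hM))⟩
  -- the minimal level
  have hadm : C.Admissible b ∅ := ⟨nofun, nofun, fun _ h => absurd h (Finset.notMem_empty p)⟩
  haveI : NeZero (C.level b ∅) := ⟨(Ctx.level_pos hadm).ne'⟩
  have hL₀ : C.level b ∅ = C.baseLevel b := by rw [Ctx.level, Finset.prod_empty, mul_one]
  have hS₀ : ∀ v : ℕ, v.Prime → v ∣ C.level b ∅ → v ∈ C.badSet := fun v hv h =>
    C.mem_of_dvd_level hadm subset_rfl (Finset.empty_subset _) hv h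
  let hK₀ : TwistSub (C.level b ∅) (⊤ : Subgroup (ZMod (C.level b ∅))ˣ) 0 := twistSub_top _ 0
  obtain ⟨hnt₀, x, hx⟩ := hpt (C.level b ∅) hL₀ C.badSet subset_rfl rfl hK₀ C.eps
  haveI := hnt₀
  have hEis := exists_abar_ne_badSet C
  haveI := isLocalRing_levelT hS₀ C.abar hK₀ ∅ C.eps
  haveI : IsReduced (levelT C.badSet C.abar hK₀ ∅ C.eps) :=
    isReduced_levelT hS₀ C.abar hK₀ ∅ C.eps (Ctx.squarefree_level hadm)
      (by rw [← Subgroup.index_eq_card, Subgroup.index_top]; exact odd_one) hEis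
  have hA₀ := isResAlg_levelT hS₀ C.abar hK₀ ∅ C.eps
  obtain ⟨ρ₀, hρ₀⟩ := C.exists_levelRep_minimal hB subset_rfl hL₀ hA₀
  -- the raised level
  set T := C.raisedPrimes b
  have hT : C.Admissible b T := C.admissible_raisedPrimes b
  haveI : NeZero (C.level b T) := ⟨(Ctx.level_pos hT).ne'⟩
  have hTS : T ⊆ C.badSet := fun q hq =>
    C.mem_badSet (b := b) (hT.prime q hq) (Or.inr (Or.inr (Ctx.mem_raisedPrimes.1 hq).1.2))
  have hS : ∀ v : ℕ, v.Prime → v ∣ C.level b T → v ∈ C.badSet := fun v hv h =>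
    Ctx.mem_badSet_of_dvd_raisedLevel hv h
  have hP := isWeight_fullWeight p T
  have hsqN := Ctx.squarefree_level hT
  have hK : TwistSub (C.level b T) (diaSub (fullWeight p T) (C.level b T))
      (weightExp (fullWeight p T) (C.level b T)) :=
    twistSub_weightExp hP Fact.out C.p_ne_two hsqN.ne_zero
  obtain ⟨P⟩ := C.exists_levelRaiseMaps hT rfl hL₀ (hL₀.symm ▸ dvd_mul_right _ _) hS hP hK
  haveI := nontrivial_raised P (hK₀ := hK₀) (eps₀ := C.eps)
  haveI := isLocalRing_levelT hS C.abar hK T C.eps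
  haveI : IsReduced (levelT C.badSet C.abar hK T C.eps) :=
    isReduced_levelT hS C.abar hK T C.eps hsqN
      (by
        obtain ⟨k, hk⟩ := IsPGroup.iff_card.1 (isPGroup_quotient_diaSub hP hsqN.ne_zero)
        rw [hk]
        exact ((Fact.out : p.Prime).odd_of_ne_two C.p_ne_two).pow) hEis
  have hA := isResAlg_levelT hS C.abar hK T C.eps
  obtain ⟨ρ, hρ⟩ := C.exists_levelRep_raised hB hT (fun h => (Ctx.mem_raisedPrimes.1 h).1.2)
    subset_rfl hTS rfl hA
  -- minimal `R = T` and the point of the raised algebra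
  obtain ⟨D0⟩ : Nonempty (GaloisRep.DeformationRingData O C.ρbar (C.cond b ∅)) := by
    haveI := (levelSystem hS₀ hA₀ ρ₀ hρ₀).isNoetherianRing
    haveI := (levelSystem hS₀ hA₀ ρ₀ hρ₀).isAdicComplete
    exact (C.exists_deformationRing_of_rep (levelSystem hS₀ hA₀ ρ₀ hρ₀).isResAlg _
      (levelSystem hS₀ hA₀ ρ₀ hρ₀).residual_isEquiv (levelSystem hS₀ hA₀ ρ₀ hρ₀).cond).2
  obtain ⟨φ₁, hφ₁, htr₁⟩ := exists_classify D0 (levelSystem hS₀ hA₀ ρ₀ hρ₀)
  let φ₀ : D0.R →ₐ[O] levelT C.badSet C.abar hK₀ ∅ C.eps := φ₁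
  have htr₀ : ∀ τ, φ₀ (D0.ρ.trace τ) = ρ₀.trace τ := htr₁
  obtain ⟨hφ₀, hfree, r, γ, f, hγ, hker, hreg⟩ := C.exists_minimal_levelT RT.Lower.traceInertiaAll
    hB (S := C.badSet) subset_rfl hL₀
    (fun S' hS' => (hpt (C.level b ∅) hL₀ S' hS' rfl (twistSub_top _ 0) C.eps).1) hA₀ ρ₀ hρ₀ D0 φ₀
    hφ₁ htr₀
  haveI := hfree
  have hquad : p ∈ T → QuotQuadraticAt (pointBC ρ₀ x) p (α p) := fun hpT =>
    haveI := hA₀.isLocalHom
    quotQuadraticAt_of_eigenform C.p_ne_two C.p_mem C.isAbsolutelyIrreducible_ρbar hA₀ ρ₀ hρ₀.1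
      C.badSet (levelOp C.badSet C.abar hK₀ ∅ C.eps) hρ₀.2.2 x σ hσ
      (fun h => C.not_dvd_baseLevel hT hpT (h.trans hM)) hg₀.1 α hα
      fun ℓ hℓ hℓS => by rw [hx ℓ hℓ hℓS, hα ℓ hℓ]
  obtain ⟨y, hy⟩ := exists_point_of_minimal hB rfl hL₀ hA₀ ρ₀ hρ₀ x σ hσ (hM.trans hL₀.symm.dvd)
    hg₀.1 α hα (fun ℓ hℓ hℓS => by rw [hx ℓ hℓ hℓS, hα ℓ hℓ]) hquad hA ρ hρ D0 φ₀ hφ₀ htr₀ γ f hγ
    hker hreg
  obtain ⟨M', g, hg, hM', hgW⟩ := hEnd p O C b hB (C.level b T) rfl hK y hy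
  haveI : NeZero M' := ⟨hM'.ne_zero⟩
  exact Curve.isModular_of_newform_squarefree C.delta_ne C.semistable hg hM' C.badSet hgW

/-- **Modularity lifting in the case of the route.** -/
theorem liftingSquarefreeInput_of (hEnd : EndInput) : Top.LiftingSquarefreeInput := by
  intro p hp W hΔ hW hirr M₀ _ hsq hpM hres
  haveI : Fact p.Prime := ⟨by rcases hp with rfl | rfl <;> norm_num⟩
  have hp2 : p ≠ 2 := by rcases hp with rfl | rfl <;> norm_num
  obtain ⟨sp, hsp1, hsp⟩ := exists_sign_at_p (p := p) hΔ hW hp2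
  obtain ⟨a, b, -, haux, hcase⟩ :=
    Setup.exists_auxiliary_case hΔ RT.Lower.lowerToRamified hW hp2 hirr hsq hpM.1 hres ∅
  obtain ⟨M, g₀, hg₀, O, _, _, _, _, _, _, _, C, hCW, -, -, hB, hM, -, -, α, σ, hσ, hα, -, hpt⟩ :=
    exists_ctx_point_of_isCase hΔ b hW hp hirr haux hcase sp hsp1 hsp
  exact hCW ▸ isModular_of_case hEnd C hB hg₀ hM α σ hσ hα hpt

end Fermat.Agent.Lifting.Assembly
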