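import Fermat.Agent.Lifting.Galois.SubRep
import Fermat.Agent.Lifting.Criterion.Defs
import Fermat.Agent.Lifting.Deform.Closure
import Fermat.Prelude.Def_GaloisRep_DeformationRingData

/-!
# Hecke systems and the maps classifying them

A `HeckeSystem` is a reduced local Hecke algebra `T` finite over `O`, a lattice on which it acts
faithfully and a representation over it of a given type with `trace ρ(Frob ℓ) = op ℓ` outside `S`.
A `Raising` is a pair of adjoint maps between two systems whose composite is a scalar on the eigen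
part of a point.
-/

set_option autoImplicit false
set_option linter.style.haveILetI false

noncomputable section

namespace Fermat.Agent.Lifting.Assembly

open IsLocalRing Module Fermat.Agent.Deform

/-- A Hecke algebra with its module and its representation. -/
structure HeckeSystem (O : Type) [CommRing O] [IsLocalRing O]
    (ρbar : ResidualGaloisRep (ResidueField O)) (C : Cond O) (S : Finset ℕ) : Type 1 where
  /-- The algebra. -/
  T : Type
  [commRing : CommRing T]
  [isLocalRing : IsLocalRing T]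
  [isReduced : IsReduced T]
  [algebra : Algebra O T]
  [finiteT : Module.Finite O T]
  [isLocalHom : IsLocalHom (algebraMap O T)]
  residue_surjective : Function.Surjective (residue T ∘ algebraMap O T)
  /-- The module. -/
  M : Type
  [addCommGroup : AddCommGroup M]
  [moduleO : Module O M]
  [finiteM : Module.Finite O M]
  [freeM : Module.Free O M]
  [nontrivialM : Nontrivial M]
  [moduleT : Module T M]
  [tower : IsScalarTower O T M]
  [faithful : FaithfulSMul T M]
  /-- The operators. -/
  op : ℕ → T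
  adjoin_op : Algebra.adjoin O (op '' {ℓ | ℓ.Prime ∧ ℓ ∉ S}) = ⊤
  /-- The representation. -/
  ρ : GaloisRepAdic T
  residual_isEquiv :
    ρ.residual.IsEquiv (ρbar.baseChangeAlong (ResidueField.map (algebraMap O T)))
  cond : C ρ
  trace_frobenius : ∀ ℓ : ℕ, ℓ.Prime → ℓ ∉ S → ∀ P : ValuationSubring (AlgebraicClosure ℚ),
    P.LiesOverPrime ℓ → ∀ σ : Gal, P.IsFrobeniusAt σ ℓ → ρ.trace σ = op ℓ

attribute [instance] HeckeSystem.commRing HeckeSystem.isLocalRing HeckeSystem.isReduced
  HeckeSystem.algebra HeckeSystem.finiteT HeckeSystem.isLocalHom HeckeSystem.addCommGroup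
  HeckeSystem.moduleO HeckeSystem.finiteM HeckeSystem.freeM HeckeSystem.nontrivialM
  HeckeSystem.moduleT HeckeSystem.tower HeckeSystem.faithful

section Basic

variable {O : Type} [CommRing O] [IsLocalRing O]
  {ρbar : ResidualGaloisRep (ResidueField O)} {C C₀ C₁ : Cond O} {S : Finset ℕ}

theorem HeckeSystem.isResAlg (H : HeckeSystem O ρbar C S) : IsResAlg O H.T :=
  ⟨H.isLocalHom, H.residue_surjective⟩

/-- The raising maps from the system `H₀` to `H₁` at the point `x` with congruence factor `c`. -/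
structure Raising (H₀ : HeckeSystem O ρbar C₀ S) (H₁ : HeckeSystem O ρbar C₁ S)
    (x : H₀.T →ₐ[O] O) (c : O) where
  /-- The map of algebras. -/
  π : H₁.T →ₐ[O] H₀.T
  π_op : ∀ ℓ : ℕ, ℓ.Prime → ℓ ∉ S → π (H₁.op ℓ) = H₀.op ℓ
  /-- Raising. -/
  δ : H₀.M →ₗ[O] H₁.M
  /-- Its adjoint. -/
  cor : H₁.M →ₗ[O] H₀.M
  δ_smul : ∀ (t : H₁.T) (m : H₀.M), δ (π t • m) = t • δ m
  cor_smul : ∀ (t : H₁.T) (m : H₁.M), cor (t • m) = π t • cor m
  cor_δ : ∀ m ∈ eigenPart x H₀.M, cor (δ m) = c • m
  cor_surjective : Function.Surjective cor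
  δ_saturated : ∀ (m : H₀.M) (y : H₁.M), ∀ ϖ : O, Irreducible ϖ → δ m = ϖ • y →
    ∃ m₀ : H₀.M, m = ϖ • m₀
  cor_injective : ∀ y ∈ eigenPart (x.comp π) H₁.M, cor y = 0 → y = 0

theorem Raising.π_surjective {H₀ : HeckeSystem O ρbar C₀ S} {H₁ : HeckeSystem O ρbar C₁ S}
    {x : H₀.T →ₐ[O] O} {c : O} (h : Raising H₀ H₁ x c) : Function.Surjective h.π := by
  refine (AlgHom.range_eq_top h.π).mp (top_le_iff.mp ?_)
  rw [← H₀.adjoin_op]
  refine Algebra.adjoin_le ?_
  rintro _ ⟨ℓ, ⟨hℓ, hℓS⟩, rfl⟩
  exact ⟨H₁.op ℓ, h.π_op ℓ hℓ hℓS⟩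

end Basic

variable {O : Type} [CommRing O] [IsDomain O] [IsDiscreteValuationRing O]
  {ρbar : ResidualGaloisRep (ResidueField O)} {C : Cond O} {S : Finset ℕ}

theorem HeckeSystem.isNoetherianRing (H : HeckeSystem O ρbar C S) : IsNoetherianRing H.T :=
  IsNoetherianRing.of_finite O H.T

theorem HeckeSystem.isAdicComplete [IsAdicComplete (maximalIdeal O) O] (H : HeckeSystem O ρbar C S) :
    IsAdicComplete (maximalIdeal H.T) H.T :=
  isAdicComplete_of_module_finite (𝒪 := O)

/-- Algebra homomorphisms between residual algebras finite over `O` are local. -/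
theorem isLocalHom_algHom {A B : Type} [CommRing A] [IsLocalRing A] [Algebra O A]
    [CommRing B] [IsLocalRing B] [Algebra O B] [IsLocalHom (algebraMap O B)]
    [Module.Finite O A] [IsLocalHom (algebraMap O A)] (φ : A →ₐ[O] B) : IsLocalHom (φ : A →+* B) := by
  obtain ⟨j, hj⟩ := RT.Assembly.exists_pow_le_map (O := O) (A := A)
  refine ⟨fun a ha => by_contra fun hna => ?_⟩
  have hmem : a ^ j ∈ (maximalIdeal O).map (algebraMap O A) :=
    hj (Ideal.pow_mem_pow ((mem_maximalIdeal _).mpr hna) j)
  have h2 := Ideal.mem_map_of_mem (φ : A →+* B) hmem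
  rw [Ideal.map_map, AlgHom.comp_algebraMap] at h2
  have h3 : φ (a ^ j) ∈ maximalIdeal B := by
    refine Ideal.map_le_iff_le_comap.mpr (fun o ho => ?_) h2
    exact Ideal.mem_comap.mpr (map_nonunit (algebraMap O B) o ho)
  rw [map_pow] at h3
  exact (mem_maximalIdeal _).mp h3 (ha.pow j)

section Classify

variable [IsAdicComplete (maximalIdeal O) O] (DR : GaloisRep.DeformationRingData O ρbar C) {A : Type} [CommRing A] [IsLocalRing A]
  [Algebra O A]

/-- The trace of the universal representation maps to that of the one it classifies. -/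
theorem map_trace (φ : DR.R →ₐ[O] A) (ρA : GaloisRepAdic A)
    (h : ∃ hφ : IsLocalHom (φ : DR.R →+* A),
      (DR.ρ.baseChangeAlong (φ : DR.R →+* A) hφ).IsEquiv ρA) (σ : Gal) :
    φ (DR.ρ.trace σ) = ρA.trace σ := by
  obtain ⟨hφ, ⟨e⟩⟩ := h
  refine Eq.trans ?_ (trace_congr e σ).symm
  letI := (φ : DR.R →+* A).toAlgebra
  exact (LinearMap.trace_baseChange (DR.ρ.ρ σ) A).symm

/-- The pushforward of the universal representation has the right residual representation. -/
theorem residual_pushforward [IsLocalHom (algebraMap O A)]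
    (hA : IsResAlg O A) (φ : DR.R →ₐ[O] A) (hφ : IsLocalHom (φ : DR.R →+* A)) :
    (DR.ρ.baseChangeAlong (φ : DR.R →+* A) hφ).residual.IsEquiv
      (ρbar.baseChangeAlong (ResidueField.map (algebraMap O A))) := by
  let bb : Basis (Fin 2) (ResidueField O) ρbar.V :=
    Module.finBasisOfFinrankEq (ResidueField O) ρbar.V ρbar.finrank_eq
  obtain ⟨W, hW⟩ := exists_rigid ρbar DR.absIrr bb
  have hR : IsResAlg O DR.R := ⟨inferInstance, DR.residue_surjective⟩
  obtain ⟨B, hl⟩ := exists_lifts_basis hW hR DR.ρ DR.residual_isEquiv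
  letI := (φ : DR.R →+* A).toAlgebra
  refine residual_isEquiv_of_lifts hW hA _ (B.baseChange _) ?_
  rw [matOf_baseChangeAlong]
  exact hl.map hA φ hφ

end Classify

end Fermat.Agent.Lifting.Assembly
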